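import Mathlib
import Fermat.Agent.IntStr.E4N
import Fermat.Agent.LevelOne.Basic
import Fermat.Prelude.Def_ModularForm_HeckeOperator

set_option autoImplicit false

noncomputable section

namespace Fermat.Agent.Eis

open UpperHalfPlane ModularForm CongruenceSubgroup Matrix Matrix.SpecialLinearGroup Filter
open scoped MatrixGroups Manifold
open Fermat.Agent.IntStr

variable {p : ℕ} {k l : ℤ} {f g : ℍ → ℂ}

theorem mapGL_apply_real (g : SL(2, ℤ)) (i j : Fin 2) :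
    ((mapGL ℝ g : GL (Fin 2) ℝ) : Matrix (Fin 2) (Fin 2) ℝ) i j = ((g i j : ℤ) : ℝ) := by simp

/-! ### Slash by `S` and `T ^ j` -/

theorem coe_S_smul (z : ℍ) : ((ModularGroup.S • z : ℍ) : ℂ) = (-(z : ℂ))⁻¹ := by
  rw [modular_S_smul, coe_mk]

theorem slash_S_apply (f : ℍ → ℂ) (k : ℤ) (z : ℍ) :
    (f ∣[k] ModularGroup.S) z = (z : ℂ) ^ (-k) * f (ModularGroup.S • z) := by
  rw [SL_slash_apply, ModularGroup.denom_S, mul_comm]

theorem slash_T_zpow_apply (f : ℍ → ℂ) (k j : ℤ) (z : ℍ) :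
    (f ∣[k] (ModularGroup.T ^ j)) z = f ((j : ℝ) +ᵥ z) := by
  rw [SL_slash_apply, UpperHalfPlane.modular_T_zpow_smul]
  have : denom (ModularGroup.T ^ j : SL(2, ℤ)) z = 1 := by
    rw [ModularGroup.denom_apply, ModularGroup.coe_T_zpow]
    simp
  rw [this]
  simp

/-! ### The operator `V_p` -/

/-- `V_p f (z) = f (p z)`. -/
def V (p : ℕ) (f : ℍ → ℂ) : ℍ → ℂ := fun z => f (heckeDiagMatrix p • z)

theorem V_apply (z : ℍ) : V p f z = f (heckeDiagMatrix p • z) := rfl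

theorem V_add : V p (f + g) = V p f + V p g := rfl
theorem V_mul : V p (f * g) = V p f * V p g := rfl
theorem V_smul (c : ℂ) : V p (c • f) = c • V p f := rfl

theorem V_eq_slash (hp : p ≠ 0) (k : ℤ) (f : ℍ → ℂ) :
    V p f = ((p : ℂ) ^ (1 - k)) • (f ∣[k] heckeDiagMatrix p) := by
  have hpc : (p : ℂ) ≠ 0 := by exact_mod_cast hp
  funext z
  rw [Pi.smul_apply, slash_heckeDiagMatrix_apply k hp, V_apply, smul_eq_mul, ← mul_assoc,
    ← zpow_add₀ hpc]
  simp

theorem V_holo (hp : p ≠ 0) (hf : MDiff f) : MDiff (V p f) := by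
  rw [V_eq_slash hp 0]
  exact (hf.slash 0 _).const_smul _

theorem V_bdd (hp : p ≠ 0) (hf : IsBoundedAtImInfty f) : IsBoundedAtImInfty (V p f) := by
  rw [V_eq_slash hp 0]
  refine (hf.slash _ (by simp [val_heckeDiagMatrix hp])).const_smul_left _

theorem V_zero (hp : p ≠ 0) (hf : IsZeroAtImInfty f) : IsZeroAtImInfty (V p f) := by
  have : Tendsto (fun z : ℍ => heckeDiagMatrix p • z) atImInfty atImInfty :=
    tendsto_smul_atImInfty (by simp [val_heckeDiagMatrix hp])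
  exact hf.comp this

/-! ### The Fricke operator -/

/-- The (unnormalised) Fricke operator `W f (z) = z ^ (-k) f(-1/(p z))`. -/
def W (p : ℕ) (k : ℤ) (f : ℍ → ℂ) : ℍ → ℂ := ((p : ℂ) ^ k) • V p (f ∣[k] ModularGroup.S)

theorem W_apply (hp : p ≠ 0) (z : ℍ) : W p k f z =
    (z : ℂ) ^ (-k) * f (ModularGroup.S • heckeDiagMatrix p • z) := by
  have hpc : (p : ℂ) ≠ 0 := by exact_mod_cast hp
  rw [W, Pi.smul_apply, V_apply, slash_S_apply, coe_heckeDiagMatrix_smul hp, smul_eq_mul,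
    ← mul_assoc, mul_zpow, ← mul_assoc, ← zpow_add₀ hpc]
  simp

theorem W_add : W p k (f + g) = W p k f + W p k g := by
  rw [W, SlashAction.add_slash, V_add, smul_add]; rfl

theorem W_smul (c : ℂ) : W p k (c • f) = c • W p k f := by
  rw [W, SL_smul_slash, V_smul, smul_comm]; rfl

theorem W_neg : W p k (-f) = - W p k f := by
  have := W_smul (p := p) (k := k) (f := f) (-1)
  simpa using this

theorem W_sub : W p k (f - g) = W p k f - W p k g := by
  rw [sub_eq_add_neg, W_add, W_neg, sub_eq_add_neg]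

theorem W_mul (hp : p ≠ 0) : W p (k + l) (f * g) = W p k f * W p l g := by
  funext z
  have hz : (z : ℂ) ≠ 0 := ne_zero z
  rw [Pi.mul_apply, W_apply hp, W_apply hp, W_apply hp, Pi.mul_apply, neg_add, zpow_add₀ hz]
  ring

theorem W_level_one {G : ℍ → ℂ} (hG : G ∣[k] ModularGroup.S = G) :
    W p k G = ((p : ℂ) ^ k) • V p G := by
  rw [W, hG]

theorem S_smul_diag_S_smul_diag (hp : p ≠ 0) (z : ℍ) :
    ModularGroup.S • heckeDiagMatrix p • (ModularGroup.S • heckeDiagMatrix p • z) = z := by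
  have hpc : (p : ℂ) ≠ 0 := by exact_mod_cast hp
  have hz : (z : ℂ) ≠ 0 := ne_zero z
  apply UpperHalfPlane.ext
  rw [coe_S_smul, coe_heckeDiagMatrix_smul hp, coe_S_smul, coe_heckeDiagMatrix_smul hp]
  field_simp

theorem diag_S_smul_diag (hp : p ≠ 0) (z : ℍ) :
    heckeDiagMatrix p • ModularGroup.S • heckeDiagMatrix p • z = ModularGroup.S • z := by
  have hpc : (p : ℂ) ≠ 0 := by exact_mod_cast hp
  have hz : (z : ℂ) ≠ 0 := ne_zero z
  apply UpperHalfPlane.ext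
  rw [coe_heckeDiagMatrix_smul hp, coe_S_smul, coe_heckeDiagMatrix_smul hp, coe_S_smul]
  field_simp

theorem W_V (hp : p ≠ 0) : W p k (V p f) = f ∣[k] ModularGroup.S := by
  funext z
  rw [W_apply hp, V_apply, diag_S_smul_diag hp, slash_S_apply]

theorem W_W (hp : p ≠ 0) (hk : Even k) : W p k (W p k f) = ((p : ℂ) ^ k) • f := by
  have hpc : (p : ℂ) ≠ 0 := by exact_mod_cast hp
  funext z
  have hz : (z : ℂ) ≠ 0 := ne_zero z
  rw [W_apply hp, W_apply hp, S_smul_diag_S_smul_diag hp, Pi.smul_apply, smul_eq_mul, ← mul_assoc,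
    coe_S_smul, coe_heckeDiagMatrix_smul hp]
  have h1 : ((-((p : ℂ) * (z : ℂ)))⁻¹) ^ (-k) = (p : ℂ) ^ k * (z : ℂ) ^ k := by
    rw [_root_.inv_zpow, _root_.zpow_neg, inv_inv, hk.neg_zpow, mul_zpow]
  have h2 : (z : ℂ) ^ (-k) * (z : ℂ) ^ k = 1 := by
    rw [← zpow_add₀ hz]
    simp
  rw [h1]
  linear_combination ((p : ℂ) ^ k * f z) * h2

/-! ### Cosets of `Γ₀(p)` -/

theorem mul_inv_apply_10 (γ δ : SL(2, ℤ)) :
    (γ * δ⁻¹) 1 0 = γ 1 0 * δ 1 1 - γ 1 1 * δ 1 0 := by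
  simp [Matrix.SpecialLinearGroup.coe_mul, Matrix.mul_apply, Fin.sum_univ_two,
    Matrix.SpecialLinearGroup.coe_inv, Matrix.adjugate_fin_two]
  ring

theorem ST_apply (j : ℤ) :
    ((ModularGroup.S * ModularGroup.T ^ j : SL(2, ℤ)) : Matrix (Fin 2) (Fin 2) ℤ) =
      !![0, -1; 1, j] := by
  rw [Matrix.SpecialLinearGroup.coe_mul, ModularGroup.coe_S, ModularGroup.coe_T_zpow,
    Matrix.mul_fin_two]
  simp

theorem mem_Gamma0_iff (γ : SL(2, ℤ)) : γ ∈ Gamma0 p ↔ (p : ℤ) ∣ γ 1 0 := by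
  rw [Gamma0_mem, ZMod.intCast_zmod_eq_zero_iff_dvd]

theorem slash_eq_of_mul_inv_mem (hf : ∀ γ ∈ Gamma0 p, f ∣[k] γ = f) {γ δ : SL(2, ℤ)}
    (h : γ * δ⁻¹ ∈ Gamma0 p) : f ∣[k] γ = f ∣[k] δ := by
  have h1 := hf _ h
  have h2 : γ = (γ * δ⁻¹) * δ := by group
  rw [h2, SlashAction.slash_mul, h1]

theorem exists_ST (hp : p.Prime) (γ : SL(2, ℤ)) (h : γ ∉ Gamma0 p) :
    ∃ j : ℕ, j < p ∧ γ * (ModularGroup.S * ModularGroup.T ^ (j : ℤ))⁻¹ ∈ Gamma0 p := by
  have : Fact p.Prime := ⟨hp⟩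
  have hc : ((γ 1 0 : ℤ) : ZMod p) ≠ 0 := by
    intro h0
    exact h (by rw [Gamma0_mem]; exact h0)
  refine ⟨(((γ 1 1 : ℤ) : ZMod p) / ((γ 1 0 : ℤ) : ZMod p)).val, ZMod.val_lt _, ?_⟩
  rw [Gamma0_mem, mul_inv_apply_10, ST_apply]
  simp only [Matrix.of_apply, Matrix.cons_val', Matrix.cons_val_one, Matrix.cons_val_fin_one,
    Matrix.cons_val_zero]
  push_cast
  rw [ZMod.natCast_zmod_val]
  field_simp
  ring

/-- For a `Γ₀(p)`-invariant function, any slash is `f` or `(f|S)|T^j`. -/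
theorem slash_cases (hp : p.Prime) (hf : ∀ γ ∈ Gamma0 p, f ∣[k] γ = f) (γ : SL(2, ℤ)) :
    f ∣[k] γ = f ∨ ∃ j : ℕ, j < p ∧
      f ∣[k] γ = (f ∣[k] ModularGroup.S) ∣[k] (ModularGroup.T ^ (j : ℤ)) := by
  by_cases h : γ ∈ Gamma0 p
  · exact Or.inl (hf γ h)
  · obtain ⟨j, hj, hj'⟩ := exists_ST hp γ h
    refine Or.inr ⟨j, hj, ?_⟩
    rw [slash_eq_of_mul_inv_mem hf hj', SlashAction.slash_mul]

theorem bdd_slash_T_zpow (hf : IsBoundedAtImInfty f) (j : ℤ) :
    IsBoundedAtImInfty (f ∣[k] (ModularGroup.T ^ j)) := by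
  rw [SL_slash]
  refine hf.slash _ ?_
  have : ((ModularGroup.T ^ j : SL(2, ℤ)) 1 0) = 0 := by
    rw [ModularGroup.coe_T_zpow]; rfl
  change ((mapGL ℝ (ModularGroup.T ^ j) : GL (Fin 2) ℝ) : Matrix (Fin 2) (Fin 2) ℝ) 1 0 = 0
  rw [mapGL_apply_real, this, Int.cast_zero]

theorem zero_slash_T_zpow (hf : IsZeroAtImInfty f) (j : ℤ) :
    IsZeroAtImInfty (f ∣[k] (ModularGroup.T ^ j)) := by
  rw [SL_slash]
  refine hf.slash _ ?_
  have : ((ModularGroup.T ^ j : SL(2, ℤ)) 1 0) = 0 := by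
    rw [ModularGroup.coe_T_zpow]; rfl
  change ((mapGL ℝ (ModularGroup.T ^ j) : GL (Fin 2) ℝ) : Matrix (Fin 2) (Fin 2) ℝ) 1 0 = 0
  rw [mapGL_apply_real, this, Int.cast_zero]

theorem isMF_of (hp : p.Prime) (hholo : MDiff f) (hf : ∀ γ ∈ Gamma0 p, f ∣[k] γ = f)
    (h1 : IsBoundedAtImInfty f) (h2 : IsBoundedAtImInfty (f ∣[k] ModularGroup.S)) :
    IsMF (Gamma0 p) k f where
  holo := hholo
  slash := hf
  bdd γ := by
    rcases slash_cases hp hf γ with h | ⟨j, -, h⟩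
    · rw [h]; exact h1
    · rw [h]; exact bdd_slash_T_zpow h2 j

theorem zero_of (hp : p.Prime) (hf : ∀ γ ∈ Gamma0 p, f ∣[k] γ = f)
    (h1 : IsZeroAtImInfty f) (h2 : IsZeroAtImInfty (f ∣[k] ModularGroup.S)) (γ : SL(2, ℤ)) :
    IsZeroAtImInfty (f ∣[k] γ) := by
  rcases slash_cases hp hf γ with h | ⟨j, -, h⟩
  · rw [h]; exact h1
  · rw [h]; exact zero_slash_T_zpow h2 j

/-- The Fricke operator as a slash operator. -/
theorem W_eq_slash (hp : p ≠ 0) (k : ℤ) (f : ℍ → ℂ) :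
    W p k f = (p : ℂ) • ((f ∣[k] ModularGroup.S) ∣[k] heckeDiagMatrix p) := by
  have hpc : (p : ℂ) ≠ 0 := by exact_mod_cast hp
  rw [W, V_eq_slash hp k, smul_smul, ← zpow_add₀ hpc]
  simp

theorem diag_mul_comm (hp : p ≠ 0) (a b c d : ℤ) (h1 : a * d - b * (p * c) = 1) :
    ∃ γ γ' : SL(2, ℤ), (γ : Matrix (Fin 2) (Fin 2) ℤ) = !![a, b; p * c, d] ∧
      (γ' : Matrix (Fin 2) (Fin 2) ℤ) = !![a, p * b; c, d] ∧
      heckeDiagMatrix p * (mapGL ℝ γ) = (mapGL ℝ γ') * heckeDiagMatrix p := by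
  obtain ⟨γ, hγ⟩ : ∃ γ : SL(2, ℤ), (γ : Matrix (Fin 2) (Fin 2) ℤ) = !![a, b; p * c, d] :=
    ⟨⟨!![a, b; p * c, d], by rw [Matrix.det_fin_two_of]; linarith⟩, rfl⟩
  obtain ⟨γ', hγ'⟩ : ∃ γ : SL(2, ℤ), (γ : Matrix (Fin 2) (Fin 2) ℤ) = !![a, p * b; c, d] :=
    ⟨⟨!![a, p * b; c, d], by rw [Matrix.det_fin_two_of]; linarith⟩, rfl⟩
  refine ⟨γ, γ', hγ, hγ', ?_⟩
  apply Units.ext
  have e1 : ∀ (γ : SL(2, ℤ)), ((mapGL ℝ γ : GL (Fin 2) ℝ) : Matrix (Fin 2) (Fin 2) ℝ) =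
      !![((γ 0 0 : ℤ) : ℝ), ((γ 0 1 : ℤ) : ℝ); ((γ 1 0 : ℤ) : ℝ), ((γ 1 1 : ℤ) : ℝ)] := by
    intro γ
    ext i j
    rw [mapGL_apply_real]
    fin_cases i <;> fin_cases j <;> rfl
  rw [Units.val_mul, Units.val_mul, val_heckeDiagMatrix hp, e1, e1, Matrix.mul_fin_two,
    Matrix.mul_fin_two, hγ, hγ']
  ext i j
  fin_cases i <;> fin_cases j <;> simp [mul_comm]

theorem W_slash (hp : p ≠ 0) (hf : ∀ γ ∈ Gamma0 p, f ∣[k] γ = f) (γ : SL(2, ℤ))
    (hγ : γ ∈ Gamma0 p) : W p k f ∣[k] γ = W p k f := by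
  obtain ⟨c, hc⟩ := (mem_Gamma0_iff γ).mp hγ
  have hdet : γ 0 0 * γ 1 1 - γ 0 1 * (p * c) = 1 := by
    rw [← hc]
    have := γ.det_coe
    rw [Matrix.det_fin_two] at this
    exact this
  obtain ⟨δ, δ', hδ, hδ', h⟩ := diag_mul_comm hp _ _ _ _ hdet
  have e : δ = γ := by
    ext i j
    rw [hδ]
    fin_cases i <;> fin_cases j <;> simp [hc]
  subst e
  rw [W_eq_slash hp, SL_smul_slash, SL_slash, ← SlashAction.slash_mul]
  change (p : ℂ) • ((f ∣[k] ModularGroup.S) ∣[k] (heckeDiagMatrix p * mapGL ℝ δ)) = _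
  rw [h, SlashAction.slash_mul]
  change (p : ℂ) • (((f ∣[k] ModularGroup.S) ∣[k] δ') ∣[k] heckeDiagMatrix p) = _
  rw [← SlashAction.slash_mul]
  have h3 : f ∣[k] (ModularGroup.S * δ') = f ∣[k] ModularGroup.S := by
    apply slash_eq_of_mul_inv_mem hf
    rw [mem_Gamma0_iff, mul_inv_apply_10, Matrix.SpecialLinearGroup.coe_mul, hδ',
      ModularGroup.coe_S, Matrix.mul_fin_two]
    simp
  rw [h3]

theorem S_diag_S_smul (hp : p ≠ 0) (z : ℍ) :
    ModularGroup.S • heckeDiagMatrix p • ModularGroup.S • z = heckeMatrix p 0 • z := by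
  have hpc : (p : ℂ) ≠ 0 := by exact_mod_cast hp
  have hz : (z : ℂ) ≠ 0 := ne_zero z
  apply UpperHalfPlane.ext
  rw [coe_S_smul, coe_heckeDiagMatrix_smul hp, coe_S_smul, coe_heckeMatrix_smul hp]
  push_cast
  field_simp
  simp

theorem W_slash_S (hp : p ≠ 0) (hk : Even k) :
    W p k f ∣[k] ModularGroup.S = (p : ℂ) • (f ∣[k] heckeMatrix p 0) := by
  have hpc : (p : ℂ) ≠ 0 := by exact_mod_cast hp
  funext z
  have hz : (z : ℂ) ≠ 0 := ne_zero z
  rw [slash_S_apply, W_apply hp, S_diag_S_smul hp, coe_S_smul, Pi.smul_apply,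
    slash_heckeMatrix_apply k hp, smul_eq_mul, ← mul_assoc (p : ℂ), mul_inv_cancel₀ hpc, one_mul]
  have h1 : ((-(z : ℂ))⁻¹) ^ (-k) = (z : ℂ) ^ k := by
    rw [_root_.inv_zpow, _root_.zpow_neg, inv_inv, hk.neg_zpow]
  have h2 : (z : ℂ) ^ (-k) * (z : ℂ) ^ k = 1 := by
    rw [← zpow_add₀ hz]
    simp
  rw [h1, ← mul_assoc, h2, one_mul]

theorem W_mf (hp : p.Prime) (hk : Even k) (hf : IsMF (Gamma0 p) k f) :
    IsMF (Gamma0 p) k (W p k f) := by
  have hp0 := hp.ne_zero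
  refine isMF_of hp ?_ (W_slash hp0 hf.slash) ?_ ?_
  · exact (V_holo hp0 (hf.holo_slash _)).const_smul _
  · exact (V_bdd hp0 (hf.bdd _)).const_smul_left _
  · rw [W_slash_S hp0 hk]
    refine (hf.bdd_infty.slash _ ?_).const_smul_left _
    simp [val_heckeMatrix hp0]

theorem V_mf (hp : p.Prime) (hk : Even k) (hf : IsMF ⊤ k f) : IsMF (Gamma0 p) k (V p f) := by
  have h1 : IsMF (Gamma0 p) k f := hf.mono le_top
  have h2 := (W_mf hp hk h1).smul (((p : ℂ) ^ k)⁻¹)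
  have hpc : (p : ℂ) ≠ 0 := by exact_mod_cast hp.ne_zero
  rwa [W_level_one (hf.slash _ trivial), smul_smul, inv_mul_cancel₀ (zpow_ne_zero _ hpc),
    one_smul] at h2

theorem eq_zero_of_W_eq_zero (hp : p ≠ 0) (hk : Even k) (h : W p k f = 0) : f = 0 := by
  have hpc : (p : ℂ) ≠ 0 := by exact_mod_cast hp
  have h1 := W_W (f := f) hp hk
  rw [h] at h1
  have h2 : W p k (0 : ℍ → ℂ) = 0 := by
    have := W_smul (p := p) (k := k) (f := (0 : ℍ → ℂ)) 0
    simpa using this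
  rw [h2] at h1
  exact (smul_eq_zero.mp h1.symm).resolve_left (zpow_ne_zero _ hpc)

/-! ### `Γ₀(p)\SL₂(ℤ)` and the trace to level one -/

/-- index of a coset in `P¹(𝔽_p)` -/
def idx (p : ℕ) [Fact p.Prime] (γ : SL(2, ℤ)) : Option (ZMod p) :=
  if ((γ 1 0 : ℤ) : ZMod p) = 0 then none else
    some (((γ 1 1 : ℤ) : ZMod p) / ((γ 1 0 : ℤ) : ZMod p))

/-- representative of a coset -/
def rep (p : ℕ) [Fact p.Prime] : Option (ZMod p) → SL(2, ℤ)
  | none => 1
  | some x => ModularGroup.S * ModularGroup.T ^ (x.val : ℤ)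

section

variable [Fact p.Prime]

theorem det_zmod (γ : SL(2, ℤ)) :
    ((γ 0 0 : ℤ) : ZMod p) * ((γ 1 1 : ℤ) : ZMod p) -
      ((γ 0 1 : ℤ) : ZMod p) * ((γ 1 0 : ℤ) : ZMod p) = 1 := by
  have := γ.det_coe
  rw [Matrix.det_fin_two] at this
  exact_mod_cast congrArg (fun x : ℤ => (x : ZMod p)) this

theorem idx_rep (x : Option (ZMod p)) : idx p (rep p x) = x := by
  cases x with
  | none => simp [idx, rep]
  | some x =>
    have h := ST_apply (x.val : ℤ)
    rw [idx, rep]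
    have h1 : (ModularGroup.S * ModularGroup.T ^ (x.val : ℤ) : SL(2, ℤ)) 1 0 = 1 := by
      rw [h]; rfl
    have h2 : (ModularGroup.S * ModularGroup.T ^ (x.val : ℤ) : SL(2, ℤ)) 1 1 = (x.val : ℤ) := by
      rw [h]; rfl
    rw [h1, h2]
    simp

theorem idx_eq_iff (γ δ : SL(2, ℤ)) : idx p γ = idx p δ ↔ γ * δ⁻¹ ∈ Gamma0 p := by
  rw [Gamma0_mem, mul_inv_apply_10]
  push_cast
  have h1 := det_zmod (p := p) γ
  have h2 := det_zmod (p := p) δ
  rw [idx, idx]
  split_ifs with h3 h4 h4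
  · simp [h3, h4]
  · simp only [h3, zero_mul, zero_sub, neg_eq_zero, mul_eq_zero, h4, or_false,
      false_iff]
    intro h5
    rw [h3, h5] at h1
    simp at h1
  · simp only [h4, mul_zero, sub_zero, mul_eq_zero, h3, false_or, false_iff]
    intro h5
    rw [h4, h5] at h2
    simp at h2
  · rw [Option.some.injEq, div_eq_div_iff h3 h4]
    constructor
    · intro h
      linear_combination -h
    · intro h
      linear_combination -h

theorem holo_sum {ι : Type*} (s : Finset ι) (F : ι → ℍ → ℂ) (h : ∀ i ∈ s, MDiff (F i)) :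
    MDiff (∑ i ∈ s, F i) := by
  classical
  induction s using Finset.induction_on with
  | empty =>
    rw [Finset.sum_empty]
    exact mdifferentiable_const
  | insert i s hi ih =>
    rw [Finset.sum_insert hi]
    exact (h i (Finset.mem_insert_self i s)).add
      (ih fun j hj => h j (Finset.mem_insert_of_mem hj))

/-- The trace to level one. -/
def tr (p : ℕ) (k : ℤ) (f : ℍ → ℂ) : ℍ → ℂ :=
  f + ∑ j ∈ Finset.range p, (f ∣[k] ModularGroup.S) ∣[k] (ModularGroup.T ^ (j : ℤ))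

theorem tr_eq (p : ℕ) [Fact p.Prime] (k : ℤ) (f : ℍ → ℂ) :
    tr p k f = ∑ x : Option (ZMod p), f ∣[k] (rep p x) := by
  rw [tr, Fintype.sum_option, rep, SlashAction.slash_one]
  congr 1
  refine Finset.sum_nbij' (fun j => (j : ZMod p)) (fun x => x.val) ?_ ?_ ?_ ?_ ?_
  · simp
  · intro x _
    exact Finset.mem_range.mpr (ZMod.val_lt x)
  · intro j hj
    exact ZMod.val_cast_of_lt (Finset.mem_range.mp hj)
  · intro x _
    simp
  · intro j hj
    rw [rep, ZMod.val_cast_of_lt (Finset.mem_range.mp hj), SlashAction.slash_mul]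

theorem tr_slash (hf : ∀ γ ∈ Gamma0 p, f ∣[k] γ = f) (δ : SL(2, ℤ)) :
    tr p k f ∣[k] δ = tr p k f := by
  rw [tr_eq, SlashAction.sum_slash]
  have h1 : ∀ x : Option (ZMod p), (f ∣[k] (rep p x)) ∣[k] δ =
      f ∣[k] (rep p (idx p (rep p x * δ))) := by
    intro x
    rw [← SlashAction.slash_mul]
    apply slash_eq_of_mul_inv_mem hf
    rw [← idx_eq_iff, idx_rep]
  simp_rw [h1]
  have h2 : Function.Bijective (fun x : Option (ZMod p) => idx p (rep p x * δ)) := by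
    rw [Fintype.bijective_iff_injective_and_card]
    refine ⟨fun x y hxy => ?_, rfl⟩
    simp only at hxy
    rw [idx_eq_iff] at hxy
    have h3 : rep p x * δ * (rep p y * δ)⁻¹ = rep p x * (rep p y)⁻¹ := by group
    rw [h3, ← idx_eq_iff, idx_rep, idx_rep] at hxy
    exact hxy
  exact h2.sum_comp (fun y => f ∣[k] (rep p y))

theorem tr_mf (hf : IsMF (Gamma0 p) k f) : IsMF ⊤ k (tr p k f) := by
  have hp : p.Prime := Fact.out
  have hb : IsBoundedAtImInfty (tr p k f) := by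
    rw [tr]
    refine hf.bdd_infty.add ?_
    exact (boundedFilterSubmodule ℂ atImInfty).sum_mem fun j _ => bdd_slash_T_zpow (hf.bdd _) _
  refine ⟨?_, fun γ _ => tr_slash hf.slash γ, fun γ => ?_⟩
  · rw [tr]
    refine hf.holo.add ?_
    exact holo_sum _ _ fun j _ => (hf.holo_slash _).slash k _
  · rw [tr_slash hf.slash γ]
    exact hb

omit [Fact p.Prime] in
theorem heckeU_W (hp : p ≠ 0) (k : ℤ) (f : ℍ → ℂ) : heckeU k p (W p k f) =
    ((p : ℂ) ^ (k - 1)) •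
      ∑ j ∈ Finset.range p, (f ∣[k] ModularGroup.S) ∣[k] (ModularGroup.T ^ (j : ℤ)) := by
  have hpc : (p : ℂ) ≠ 0 := by exact_mod_cast hp
  funext z
  rw [heckeU_apply k hp, Pi.smul_apply, Finset.sum_apply, smul_eq_mul, Finset.mul_sum,
    Finset.mul_sum]
  refine Finset.sum_congr rfl fun j _ => ?_
  rw [W, Pi.smul_apply, V_apply, slash_T_zpow_apply, smul_eq_mul, ← mul_assoc]
  have h1 : heckeDiagMatrix p • heckeMatrix p j • z = (((j : ℤ) : ℝ) +ᵥ z : ℍ) := by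
    apply UpperHalfPlane.ext
    rw [coe_heckeDiagMatrix_smul hp, coe_heckeMatrix_smul hp, coe_vadd]
    push_cast
    field_simp
    ring
  rw [h1, zpow_sub_one₀ hpc, mul_comm ((p : ℂ)⁻¹)]

omit [Fact p.Prime] in
theorem tr_mul (hp : p ≠ 0) (k : ℤ) (f : ℍ → ℂ) : ((p : ℂ) ^ (k - 1)) • tr p k f =
    ((p : ℂ) ^ (k - 1)) • f + heckeU k p (W p k f) := by
  rw [heckeU_W hp, tr, smul_add]

/-- The trace to level one in terms of `U` and `W`. -/
theorem trace_mf (hf : IsMF (Gamma0 p) k f) :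
    IsMF ⊤ k (((p : ℂ) ^ (k - 1)) • f + heckeU k p (W p k f)) := by
  have hp : p.Prime := Fact.out
  rw [← tr_mul hp.ne_zero]
  exact (tr_mf hf).smul _

theorem eq_zero_of_weight_two (hf : IsMF ⊤ 2 f) : f = 0 := by
  have h1 : LevelOne.IsLevelOne 2 f := ⟨hf.holo, hf.bdd_infty, fun γ => hf.slash γ trivial⟩
  exact h1.eq_zero_of_two

/-- In weight two `W f = - p U f`. -/
theorem W_weight_two (hf : IsMF (Gamma0 p) 2 f) : W p 2 f = -((p : ℂ) • heckeU 2 p f) := by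
  have hp : p.Prime := Fact.out
  have hpc : (p : ℂ) ≠ 0 := by exact_mod_cast hp.ne_zero
  have h1 := eq_zero_of_weight_two (trace_mf (W_mf hp (by decide) hf))
  rw [W_W hp.ne_zero (by decide), heckeU_smul] at h1
  have h2 : (p : ℂ) • (W p 2 f + (p : ℂ) • heckeU 2 p f) = 0 := by
    rw [smul_add, smul_smul]
    convert h1 using 2
    · norm_num
    · congr 1
      rw [← pow_two]
      norm_cast
  have h3 := (smul_eq_zero.mp h2).resolve_left hpc
  exact eq_neg_of_add_eq_zero_left h3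

/-! ### `T₂` commutes with `W` -/

omit [Fact p.Prime] in
theorem exists_gamma_two {m : ℕ} (hp : p = 2 * m + 1) : ∃ γ ∈ Gamma0 p,
    (γ : Matrix (Fin 2) (Fin 2) ℤ) = !![(m : ℤ) + 1, 1; (p : ℤ), 2] := by
  obtain ⟨γ, hγ⟩ : ∃ γ : SL(2, ℤ), (γ : Matrix (Fin 2) (Fin 2) ℤ) =
      !![(m : ℤ) + 1, 1; (p : ℤ), 2] :=
    ⟨⟨!![(m : ℤ) + 1, 1; (p : ℤ), 2], by
      rw [Matrix.det_fin_two_of, hp]
      push_cast
      ring⟩, rfl⟩
  refine ⟨γ, ?_, hγ⟩
  rw [mem_Gamma0_iff, hγ]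
  exact dvd_rfl

omit [Fact p.Prime] in
theorem heckeT_two_W (hp : Odd p) (hf : ∀ γ ∈ Gamma0 p, f ∣[k] γ = f) :
    heckeT k 2 (W p k f) = W p k (heckeT k 2 f) := by
  have hp0 : p ≠ 0 := hp.pos.ne'
  have hpc : (p : ℂ) ≠ 0 := by exact_mod_cast hp0
  have h2 : (2 : ℕ) ≠ 0 := two_ne_zero
  funext z
  have hz : (z : ℂ) ≠ 0 := ne_zero z
  have hz1 : (z : ℂ) + 1 ≠ 0 := by
    intro h
    have := congrArg Complex.im h
    rw [Complex.add_im, Complex.one_im, add_zero, Complex.zero_im] at this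
    exact z.im_ne_zero this
  rw [heckeT_apply k h2, W_apply hp0, W_apply hp0, heckeT_apply k h2]
  simp only [Finset.sum_range_succ, Finset.sum_range_zero, zero_add, W_apply hp0]
  set w := ModularGroup.S • heckeDiagMatrix p • z with hw
  have cw : (w : ℂ) = -(1 / (p * z)) := by
    rw [hw, coe_S_smul, coe_heckeDiagMatrix_smul hp0]
    field_simp
  have e1 : ModularGroup.S • heckeDiagMatrix p • heckeMatrix 2 0 • z = heckeDiagMatrix 2 • w := by
    apply UpperHalfPlane.ext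
    rw [coe_S_smul, coe_heckeDiagMatrix_smul hp0, coe_heckeMatrix_smul h2,
      coe_heckeDiagMatrix_smul h2, cw]
    push_cast
    rw [add_zero]
    field_simp
  have e2 : ModularGroup.S • heckeDiagMatrix p • heckeDiagMatrix 2 • z = heckeMatrix 2 0 • w := by
    apply UpperHalfPlane.ext
    rw [coe_S_smul, coe_heckeDiagMatrix_smul hp0, coe_heckeMatrix_smul h2,
      coe_heckeDiagMatrix_smul h2, cw]
    push_cast
    rw [add_zero]
    field_simp
  obtain ⟨m, hm⟩ := hp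
  have hmc : (p : ℂ) = 2 * m + 1 := by rw [hm]; push_cast; ring
  obtain ⟨γ, hγ, hγ'⟩ := exists_gamma_two hm
  set u := ModularGroup.S • heckeDiagMatrix p • heckeMatrix 2 1 • z with hu
  have cu : (u : ℂ) = -(2 / (p * (z + 1))) := by
    rw [hu, coe_S_smul, coe_heckeDiagMatrix_smul hp0, coe_heckeMatrix_smul h2]
    push_cast
    field_simp
  have hden : denom γ u = 2 * z / (z + 1) := by
    rw [ModularGroup.denom_apply, cu, hγ']
    simp
    field_simp
    ring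
  have e3 : heckeMatrix 2 1 • w = γ • u := by
    apply UpperHalfPlane.ext
    rw [coe_heckeMatrix_smul h2, coe_specialLinearGroup_apply γ u, hγ', cu, cw]
    simp
    have h5 : -((p : ℂ) * (2 / (p * (z + 1)))) + 2 = 2 * z / (z + 1) := by
      field_simp
      ring
    rw [h5]
    field_simp
    rw [hmc]
    ring
  have h3 := congrFun (hf γ hγ) u
  rw [SL_slash_apply, ← e3, hden] at h3
  rw [e1, e2, ← h3, coe_heckeMatrix_smul h2, coe_heckeMatrix_smul h2, coe_heckeDiagMatrix_smul h2]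
  have h2c : (2 : ℂ) ≠ 0 := two_ne_zero
  push_cast
  simp only [add_zero, _root_.div_zpow, _root_.mul_zpow, _root_.zpow_neg,
    zpow_sub_one₀ h2c]
  have hz2 : (z : ℂ) ^ k ≠ 0 := zpow_ne_zero _ hz
  have hz3 : ((z : ℂ) + 1) ^ k ≠ 0 := zpow_ne_zero _ hz1
  have hz4 : (2 : ℂ) ^ k ≠ 0 := zpow_ne_zero _ h2c
  field_simp
  ring

/-! ### A criterion for `Γ₀(p)`-invariance -/

/-- stabilizer of a function under the slash action -/
def stab (k : ℤ) (g : ℍ → ℂ) : Subgroup SL(2, ℤ) where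
  carrier := {γ | g ∣[k] γ = g}
  one_mem' := SlashAction.slash_one _ _
  mul_mem' {a b} ha hb := by
    rw [Set.mem_ofPred_eq] at *
    rw [SlashAction.slash_mul, ha, hb]
  inv_mem' {a} ha := by
    rw [Set.mem_ofPred_eq] at *
    conv_lhs => rw [← ha]
    rw [← SlashAction.slash_mul, mul_inv_cancel, SlashAction.slash_one]

theorem mem_stab {γ : SL(2, ℤ)} : γ ∈ stab k g ↔ g ∣[k] γ = g := Iff.rfl

omit [Fact p.Prime] in
theorem slash_T_zpow_congr (hg : g ∣[k] (ModularGroup.T ^ (p : ℤ)) = g) {i j : ℤ}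
    (h : (p : ℤ) ∣ i - j) : g ∣[k] (ModularGroup.T ^ i) = g ∣[k] (ModularGroup.T ^ j) := by
  obtain ⟨m, hm⟩ := h
  have h1 : ModularGroup.T ^ ((p : ℤ) * m) ∈ stab k g := by
    rw [_root_.zpow_mul]
    exact (stab k g).zpow_mem (mem_stab.mpr hg) m
  have h2 : (ModularGroup.T ^ i : SL(2, ℤ)) =
      ModularGroup.T ^ ((p : ℤ) * m) * ModularGroup.T ^ j := by
    rw [← _root_.zpow_add]
    congr 1
    linarith
  rw [h2, SlashAction.slash_mul, mem_stab.mp h1]

theorem invariant_of_orbit {h : ℍ → ℂ} (hneg : h ∣[k] (-1 : SL(2, ℤ)) = h)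
    (hT : h ∣[k] ModularGroup.T = h)
    (hTp : (h ∣[k] ModularGroup.S) ∣[k] (ModularGroup.T ^ (p : ℤ)) = h ∣[k] ModularGroup.S)
    (hS : ∀ j j' : ℤ, (p : ℤ) ∣ j * j' + 1 →
      ((h ∣[k] ModularGroup.S) ∣[k] (ModularGroup.T ^ j)) ∣[k] ModularGroup.S =
        (h ∣[k] ModularGroup.S) ∣[k] (ModularGroup.T ^ j')) (γ : SL(2, ℤ)) (hγ : γ ∈ Gamma0 p) :
    h ∣[k] γ = h := by
  have hp : p.Prime := Fact.out
  -- values on representatives
  set F : Option (ZMod p) → (ℍ → ℂ) := fun x => h ∣[k] (rep p x) with hF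
  have F0 : F none = h := by simp [hF, rep]
  have F1 : ∀ (x : ZMod p) (i : ℤ), (i : ZMod p) = x →
      F (some x) = (h ∣[k] ModularGroup.S) ∣[k] (ModularGroup.T ^ i) := by
    intro x i hi
    rw [hF]
    simp only [rep]
    rw [SlashAction.slash_mul]
    apply slash_T_zpow_congr hTp
    rw [← ZMod.intCast_zmod_eq_zero_iff_dvd]
    push_cast
    rw [ZMod.natCast_zmod_val, hi, sub_self]
  have hTlaw : ∀ δ : SL(2, ℤ), F (idx p δ) ∣[k] ModularGroup.T = F (idx p (δ * ModularGroup.T)) := by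
    intro δ
    have e1 : (δ * ModularGroup.T) 1 0 = δ 1 0 := by
      simp [Matrix.SpecialLinearGroup.coe_mul, ModularGroup.coe_T, Matrix.mul_apply,
        Fin.sum_univ_two]
    have e2 : (δ * ModularGroup.T) 1 1 = δ 1 0 + δ 1 1 := by
      simp [Matrix.SpecialLinearGroup.coe_mul, ModularGroup.coe_T, Matrix.mul_apply,
        Fin.sum_univ_two]
    rw [idx, idx, e1, e2]
    split_ifs with h0
    · rw [F0, hT]
    · set x := ((δ 1 1 : ℤ) : ZMod p) / ((δ 1 0 : ℤ) : ZMod p) with hx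
      have e3 : (((δ 1 0 + δ 1 1 : ℤ)) : ZMod p) / ((δ 1 0 : ℤ) : ZMod p) = x + 1 := by
        rw [hx]
        push_cast
        field_simp
        ring
      rw [e3, F1 x (x.val : ℤ) (by simp), F1 (x + 1) ((x.val : ℤ) + 1) (by simp),
        _root_.zpow_add, zpow_one, SlashAction.slash_mul]
  have hSlaw : ∀ δ : SL(2, ℤ), F (idx p δ) ∣[k] ModularGroup.S = F (idx p (δ * ModularGroup.S)) := by
    intro δ
    have e1 : (δ * ModularGroup.S) 1 0 = δ 1 1 := by
      simp [Matrix.SpecialLinearGroup.coe_mul, ModularGroup.coe_S, Matrix.mul_apply,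
        Fin.sum_univ_two]
    have e2 : (δ * ModularGroup.S) 1 1 = - δ 1 0 := by
      simp [Matrix.SpecialLinearGroup.coe_mul, ModularGroup.coe_S, Matrix.mul_apply,
        Fin.sum_univ_two]
    have hdet := det_zmod (p := p) δ
    rw [idx, idx, e1, e2]
    split_ifs with h0 h1 h1
    · rw [h0, h1] at hdet
      simp at hdet
    · push_cast
      rw [h0, neg_zero, zero_div, F0, F1 0 0 (by simp), zpow_zero, SlashAction.slash_one]
    · rw [h1, zero_div, F0, F1 0 0 (by simp), zpow_zero, SlashAction.slash_one,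
        ← SlashAction.slash_mul]
      have : ModularGroup.S * ModularGroup.S = (-1 : SL(2, ℤ)) := by
        ext i j
        rw [Matrix.SpecialLinearGroup.coe_mul, ModularGroup.coe_S, Matrix.mul_fin_two]
        fin_cases i <;> fin_cases j <;> simp
      rw [this, hneg]
    · set x := ((δ 1 1 : ℤ) : ZMod p) / ((δ 1 0 : ℤ) : ZMod p) with hx
      set y := (((-δ 1 0 : ℤ)) : ZMod p) / ((δ 1 1 : ℤ) : ZMod p) with hy
      rw [F1 x (x.val : ℤ) (by simp), F1 y (y.val : ℤ) (by simp)]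
      apply hS
      rw [← ZMod.intCast_zmod_eq_zero_iff_dvd]
      push_cast
      rw [ZMod.natCast_zmod_val, ZMod.natCast_zmod_val, hx, hy]
      push_cast
      field_simp
      ring
  have key : ∀ δ : SL(2, ℤ), h ∣[k] δ = F (idx p δ) := by
    intro δ
    have hmem : δ ∈ Subgroup.closure {ModularGroup.S, ModularGroup.T} := by
      rw [SpecialLinearGroup.SL2Z_generators]
      trivial
    induction hmem using Subgroup.closure_induction_right with
    | one => simp [idx, F0]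
    | mul_right x hx y hy ih =>
      rw [SlashAction.slash_mul, ih]
      rcases hy with rfl | rfl
      · exact hSlaw x
      · exact hTlaw x
    | mul_inv_cancel x hx y hy ih =>
      have : F (idx p (x * y⁻¹)) ∣[k] y = h ∣[k] x := by
        rw [ih]
        rcases hy with rfl | rfl
        · rw [hSlaw]; group
        · rw [hTlaw]; group
      rw [SlashAction.slash_mul, ← this, ← SlashAction.slash_mul, mul_inv_cancel,
        SlashAction.slash_one]
  rw [key, ← F0]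
  congr 1
  rw [idx, if_pos]
  rw [Gamma0_mem] at hγ
  exact hγ

end

end Fermat.Agent.Eis
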