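import Mathlib
import Fermat.Agent.Eis.Gamma0p
import Fermat.Prelude.Thm_UpperHalfPlane_qCoeff_heckeT
import Fermat.Prelude.Thm_UpperHalfPlane_qCoeff_heckeU
import Fermat.Prelude.Def_ModularForm_HeckeOperatorForms

set_option autoImplicit false

noncomputable section

namespace Fermat.Agent.Eis

open UpperHalfPlane ModularForm CongruenceSubgroup Matrix Matrix.SpecialLinearGroup Filter
open scoped MatrixGroups Manifold
open Fermat.Agent.IntStr

/-- the embedding of integral power series in complex ones -/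
def tc : PowerSeries ℤ →+* PowerSeries ℂ := PowerSeries.map (Int.castRingHom ℂ)

@[simp] theorem coeff_tc (a : PowerSeries ℤ) (n : ℕ) : (tc a).coeff n = ((a.coeff n : ℤ) : ℂ) := by
  simp [tc]

theorem tc_injective : Function.Injective tc := by
  intro a b h
  ext n
  have := congrArg (fun x => PowerSeries.coeff n x) h
  simpa using this

theorem cf_zsmul (c : ℤ) (a : PowerSeries ℤ) (n : ℕ) : (c • a).coeff n = c * a.coeff n := by
  rw [map_zsmul, smul_eq_mul]

theorem tc_zsmul (c : ℤ) (a : PowerSeries ℤ) : tc (c • a) = (c : ℂ) • tc a := by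
  ext n
  rw [coeff_tc, cf_zsmul, map_smul, coeff_tc, smul_eq_mul]
  push_cast
  rfl

section

variable {R R' : Type*} [CommRing R] [CommRing R']

/-- `V_p` on power series -/
def Vs (p : ℕ) (a : PowerSeries R) : PowerSeries R :=
  PowerSeries.mk fun n => if p ∣ n then a.coeff (n / p) else 0

/-- `U_p` on power series -/
def Us (p : ℕ) (a : PowerSeries R) : PowerSeries R :=
  PowerSeries.mk fun n => a.coeff (n * p)

/-- `T_2` on power series in weight `k` -/
def Ts (k : ℕ) (a : PowerSeries R) : PowerSeries R := Us 2 a + (2 : ℤ) ^ (k - 1) • Vs 2 a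

@[simp] theorem coeff_Vs (p : ℕ) (a : PowerSeries R) (n : ℕ) :
    (Vs p a).coeff n = if p ∣ n then a.coeff (n / p) else 0 := by simp [Vs]

@[simp] theorem coeff_Us (p : ℕ) (a : PowerSeries R) (n : ℕ) :
    (Us p a).coeff n = a.coeff (n * p) := by simp [Us]

theorem cf_zsmul' (c : ℤ) (a : PowerSeries R) (n : ℕ) : (c • a).coeff n = (c : R) * a.coeff n := by
  rw [map_zsmul, zsmul_eq_mul]

theorem Us_add (p : ℕ) (a b : PowerSeries R) : Us p (a + b) = Us p a + Us p b := by ext n; simp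
theorem Us_sub (p : ℕ) (a b : PowerSeries R) : Us p (a - b) = Us p a - Us p b := by ext n; simp
theorem Us_zsmul (p : ℕ) (c : ℤ) (a : PowerSeries R) : Us p (c • a) = c • Us p a := by
  ext n; rw [coeff_Us, cf_zsmul', cf_zsmul', coeff_Us]
theorem Vs_add (p : ℕ) (a b : PowerSeries R) : Vs p (a + b) = Vs p a + Vs p b := by
  ext n; simp only [coeff_Vs, map_add]; split_ifs <;> simp
theorem Vs_sub (p : ℕ) (a b : PowerSeries R) : Vs p (a - b) = Vs p a - Vs p b := by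
  ext n; simp only [coeff_Vs, map_sub]; split_ifs <;> simp
theorem Vs_zsmul (p : ℕ) (c : ℤ) (a : PowerSeries R) : Vs p (c • a) = c • Vs p a := by
  ext n; simp only [coeff_Vs, cf_zsmul']; split_ifs <;> simp
theorem Us_zero (p : ℕ) : Us p (0 : PowerSeries R) = 0 := by ext n; simp
theorem Vs_zero (p : ℕ) : Vs p (0 : PowerSeries R) = 0 := by ext n; simp

theorem Ts_add (k : ℕ) (a b : PowerSeries R) : Ts k (a + b) = Ts k a + Ts k b := by
  simp only [Ts, Us_add, Vs_add, smul_add]; abel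
theorem Ts_zsmul (k : ℕ) (c : ℤ) (a : PowerSeries R) : Ts k (c • a) = c • Ts k a := by
  rw [Ts, Ts, Us_zsmul, Vs_zsmul, smul_add, smul_comm]

theorem Vs_eq_expand {p : ℕ} (hp : p ≠ 0) (a : PowerSeries R) :
    Vs p a = PowerSeries.expand p hp a := by
  ext n
  rw [coeff_Vs, PowerSeries.coeff_expand]

theorem Vs_mul {p : ℕ} (hp : p ≠ 0) (a b : PowerSeries R) : Vs p (a * b) = Vs p a * Vs p b := by
  rw [Vs_eq_expand hp, Vs_eq_expand hp, Vs_eq_expand hp, map_mul]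

theorem Vs_pow {p : ℕ} (hp : p ≠ 0) (a : PowerSeries R) (n : ℕ) : Vs p (a ^ n) = Vs p a ^ n := by
  rw [Vs_eq_expand hp, Vs_eq_expand hp, map_pow]

theorem Vs_one {p : ℕ} (hp : p ≠ 0) : Vs p (1 : PowerSeries R) = 1 := by
  rw [Vs_eq_expand hp, map_one]

theorem Vs_X {p : ℕ} (hp : p ≠ 0) : Vs p (PowerSeries.X : PowerSeries R) = PowerSeries.X ^ p := by
  rw [Vs_eq_expand hp, PowerSeries.expand_X]

theorem Vs_C {p : ℕ} (hp : p ≠ 0) (r : R) :
    Vs p (PowerSeries.C r : PowerSeries R) = PowerSeries.C r := by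
  rw [Vs_eq_expand hp, PowerSeries.expand_C]

theorem Us_C {p : ℕ} (hp : p ≠ 0) (r : R) :
    Us p (PowerSeries.C r : PowerSeries R) = PowerSeries.C r := by
  ext n
  rw [coeff_Us, PowerSeries.coeff_C, PowerSeries.coeff_C]
  congr 1
  simp [hp]

theorem Vs_injective {p : ℕ} (hp : p ≠ 0) :
    Function.Injective (Vs p : PowerSeries R → PowerSeries R) := by
  intro a b h
  ext n
  have := congrArg (fun x => PowerSeries.coeff (n * p) x) h
  simpa [Nat.mul_div_cancel n (Nat.pos_of_ne_zero hp)] using this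

theorem Us_Vs_mul {p : ℕ} (hp : p ≠ 0) (a b : PowerSeries R) :
    Us p (Vs p a * b) = a * Us p b := by
  ext n
  rw [coeff_Us, PowerSeries.coeff_mul, PowerSeries.coeff_mul]
  symm
  refine Finset.sum_of_injOn (fun x => (x.1 * p, x.2 * p)) ?_ ?_ ?_ ?_
  · rintro ⟨x1, x2⟩ _ ⟨y1, y2⟩ _ h
    simp only [Prod.mk.injEq, mul_eq_mul_right_iff, hp, or_false] at h
    simp [h.1, h.2]
  · rintro ⟨x1, x2⟩ hx
    have hx := Finset.HasAntidiagonal.mem_antidiagonal.mp (Finset.mem_coe.mp hx)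
    apply Finset.mem_coe.mpr
    apply Finset.HasAntidiagonal.mem_antidiagonal.mpr
    simp only at hx ⊢
    rw [← hx, add_mul]
  · rintro ⟨x1, x2⟩ hx hx'
    have hx := Finset.HasAntidiagonal.mem_antidiagonal.mp hx
    simp only at hx
    rw [coeff_Vs]
    split_ifs with h
    · exfalso
      obtain ⟨m, rfl⟩ := h
      have h2 : p ∣ x2 := by
        have : p ∣ p * m + x2 := by rw [hx]; exact dvd_mul_left _ _
        exact (Nat.dvd_add_right (dvd_mul_right p m)).mp this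
      obtain ⟨m', rfl⟩ := h2
      apply hx'
      refine ⟨(m, m'), ?_, by simp [mul_comm]⟩
      apply Finset.mem_coe.mpr
      apply Finset.HasAntidiagonal.mem_antidiagonal.mpr
      simp only
      have : p * (m + m') = p * n := by rw [mul_add, hx, mul_comm]
      exact Nat.eq_of_mul_eq_mul_left (Nat.pos_of_ne_zero hp) this
    · simp
  · rintro ⟨x1, x2⟩ hx
    simp [Nat.mul_div_cancel _ (Nat.pos_of_ne_zero hp)]

theorem map_Vs (φ : R →+* R') (p : ℕ) (a : PowerSeries R) :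
    (Vs p a).map φ = Vs p (a.map φ) := by
  ext n
  simp only [PowerSeries.coeff_map, coeff_Vs]
  split_ifs <;> simp

theorem map_Us (φ : R →+* R') (p : ℕ) (a : PowerSeries R) :
    (Us p a).map φ = Us p (a.map φ) := by
  ext n
  simp only [PowerSeries.coeff_map, coeff_Us]

theorem X_pow_dvd_Vs {p m : ℕ} (hp : p ≠ 0) {a : PowerSeries R} (h : PowerSeries.X ^ m ∣ a) :
    PowerSeries.X ^ (p * m) ∣ Vs p a := by
  obtain ⟨b, rfl⟩ := h
  rw [Vs_mul hp, Vs_pow hp, Vs_X hp, ← pow_mul]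
  exact dvd_mul_right _ _

end

/-- level one integral forms -/
def LvlOne (k : ℕ) (a : PowerSeries ℤ) : Prop :=
  ∃ f : ℍ → ℂ, IsMF ⊤ (k : ℤ) f ∧ qExpansion 1 f = tc a

/-- pairs of `q`-expansions of `f` and `W f` -/
def IsPair (p k : ℕ) (a b : PowerSeries ℤ) : Prop :=
  ∃ f : ℍ → ℂ, IsMF (Gamma0 p) (k : ℤ) f ∧ qExpansion 1 f = tc a ∧
    qExpansion 1 (W p (k : ℤ) f) = tc b

theorem IsMF.sub' {G : Subgroup SL(2, ℤ)} {k : ℤ} {f g : ℍ → ℂ} (hf : IsMF G k f)
    (hg : IsMF G k g) : IsMF G k (f - g) :=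
  (MF G k).sub_mem (show f ∈ MF G k from hf) (show g ∈ MF G k from hg)

/-! ### q-expansion of `V_p f`, `U_p f`, `T_2 f` -/

section

variable {p : ℕ} {k l : ℕ} {a b c d : PowerSeries ℤ}

theorem LvlOne.mul (ha : LvlOne k a) (hb : LvlOne l b) : LvlOne (k + l) (a * b) := by
  obtain ⟨f, hf, hfa⟩ := ha
  obtain ⟨g, hg, hgb⟩ := hb
  refine ⟨f * g, (hf.mul hg).cast (by push_cast; rfl), ?_⟩
  rw [hf.qExpansion_mul hg trivial, hfa, hgb, map_mul]

theorem LvlOne.add (ha : LvlOne k a) (hb : LvlOne k b) : LvlOne k (a + b) := by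
  obtain ⟨f, hf, hfa⟩ := ha
  obtain ⟨g, hg, hgb⟩ := hb
  refine ⟨f + g, hf.add hg, ?_⟩
  rw [hf.qExpansion_add hg trivial, hfa, hgb, map_add]

theorem LvlOne.sub (ha : LvlOne k a) (hb : LvlOne k b) : LvlOne k (a - b) := by
  obtain ⟨f, hf, hfa⟩ := ha
  obtain ⟨g, hg, hgb⟩ := hb
  refine ⟨f - g, IsMF.sub' hf hg, ?_⟩
  rw [hf.qExpansion_sub hg trivial, hfa, hgb, map_sub]

theorem LvlOne.zsmul (n : ℤ) (ha : LvlOne k a) : LvlOne k (n • a) := by
  obtain ⟨f, hf, hfa⟩ := ha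
  refine ⟨(n : ℂ) • f, hf.smul _, ?_⟩
  rw [hf.qExpansion_smul trivial, hfa, tc_zsmul]

theorem LvlOne.div {n : ℤ} (hn : n ≠ 0) (ha : LvlOne k (n • a)) : LvlOne k a := by
  obtain ⟨f, hf, hfa⟩ := ha
  have hnc : (n : ℂ) ≠ 0 := by exact_mod_cast hn
  refine ⟨(n : ℂ)⁻¹ • f, hf.smul _, ?_⟩
  rw [hf.qExpansion_smul trivial, hfa, tc_zsmul, smul_smul, inv_mul_cancel₀ hnc, one_smul]

theorem LvlOne.pow (ha : LvlOne k a) (n : ℕ) : LvlOne (n * k) (a ^ n) := by
  obtain ⟨f, hf, hfa⟩ := ha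
  refine ⟨f ^ n, (hf.pow n).cast (by push_cast; rfl), ?_⟩
  rw [hf.qExpansion_pow trivial, hfa, map_pow]

theorem LvlOne.cast (h : k = l) (ha : LvlOne k a) : LvlOne l a := h ▸ ha

theorem IsPair.cast (h : k = l) (ha : IsPair p k a b) : IsPair p l a b := h ▸ ha

theorem IsPair.congr (h : IsPair p k a b) (h1 : a = c) (h2 : b = d) : IsPair p k c d := by
  subst h1; subst h2; exact h

variable [hp : Fact p.Prime]

theorem IsPair.mul (hl : Even l) (hk : Even k) (h1 : IsPair p k a b) (h2 : IsPair p l c d) :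
    IsPair p (k + l) (a * c) (b * d) := by
  have hk' : Even (k : ℤ) := by exact_mod_cast hk
  have hl' : Even (l : ℤ) := by exact_mod_cast hl
  obtain ⟨f, hf, hfa, hfb⟩ := h1
  obtain ⟨g, hg, hgc, hgd⟩ := h2
  refine ⟨f * g, (hf.mul hg).cast (by push_cast; rfl), ?_, ?_⟩
  · rw [hf.qExpansion_mul hg (T_mem_Gamma0 p), hfa, hgc, map_mul]
  · push_cast
    rw [W_mul hp.out.ne_zero, (W_mf hp.out hk' hf).qExpansion_mul (W_mf hp.out hl' hg)
      (T_mem_Gamma0 p), hfb, hgd, map_mul]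

theorem IsPair.add (hk : Even k) (h1 : IsPair p k a b) (h2 : IsPair p k c d) :
    IsPair p k (a + c) (b + d) := by
  have hk' : Even (k : ℤ) := by exact_mod_cast hk
  obtain ⟨f, hf, hfa, hfb⟩ := h1
  obtain ⟨g, hg, hgc, hgd⟩ := h2
  refine ⟨f + g, hf.add hg, ?_, ?_⟩
  · rw [hf.qExpansion_add hg (T_mem_Gamma0 p), hfa, hgc, map_add]
  · rw [W_add, (W_mf hp.out hk' hf).qExpansion_add (W_mf hp.out hk' hg)
      (T_mem_Gamma0 p), hfb, hgd, map_add]

theorem IsPair.zsmul (hk : Even k) (n : ℤ) (h1 : IsPair p k a b) :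
    IsPair p k (n • a) (n • b) := by
  have hk' : Even (k : ℤ) := by exact_mod_cast hk
  obtain ⟨f, hf, hfa, hfb⟩ := h1
  refine ⟨(n : ℂ) • f, hf.smul _, ?_, ?_⟩
  · rw [hf.qExpansion_smul (T_mem_Gamma0 p), hfa, tc_zsmul]
  · rw [W_smul, (W_mf hp.out hk' hf).qExpansion_smul (T_mem_Gamma0 p), hfb, tc_zsmul]

theorem IsPair.sub (hk : Even k) (h1 : IsPair p k a b) (h2 : IsPair p k c d) :
    IsPair p k (a - c) (b - d) := by
  have h3 := h1.add hk (h2.zsmul hk (-1))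
  simpa [sub_eq_add_neg] using h3

theorem IsPair.div (hk : Even k) {n : ℤ} (hn : n ≠ 0) (h1 : IsPair p k (n • a) (n • b)) :
    IsPair p k a b := by
  have hk' : Even (k : ℤ) := by exact_mod_cast hk
  have hnc : (n : ℂ) ≠ 0 := by exact_mod_cast hn
  obtain ⟨f, hf, hfa, hfb⟩ := h1
  refine ⟨(n : ℂ)⁻¹ • f, hf.smul _, ?_, ?_⟩
  · rw [hf.qExpansion_smul (T_mem_Gamma0 p), hfa, tc_zsmul, smul_smul, inv_mul_cancel₀ hnc,
      one_smul]
  · rw [W_smul, (W_mf hp.out hk' hf).qExpansion_smul (T_mem_Gamma0 p), hfb, tc_zsmul, smul_smul,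
      inv_mul_cancel₀ hnc, one_smul]

theorem IsPair.one : IsPair p 0 1 1 := by
  refine ⟨1, IsMF.one, ?_, ?_⟩
  · rw [map_one]; simpa using qExpansion_one 1
  · have : W p ((0 : ℕ) : ℤ) (1 : ℍ → ℂ) = 1 := by
      funext z
      rw [W_apply hp.out.ne_zero]
      simp
    rw [this, map_one]; simpa using qExpansion_one 1

theorem IsPair.pow (hk : Even k) (h1 : IsPair p k a b) (n : ℕ) :
    IsPair p (n * k) (a ^ n) (b ^ n) := by
  induction n with
  | zero => simpa using IsPair.one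
  | succ n ih =>
    have := ih.mul hk (hk.mul_left n) h1
    rw [pow_succ, pow_succ]
    exact this.cast (by ring)

theorem IsPair.swap (hk : Even k) (h1 : IsPair p k a b) : IsPair p k b ((p : ℤ) ^ k • a) := by
  have hk' : Even (k : ℤ) := by exact_mod_cast hk
  obtain ⟨f, hf, hfa, hfb⟩ := h1
  refine ⟨W p k f, W_mf hp.out hk' hf, hfb, ?_⟩
  rw [W_W hp.out.ne_zero hk', hf.qExpansion_smul (T_mem_Gamma0 p), hfa, tc_zsmul]
  push_cast
  rw [zpow_natCast]

theorem IsPair.fst_eq_zero_iff (hk : Even k) (h1 : IsPair p k a b) : a = 0 ↔ b = 0 := by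
  have hk' : Even (k : ℤ) := by exact_mod_cast hk
  obtain ⟨f, hf, hfa, hfb⟩ := h1
  constructor
  · rintro rfl
    have := hf.eq_zero_of_qExpansion (T_mem_Gamma0 p) (by rw [hfa, map_zero])
    rw [this] at hfb
    have h2 : W p k (0 : ℍ → ℂ) = 0 := by
      have := W_smul (p := p) (k := k) (f := (0 : ℍ → ℂ)) 0
      simpa using this
    rw [h2, qExpansion_zero 1] at hfb
    exact (tc_injective (by rw [← hfb, map_zero]))
  · rintro rfl
    have := (W_mf hp.out hk' hf).eq_zero_of_qExpansion (T_mem_Gamma0 p) (by rw [hfb, map_zero])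
    have h3 := eq_zero_of_W_eq_zero hp.out.ne_zero hk' this
    rw [h3, qExpansion_zero 1] at hfa
    exact (tc_injective (by rw [← hfa, map_zero]))

/-! ### Operators -/

theorem hasSum_of_mf {G : Subgroup SL(2, ℤ)} {k : ℤ} {f : ℍ → ℂ} (hf : IsMF G k f)
    (hT : ModularGroup.T ∈ G) (τ : ℍ) :
    HasSum (fun m => (qExpansion 1 f).coeff m • Function.Periodic.qParam 1 (τ : ℂ) ^ m) (f τ) :=
  hasSum_qExpansion one_pos (hf.periodic hT) hf.holo hf.bdd_infty τ

theorem qExpansion_V {k : ℤ} {f : ℍ → ℂ} (hk : Even k) (hf : IsMF ⊤ k f)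
    (hfa : qExpansion 1 f = tc a) : qExpansion 1 (V p f) = tc (Vs p a) := by
  have hV := V_mf hp.out hk hf
  ext n
  rw [coeff_unique hV.holo.continuous (hV.analyticAt (T_mem_Gamma0 p))
    (fun τ => hasSum_V hp.out.ne_zero (fun τ => hasSum_of_mf hf trivial τ) τ) n, coeff_tc,
    coeff_Vs, hfa]
  split_ifs <;> simp

theorem qExpansion_U {k : ℤ} {f : ℍ → ℂ} (hf : IsMF (Gamma0 p) k f)
    (hfa : qExpansion 1 f = tc a) : qExpansion 1 (heckeU k p f) = tc (Us p a) := by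
  ext n
  have := UpperHalfPlane.qCoeff_heckeU (hf.periodic (T_mem_Gamma0 p)) hf.holo hf.bdd_infty k
    hp.out.ne_zero n
  rw [ModularFormClass.qCoeff, coeffHeckeU_apply, ModularFormClass.qCoeff] at this
  rw [this, hfa, coeff_tc, coeff_tc, coeff_Us]

theorem U_mf {k : ℤ} {f : ℍ → ℂ} (hf : IsMF (Gamma0 p) k f) :
    IsMF (Gamma0 p) k (heckeU k p f) := by
  have h := IsMF.of_modularForm (ModularForm.heckeULin k (dvd_refl p) hf.toModularForm)
  simpa using h

theorem T_mf {k : ℤ} {f : ℍ → ℂ} (h2 : ¬ 2 ∣ p) (hf : IsMF (Gamma0 p) k f) :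
    IsMF (Gamma0 p) k (heckeT k 2 f) := by
  have h := IsMF.of_modularForm (ModularForm.heckeTLin k Nat.prime_two h2 hf.toModularForm)
  simpa using h

omit hp in
theorem qExpansion_T {f : ℍ → ℂ} (hk : 1 ≤ k) (hf : IsMF (Gamma0 p) k f)
    (hfa : qExpansion 1 f = tc a) : qExpansion 1 (heckeT k 2 f) = tc (Ts k a) := by
  ext n
  have := UpperHalfPlane.qCoeff_heckeT (hf.periodic (T_mem_Gamma0 p)) hf.holo hf.bdd_infty k
    two_ne_zero n
  rw [ModularFormClass.qCoeff, coeffHeckeT_apply, ModularFormClass.qCoeff,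
    ModularFormClass.qCoeff] at this
  rw [this, hfa, coeff_tc, coeff_tc, coeff_tc, Ts, map_add, cf_zsmul, coeff_Us, coeff_Vs]
  have h1 : ((2 : ℕ) : ℂ) ^ ((k : ℤ) - 1) = (2 : ℂ) ^ (k - 1) := by
    rw [show (k : ℤ) - 1 = ((k - 1 : ℕ) : ℤ) by omega, zpow_natCast]
    norm_num
  rw [h1]
  split_ifs <;> push_cast <;> ring

theorem LvlOne.pair (hk : Even k) (h : LvlOne k a) : IsPair p k a ((p : ℤ) ^ k • Vs p a) := by
  have hk' : Even (k : ℤ) := by exact_mod_cast hk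
  obtain ⟨f, hf, hfa⟩ := h
  refine ⟨f, hf.mono le_top, hfa, ?_⟩
  rw [W_level_one (hf.slash _ trivial), (V_mf hp.out hk' hf).qExpansion_smul (T_mem_Gamma0 p),
    qExpansion_V hk' hf hfa, tc_zsmul]
  push_cast
  rw [zpow_natCast]

theorem LvlOne.pair' (hk : Even k) (h : LvlOne k a) : IsPair p k (Vs p a) a := by
  have hk' : Even (k : ℤ) := by exact_mod_cast hk
  obtain ⟨f, hf, hfa⟩ := h
  refine ⟨V p f, V_mf hp.out hk' hf, qExpansion_V hk' hf hfa, ?_⟩
  rw [W_V hp.out.ne_zero, hf.slash _ trivial, hfa]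

theorem IsPair.trace (hk : Even k) (hk1 : 1 ≤ k) (h : IsPair p k a b) :
    LvlOne k ((p : ℤ) ^ (k - 1) • a + Us p b) := by
  have hk' : Even (k : ℤ) := by exact_mod_cast hk
  obtain ⟨f, hf, hfa, hfb⟩ := h
  have hW := W_mf hp.out hk' hf
  refine ⟨_, trace_mf hf, ?_⟩
  rw [(hf.smul _).qExpansion_add (U_mf hW) (T_mem_Gamma0 p), hf.qExpansion_smul (T_mem_Gamma0 p),
    qExpansion_U hW hfb, map_add, tc_zsmul, hfa]
  congr 2
  push_cast
  rw [show (k : ℤ) - 1 = ((k - 1 : ℕ) : ℤ) by omega, zpow_natCast]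

theorem isPair_weight_two {f : ℍ → ℂ} (hf : IsMF (Gamma0 p) 2 f) (hfa : qExpansion 1 f = tc a) :
    IsPair p 2 a (-(p : ℤ) • Us p a) := by
  refine ⟨f, hf, hfa, ?_⟩
  have h1 : W p ((2 : ℕ) : ℤ) f = (-(p : ℂ)) • heckeU 2 p f := by
    have := W_weight_two hf
    rw [_root_.neg_smul]
    exact this
  rw [h1, (U_mf hf).qExpansion_smul (T_mem_Gamma0 p), qExpansion_U hf hfa, tc_zsmul]
  push_cast
  rfl

theorem IsPair.T2 (h2 : ¬ 2 ∣ p) (hk : Even k) (hk1 : 1 ≤ k) (h : IsPair p k a b) :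
    IsPair p k (Ts k a) (Ts k b) := by
  have hk' : Even (k : ℤ) := by exact_mod_cast hk
  obtain ⟨f, hf, hfa, hfb⟩ := h
  refine ⟨heckeT k 2 f, T_mf h2 hf, qExpansion_T hk1 hf hfa, ?_⟩
  rw [← heckeT_two_W (by rwa [← Nat.not_even_iff_odd, even_iff_two_dvd]) hf.slash]
  exact qExpansion_T hk1 (W_mf hp.out hk' hf) hfb

end

end Fermat.Agent.Eis
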