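import Mathlib
import Fermat.Agent.Eis.Pair
import Fermat.Agent.IntStr.LevelOne

set_option autoImplicit false

noncomputable section

namespace Fermat.Agent.Eis

open UpperHalfPlane ModularForm CongruenceSubgroup Matrix Matrix.SpecialLinearGroup Filter
open scoped MatrixGroups Manifold Topology
open Fermat.Agent.IntStr

/-- `Φ_m = Σ σ_m(n) q^n`. -/
def Phi (m : ℕ) : PowerSeries ℤ := PowerSeries.mk fun n => ((ArithmeticFunction.sigma m n : ℕ) : ℤ)

/-- `(Φ_5 - Φ_3)/24` -/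
def Xi : PowerSeries ℤ :=
  PowerSeries.mk fun n => ∑ d ∈ n.divisors, ((d : ℤ) ^ 5 - (d : ℤ) ^ 3) / 24

theorem dvd_aux (d : ℤ) : (24 : ℤ) ∣ d ^ 5 - d ^ 3 := by
  have h : ((d ^ 5 - d ^ 3 : ℤ) : ZMod 24) = 0 := by
    push_cast
    generalize (d : ZMod 24) = x
    revert x
    decide
  rwa [ZMod.intCast_zmod_eq_zero_iff_dvd] at h

theorem Phi_five : Phi 5 = Phi 3 + 24 * Xi := by
  ext n
  have h1 : (24 : PowerSeries ℤ) * Xi = (24 : ℤ) • Xi := by
    rw [zsmul_eq_mul]; norm_num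
  rw [h1, map_add, cf_zsmul, Phi, Phi, Xi, PowerSeries.coeff_mk, PowerSeries.coeff_mk,
    PowerSeries.coeff_mk, ArithmeticFunction.sigma_apply, ArithmeticFunction.sigma_apply,
    Finset.mul_sum]
  push_cast
  rw [← Finset.sum_add_distrib]
  refine Finset.sum_congr rfl fun d _ => ?_
  rw [Int.mul_ediv_cancel' (dvd_aux d)]
  ring

def E4s : PowerSeries ℤ := 1 + 240 * Phi 3
def E6s : PowerSeries ℤ := 1 - 504 * Phi 5

/-- the `q`-expansion of `Δ` -/
def Ds : PowerSeries ℤ :=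
  Phi 3 + 14 * Xi + 100 * Phi 3 ^ 2 + 8000 * Phi 3 ^ 3 - 147 * Phi 5 ^ 2

theorem Ds_eq : 1728 * Ds = E4s ^ 3 - E6s ^ 2 := by
  rw [Ds, E4s, E6s, Phi_five]
  ring

theorem tc_E4s : qExpansion 1 (E₄ : ℍ → ℂ) = tc E4s := by
  ext n
  rw [EisensteinSeries.E_qExpansion_coeff (by norm_num) (by decide), coeff_tc, E4s,
    show (240 : PowerSeries ℤ) * Phi 3 = (240 : ℤ) • Phi 3 by rw [zsmul_eq_mul]; norm_num,
    map_add, cf_zsmul, Phi, PowerSeries.coeff_mk, PowerSeries.coeff_one]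
  split_ifs with h
  · subst h
    simp
  · have h4 : bernoulli 4 = -1/30 := by
      rw [bernoulli_eq_bernoulli'_of_ne_one (by norm_num), bernoulli'_four]
    rw [h4]
    push_cast
    ring

theorem tc_E6s : qExpansion 1 (E₆ : ℍ → ℂ) = tc E6s := by
  ext n
  rw [EisensteinSeries.E_qExpansion_coeff (by norm_num) (by decide), coeff_tc, E6s,
    show (504 : PowerSeries ℤ) * Phi 5 = (504 : ℤ) • Phi 5 by rw [zsmul_eq_mul]; norm_num,
    map_sub, cf_zsmul, Phi, PowerSeries.coeff_mk, PowerSeries.coeff_one]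
  split_ifs with h
  · subst h
    simp
  · rw [bernoulli_six]
    push_cast
    ring

theorem E4s_lvl : LvlOne 4 E4s := ⟨E₄, E4_mf, tc_E4s⟩
theorem E6s_lvl : LvlOne 6 E6s := ⟨E₆, E6_mf, tc_E6s⟩

theorem discriminant_mf : IsMF ⊤ 12 (discriminant : ℍ → ℂ) :=
  IsMF.of_modularForm_SL (CuspForm.discriminant : ModularForm 𝒮ℒ 12)

theorem discriminant_eq' : (discriminant : ℍ → ℂ) =
    ((1728 : ℂ)⁻¹) • ((E₄ : ℍ → ℂ) ^ 3 - (E₆ : ℍ → ℂ) ^ 2) := by
  funext z
  rw [discriminant_eq_E₄_cube_sub_E₆_sq]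
  simp only [Pi.smul_apply, Pi.sub_apply, Pi.pow_apply, smul_eq_mul]
  ring

theorem tc_Ds : qExpansion 1 (discriminant : ℍ → ℂ) = tc Ds := by
  have h4 : IsMF ⊤ 12 ((E₄ : ℍ → ℂ) ^ 3) := (E4_mf.pow 3).cast (by norm_num)
  have h6 : IsMF ⊤ 12 ((E₆ : ℍ → ℂ) ^ 2) := (E6_mf.pow 2).cast (by norm_num)
  rw [discriminant_eq', (IsMF.sub' h4 h6).qExpansion_smul trivial, h4.qExpansion_sub h6 trivial,
    E4_mf.qExpansion_pow trivial, E6_mf.qExpansion_pow trivial, tc_E4s, tc_E6s, ← map_pow,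
    ← map_pow, ← map_sub, ← Ds_eq, show (1728 : PowerSeries ℤ) * Ds = (1728 : ℤ) • Ds by
      rw [zsmul_eq_mul]; norm_num, tc_zsmul, smul_smul]
  norm_num

theorem Ds_lvl : LvlOne 12 Ds := ⟨discriminant, discriminant_mf, tc_Ds⟩

/-- `Δ / X` -/
def Du : PowerSeries ℤ := PowerSeries.mk fun n => Ds.coeff (n + 1)

theorem coeff_zero_Ds : Ds.coeff 0 = 0 := by
  have h1 : PowerSeries.constantCoeff (Phi 3) = 0 := by
    rw [← PowerSeries.coeff_zero_eq_constantCoeff_apply, Phi, PowerSeries.coeff_mk]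
    simp
  have h2 : PowerSeries.constantCoeff (Phi 5) = 0 := by
    rw [← PowerSeries.coeff_zero_eq_constantCoeff_apply, Phi, PowerSeries.coeff_mk]
    simp
  have h3 : PowerSeries.constantCoeff Xi = 0 := by
    rw [← PowerSeries.coeff_zero_eq_constantCoeff_apply, Xi, PowerSeries.coeff_mk]
    simp
  rw [PowerSeries.coeff_zero_eq_constantCoeff_apply, Ds]
  simp [h1, h2, h3]

theorem Ds_eq_X_mul : Ds = PowerSeries.X * Du := by
  ext n
  cases n with
  | zero => rw [coeff_zero_Ds]; simp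
  | succ n => rw [PowerSeries.coeff_succ_X_mul, Du, PowerSeries.coeff_mk]

theorem constCoeff_Du : PowerSeries.constantCoeff Du = 1 := by
  rw [← PowerSeries.coeff_zero_eq_constantCoeff_apply, Du, PowerSeries.coeff_mk]
  have h := ModularForm.discriminant_qExpansion_coeff_one
  rw [tc_Ds, coeff_tc] at h
  exact_mod_cast h

theorem isUnit_Du : IsUnit Du := by
  rw [PowerSeries.isUnit_iff_constantCoeff, constCoeff_Du]
  exact isUnit_one

/-! ### Sturm bound modulo `ℓ` in level one -/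

/-- reduction mod `ℓ` -/
def red (ℓ : ℕ) : PowerSeries ℤ →+* PowerSeries (ZMod ℓ) := PowerSeries.map (Int.castRingHom _)

@[simp] theorem coeff_red (ℓ : ℕ) (a : PowerSeries ℤ) (n : ℕ) :
    (red ℓ a).coeff n = ((a.coeff n : ℤ) : ZMod ℓ) := by simp [red]

theorem red_eq_zero_iff {ℓ : ℕ} {a : PowerSeries ℤ} :
    red ℓ a = 0 ↔ ∃ b : PowerSeries ℤ, a = (ℓ : ℤ) • b := by
  constructor
  · intro h
    have h1 : ∀ n, (ℓ : ℤ) ∣ a.coeff n := by
      intro n
      rw [← ZMod.intCast_zmod_eq_zero_iff_dvd, ← coeff_red, h, map_zero]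
    choose c hc using h1
    refine ⟨PowerSeries.mk c, ?_⟩
    ext n
    rw [cf_zsmul, PowerSeries.coeff_mk, hc]
  · rintro ⟨b, rfl⟩
    ext n
    rw [coeff_red, cf_zsmul]
    simp

theorem constCoeff_E4s : PowerSeries.constantCoeff E4s = 1 := by
  have h1 : PowerSeries.constantCoeff (Phi 3) = 0 := by
    rw [← PowerSeries.coeff_zero_eq_constantCoeff_apply, Phi, PowerSeries.coeff_mk]
    simp
  simp [E4s, h1]

theorem constCoeff_E6s : PowerSeries.constantCoeff E6s = 1 := by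
  have h1 : PowerSeries.constantCoeff (Phi 5) = 0 := by
    rw [← PowerSeries.coeff_zero_eq_constantCoeff_apply, Phi, PowerSeries.coeff_mk]
    simp
  simp [E6s, h1]

theorem exists_basis_elt {k : ℕ} (hk : Even k) (hk2 : k ≠ 2) :
    ∃ M : PowerSeries ℤ, LvlOne k M ∧ PowerSeries.constantCoeff M = 1 := by
  obtain ⟨m, hm⟩ := hk
  have hab : ∃ a b : ℕ, a * 4 + b * 6 = k := by
    rcases Nat.even_or_odd m with ⟨r, hr⟩ | ⟨r, hr⟩
    · exact ⟨r, 0, by omega⟩
    · exact ⟨r - 1, 1, by omega⟩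
  obtain ⟨a, b, hab⟩ := hab
  refine ⟨E4s ^ a * E6s ^ b, ((E4s_lvl.pow a).mul (E6s_lvl.pow b)).cast hab, ?_⟩
  rw [map_mul, map_pow, map_pow, constCoeff_E4s, constCoeff_E6s]
  simp

theorem tendsto_zero_of_coeff {k : ℤ} {f : ℍ → ℂ} (hf : IsMF ⊤ k f)
    (h0 : (qExpansion 1 f).coeff 0 = 0) : Tendsto f atImInfty (𝓝 0) := by
  have h1 := LevelOne.tendsto_of_periodic one_pos (hf.periodic trivial) hf.holo hf.bdd_infty
  have h2 := qExpansion_coeff_zero one_pos (hf.analyticAt trivial) (hf.periodic trivial)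
  rw [h0] at h2
  rwa [← h2] at h1

theorem LvlOne.divΔ {k : ℕ} {a : PowerSeries ℤ} (h : LvlOne k a)
    (h0 : PowerSeries.constantCoeff a = 0) :
    (k < 12 ∧ a = 0) ∨ (12 ≤ k ∧ ∃ g, LvlOne (k - 12) g ∧ a = Ds * g) := by
  obtain ⟨f, hf, hfa⟩ := h
  have h1 : Tendsto f atImInfty (𝓝 0) := by
    apply tendsto_zero_of_coeff hf
    rw [hfa, coeff_tc, PowerSeries.coeff_zero_eq_constantCoeff_apply, h0, Int.cast_zero]
  have hf' : LevelOne.IsLevelOne (k : ℤ) f := ⟨hf.holo, hf.bdd_infty, fun γ => hf.slash γ trivial⟩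
  obtain ⟨g, hg, hfg⟩ := hf'.exists_eq_Δ_mul h1
  have hg' : IsMF ⊤ ((k : ℤ) - 12) g :=
    ⟨hg.mdiff, fun γ _ => hg.slash γ, fun γ => by rw [hg.slash γ]; exact hg.bdd⟩
  by_cases hk : k < 12
  · left
    refine ⟨hk, ?_⟩
    have hg0 : g = 0 := hg.eq_zero_of_neg (by omega)
    rw [hg0, mul_zero] at hfg
    rw [hfg, qExpansion_zero 1] at hfa
    exact tc_injective (by rw [← hfa, map_zero])
  · right
    refine ⟨by omega, ?_⟩
    obtain ⟨a', ha'⟩ : ∃ a', a = PowerSeries.X * a' := PowerSeries.X_dvd_iff.mpr h0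
    have h2 : qExpansion 1 f = tc Ds * qExpansion 1 g := by
      rw [hfg, discriminant_mf.qExpansion_mul hg' trivial, tc_Ds]
    rw [hfa, ha', Ds_eq_X_mul, map_mul, map_mul, mul_assoc] at h2
    have hX : tc PowerSeries.X ≠ 0 := by
      rw [← map_zero tc]
      exact tc_injective.ne PowerSeries.X_ne_zero
    have h3 := mul_left_cancel₀ hX h2
    obtain ⟨u, hu⟩ := isUnit_Du
    have h4 : qExpansion 1 g = tc (((u⁻¹ : (PowerSeries ℤ)ˣ) : PowerSeries ℤ) * a') := by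
      rw [map_mul, h3, ← mul_assoc, ← map_mul, ← hu, Units.inv_mul, map_one, one_mul]
    refine ⟨((u⁻¹ : (PowerSeries ℤ)ˣ) : PowerSeries ℤ) * a', ⟨g, hg'.cast (by omega), h4⟩, ?_⟩
    rw [Ds_eq_X_mul, ha', ← hu, mul_assoc, ← mul_assoc (u : PowerSeries ℤ), Units.mul_inv, one_mul]

theorem LvlOne.weight_two {a : PowerSeries ℤ} (h : LvlOne 2 a) : a = 0 := by
  obtain ⟨f, hf, hfa⟩ := h
  have h0 : f = 0 := eq_zero_of_weight_two hf
  rw [h0, qExpansion_zero 1] at hfa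
  exact tc_injective (by rw [← hfa, map_zero])

theorem LvlOne.odd_weight {k : ℕ} (hk : Odd k) {a : PowerSeries ℤ} (h : LvlOne k a) : a = 0 := by
  obtain ⟨f, hf, hfa⟩ := h
  have hf' : LevelOne.IsLevelOne (k : ℤ) f := ⟨hf.holo, hf.bdd_infty, fun γ => hf.slash γ trivial⟩
  have h0 : f = 0 := hf'.eq_zero_of_odd (by exact_mod_cast hk)
  rw [h0, qExpansion_zero 1] at hfa
  exact tc_injective (by rw [← hfa, map_zero])

theorem red_Ds (ℓ : ℕ) : red ℓ Ds = PowerSeries.X * red ℓ Du := by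
  rw [Ds_eq_X_mul, map_mul]
  congr 1
  simp [red]

/-- Sturm's theorem modulo `ℓ` in level one. -/
theorem LvlOne.sturm {ℓ : ℕ} (hℓ : ℓ.Prime) : ∀ (k : ℕ) (a : PowerSeries ℤ), LvlOne k a →
    PowerSeries.X ^ (k / 12 + 1) ∣ red ℓ a → red ℓ a = 0 := by
  have : Fact ℓ.Prime := ⟨hℓ⟩
  intro k
  induction k using Nat.strong_induction_on with
  | _ k ih =>
    intro a ha hdvd
    rcases Nat.even_or_odd k with he | ho
    swap
    · rw [ha.odd_weight ho, map_zero]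
    by_cases hk2 : k = 2
    · subst hk2
      rw [ha.weight_two, map_zero]
    obtain ⟨M, hM, hM1⟩ := exists_basis_elt he hk2
    set c := PowerSeries.constantCoeff a with hc
    have hc0 : ((c : ℤ) : ZMod ℓ) = 0 := by
      have h1 := (PowerSeries.X_pow_dvd_iff.mp hdvd) 0 (by omega)
      rwa [coeff_red, PowerSeries.coeff_zero_eq_constantCoeff_apply] at h1
    have h2 : LvlOne k (a - c • M) := ha.sub (hM.zsmul c)
    have h3 : PowerSeries.constantCoeff (a - c • M) = 0 := by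
      rw [map_sub, map_zsmul, hM1, ← hc]
      simp
    have h4 : red ℓ (a - c • M) = red ℓ a := by
      ext n
      rw [coeff_red, map_sub, cf_zsmul]
      push_cast
      rw [hc0, zero_mul, sub_zero, coeff_red]
    rcases h2.divΔ h3 with ⟨-, h5⟩ | ⟨hk12, g, hg, h5⟩
    · rw [← h4, h5, map_zero]
    · rw [← h4, h5, map_mul, red_Ds]
      rw [← h4, h5, map_mul, red_Ds, mul_assoc, show k / 12 + 1 = (k - 12) / 12 + 1 + 1 by omega,
        pow_succ'] at hdvd
      have h6 := (mul_dvd_mul_iff_left PowerSeries.X_ne_zero).mp hdvd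
      have hu : IsUnit (red ℓ Du) := isUnit_Du.map _
      rw [hu.dvd_mul_left] at h6
      rw [ih (k - 12) (by omega) g hg h6, mul_zero]

end Fermat.Agent.Eis
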