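import Mathlib
import Fermat.Agent.Eis.LevelOneInt

set_option autoImplicit false

noncomputable section

namespace Fermat.Agent.Eis

open UpperHalfPlane ModularForm CongruenceSubgroup Matrix Matrix.SpecialLinearGroup Filter
open scoped MatrixGroups Manifold Topology
open Fermat.Agent.IntStr

section

variable {p ℓ k : ℕ} {a b : PowerSeries ℤ}

theorem red_Vs (ℓ p : ℕ) (a : PowerSeries ℤ) : red ℓ (Vs p a) = Vs p (red ℓ a) := map_Vs _ _ _

theorem red_Us (ℓ p : ℕ) (a : PowerSeries ℤ) : red ℓ (Us p a) = Us p (red ℓ a) := map_Us _ _ _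

theorem red_zsmul (ℓ : ℕ) (c : ℤ) (a : PowerSeries ℤ) : red ℓ (c • a) = c • red ℓ a :=
  map_zsmul _ _ _

theorem zsmul_eq_zero_of_unit [Fact ℓ.Prime] {c : ℤ} (hc : (c : ZMod ℓ) ≠ 0)
    {x : PowerSeries (ZMod ℓ)} (h : c • x = 0) : x = 0 := by
  ext n
  have h1 := congrArg (fun y => PowerSeries.coeff n y) h
  simp only [cf_zsmul', map_zero, mul_eq_zero, hc, false_or] at h1
  rw [h1, map_zero]

variable [hp : Fact p.Prime] [hℓ : Fact ℓ.Prime]

/-- Compatibility of `W` with congruences modulo primes `ℓ ≠ p`. -/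
theorem IsPair.compat (hpl : ℓ ≠ p) (hk : Even k) (h : IsPair p k a b) (ha : red ℓ a = 0) :
    red ℓ b = 0 := by
  have hp0 := hp.out.ne_zero
  have hpu : ((p : ℤ) : ZMod ℓ) ≠ 0 := by
    rw [Int.cast_natCast]
    intro h0
    rw [ZMod.natCast_eq_zero_iff] at h0
    rcases (Nat.dvd_prime hp.out).mp h0 with h1 | h1
    · exact hℓ.out.one_lt.ne' h1
    · exact hpl h1
  set i := k / 12 + 1 with hi
  have hK : Even (k + i * 12) := hk.add ⟨6 * i, by ring⟩
  have hK1 : 1 ≤ k + i * 12 := by omega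
  have hDl : LvlOne (i * 12) (Ds ^ i) := Ds_lvl.pow i
  have h1 : IsPair p (k + i * 12) (b * Ds ^ i)
      (((p : ℤ) ^ k • a) * ((p : ℤ) ^ (i * 12) • Vs p (Ds ^ i))) :=
    (h.swap hk).mul ⟨6 * i, by ring⟩ hk (hDl.pair ⟨6 * i, by ring⟩)
  set K := k + i * 12 with hKdef
  set a2 := ((p : ℤ) ^ k • a) * ((p : ℤ) ^ (i * 12) • Vs p (Ds ^ i)) with ha2
  have ha2' : red ℓ a2 = 0 := by rw [ha2, map_mul, red_zsmul, ha, smul_zero, zero_mul]
  have h2 := h1.trace hK hK1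
  set g := (p : ℤ) ^ (K - 1) • (b * Ds ^ i) + Us p a2 with hg
  have h3 := (h1.zsmul hK ((p : ℤ) ^ (K - 1))).sub hK (h2.pair (p := p) hK)
  have h4 := (h3.swap hK).trace hK hK1
  have h5 : red ℓ ((p : ℤ) ^ (K - 1) • ((p : ℤ) ^ (K - 1) • a2 - (p : ℤ) ^ K • Vs p g) +
      Us p ((p : ℤ) ^ K • ((p : ℤ) ^ (K - 1) • (b * Ds ^ i) - g))) =
      (-(p : ℤ) ^ (K - 1 + K + (K - 1))) • Vs p (red ℓ b * red ℓ Ds ^ i) := by
    rw [hg]
    simp only [map_add, map_sub, red_zsmul, red_Us, red_Vs, ha2', map_mul, map_pow, Us_zero,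
      Vs_add, Vs_zsmul, smul_zero, add_zero, zero_sub, sub_self, smul_neg, smul_smul]
    rw [Vs_zero, add_zero, smul_smul, ← pow_add, ← pow_add, neg_zsmul]
  have h6 : PowerSeries.X ^ (K / 12 + 1) ∣
      (-(p : ℤ) ^ (K - 1 + K + (K - 1))) • Vs p (red ℓ b * red ℓ Ds ^ i) := by
    have e1 : PowerSeries.X ^ i ∣ red ℓ b * red ℓ Ds ^ i := by
      rw [red_Ds, mul_pow]
      exact Dvd.dvd.mul_left (dvd_mul_right _ _) _
    have e2 : PowerSeries.X ^ (p * i) ∣ Vs p (red ℓ b * red ℓ Ds ^ i) := X_pow_dvd_Vs hp0 e1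
    have e3 : K / 12 + 1 ≤ p * i := by
      have : 2 ≤ p := hp.out.two_le
      have e4 : K / 12 + 1 = 2 * i := by omega
      rw [e4]
      exact Nat.mul_le_mul_right i this
    have e5 := (pow_dvd_pow PowerSeries.X e3).trans e2
    rw [zsmul_eq_mul]
    exact e5.mul_left _
  rw [← h5] at h6
  have h7 := LvlOne.sturm hℓ.out K _ h4 h6
  rw [h5] at h7
  have h8 : (((-(p : ℤ) ^ (K - 1 + K + (K - 1)) : ℤ)) : ZMod ℓ) ≠ 0 := by
    push_cast
    rw [Int.cast_natCast] at hpu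
    exact neg_ne_zero.mpr (pow_ne_zero _ hpu)
  have h9 := zsmul_eq_zero_of_unit h8 h7
  rw [← Vs_zero p] at h9
  have h10 := Vs_injective hp0 h9
  rcases mul_eq_zero.mp h10 with h11 | h11
  · exact h11
  · exfalso
    have h12 := pow_eq_zero_iff (by omega) |>.mp h11
    rw [red_Ds] at h12
    rcases mul_eq_zero.mp h12 with h13 | h13
    · exact PowerSeries.X_ne_zero h13
    · exact (isUnit_Du.map (red ℓ)).ne_zero h13

/-- dividing a pair by a power of `ℓ ≠ p` -/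
theorem IsPair.divPow (hpl : ℓ ≠ p) (hk : Even k) (c : ℕ) (a : PowerSeries ℤ) :
    ∀ (b : PowerSeries ℤ), IsPair p k ((ℓ : ℤ) ^ c • a) b →
      ∃ b', b = (ℓ : ℤ) ^ c • b' ∧ IsPair p k a b' := by
  induction c with
  | zero =>
    intro b h
    exact ⟨b, by simp, by simpa using h⟩
  | succ c ih =>
    intro b h
    have h1 : red ℓ ((ℓ : ℤ) ^ (c + 1) • a) = 0 := by
      rw [red_eq_zero_iff]
      exact ⟨(ℓ : ℤ) ^ c • a, by rw [smul_smul, pow_succ']⟩
    obtain ⟨b1, hb1⟩ := red_eq_zero_iff.mp (h.compat hpl hk h1)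
    have h2 : IsPair p k ((ℓ : ℤ) • ((ℓ : ℤ) ^ c • a)) ((ℓ : ℤ) • b1) := by
      rw [smul_smul, ← pow_succ', ← hb1]
      exact h
    have h3 := h2.div hk (by exact_mod_cast hℓ.out.ne_zero)
    obtain ⟨b', hb', hb''⟩ := ih b1 h3
    exact ⟨b', by rw [hb1, hb', smul_smul, pow_succ'], hb''⟩

end

end Fermat.Agent.Eis
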