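import Mathlib
import Fermat.Agent.Eis.Compat

set_option autoImplicit false

noncomputable section

namespace Fermat.Agent.Eis

open UpperHalfPlane ModularForm CongruenceSubgroup Matrix Matrix.SpecialLinearGroup Filter
open scoped MatrixGroups Manifold Topology
open Fermat.Agent.IntStr

theorem Vs_comm {R : Type*} [CommRing R] {p q : ℕ} (hp : p ≠ 0) (hq : q ≠ 0) (a : PowerSeries R) :
    Vs p (Vs q a) = Vs q (Vs p a) := by
  rw [Vs_eq_expand hp, Vs_eq_expand hq, Vs_eq_expand hq, Vs_eq_expand hp,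
    ← PowerSeries.expand_mul, ← PowerSeries.expand_mul]
  congr 1
  congr 1
  exact mul_comm _ _

section

variable {p ℓ k : ℕ} {a b : PowerSeries ℤ} [hp : Fact p.Prime] [hℓ : Fact ℓ.Prime]

theorem coeff_p_Ds_pow (ℓ p : ℕ) : (red ℓ Ds ^ p).coeff p = 1 := by
  have h1 : (red ℓ Ds ^ p).coeff p = (PowerSeries.X ^ p * red ℓ Du ^ p).coeff (0 + p) := by
    rw [red_Ds, mul_pow, zero_add]
  rw [h1, PowerSeries.coeff_X_pow_mul, PowerSeries.coeff_zero_eq_constantCoeff_apply, map_pow]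
  have h2 : PowerSeries.constantCoeff (red ℓ Du) = 1 := by
    rw [← PowerSeries.coeff_zero_eq_constantCoeff_apply, coeff_red,
      PowerSeries.coeff_zero_eq_constantCoeff_apply, constCoeff_Du, Int.cast_one]
  rw [h2, one_pow]

/-- The final contradiction. -/
theorem final_contradiction {A B : PowerSeries ℤ} (hk : Even k) {s : ℕ}
    (hs : k + 1 ≤ 12 * s) (h : IsPair p k A B) {x : PowerSeries (ZMod ℓ)} {c1 c2 : ℤ}
    (hA : red ℓ A = c1 • x) (hB : red ℓ B = c2 • Vs p x) (hx : x ≠ 0)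
    (hxs : PowerSeries.X ^ s ∣ x) (hc2 : (c2 : ZMod ℓ) ≠ 0) : False := by
  have hp0 := hp.out.ne_zero
  set a := 12 * p with ha
  have h1 := h.pow hk a
  have h2 : IsPair p (p * 12) (Vs p (Ds ^ p)) (Ds ^ p) :=
    (Ds_lvl.pow p).pair' ⟨6 * p, by ring⟩
  have h3 := h1.mul (l := p * 12) ⟨6 * p, by ring⟩ (hk.mul_left a) h2
  have hK : Even (a * k + p * 12) := (hk.mul_left a).add ⟨6 * p, by ring⟩
  have hp2 := hp.out.two_le
  have hK1 : 1 ≤ a * k + p * 12 := by omega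
  have h4 := h3.trace hK hK1
  set K := a * k + p * 12 with hKdef
  set w : PowerSeries (ZMod ℓ) := (p : ℤ) ^ (K - 1) • ((c1 ^ a) • Vs p (red ℓ Ds ^ p)) +
    (c2 ^ a) • Us p (red ℓ Ds ^ p) with hw
  have h5 : red ℓ ((p : ℤ) ^ (K - 1) • (A ^ a * Vs p (Ds ^ p)) + Us p (B ^ a * Ds ^ p)) =
      x ^ a * w := by
    have e1 : ∀ (c : ℤ) (y : PowerSeries (ZMod ℓ)), (c • y) ^ a = c ^ a • y ^ a := by
      intro c y
      rw [zsmul_eq_mul, zsmul_eq_mul, mul_pow]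
      push_cast
      rfl
    rw [map_add, red_zsmul, map_mul, red_Vs, map_pow, red_Us, map_mul, map_pow, map_pow, hA, hB,
      e1, e1, ← Vs_pow hp0, smul_mul_assoc, smul_mul_assoc, Us_zsmul, Us_Vs_mul hp0, hw, mul_add]
    congr 1
    · rw [mul_smul_comm, mul_smul_comm]
    · rw [mul_smul_comm]
  have hw1 : w.coeff 1 = ((c2 : ℤ) : ZMod ℓ) ^ a := by
    rw [hw, map_add, cf_zsmul', cf_zsmul', cf_zsmul', coeff_Vs, if_neg, coeff_Us, one_mul,
      coeff_p_Ds_pow]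
    · push_cast
      ring
    · intro h
      have := Nat.dvd_one.mp h
      omega
  have hw0 : w.coeff 0 = 0 := by
    have hD0 : (red ℓ Ds ^ p).coeff 0 = 0 := by
      rw [PowerSeries.coeff_zero_eq_constantCoeff_apply, map_pow, red_Ds, map_mul]
      simp [hp0]
    rw [hw, map_add, cf_zsmul', cf_zsmul', cf_zsmul', coeff_Vs, coeff_Us]
    simp [-PowerSeries.coeff_zero_eq_constantCoeff, hD0]
  have hwX : PowerSeries.X ∣ w := by
    rw [PowerSeries.X_dvd_iff, ← PowerSeries.coeff_zero_eq_constantCoeff_apply, hw0]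
  have hwne : w ≠ 0 := by
    intro h
    rw [h, map_zero] at hw1
    exact pow_ne_zero a hc2 hw1.symm
  have h6 : PowerSeries.X ^ (K / 12 + 1) ∣ x ^ a * w := by
    have e1 : PowerSeries.X ^ (s * a + 1) ∣ x ^ a * w := by
      rw [pow_succ, pow_mul]
      exact mul_dvd_mul (pow_dvd_pow_of_dvd hxs a) hwX
    refine (pow_dvd_pow _ ?_).trans e1
    have e2 : K / 12 = p * k + p := by
      rw [hKdef, ha]
      have : 12 * p * k + p * 12 = (p * k + p) * 12 := by ring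
      rw [this, Nat.mul_div_cancel _ (by norm_num)]
    rw [e2, ha]
    have e3 : p * (k + 1) ≤ p * (12 * s) := Nat.mul_le_mul_left p hs
    calc p * k + p + 1 = p * (k + 1) + 1 := by ring
      _ ≤ p * (12 * s) + 1 := by omega
      _ = s * (12 * p) + 1 := by ring
  rw [← h5] at h6
  have h7 := LvlOne.sturm hℓ.out K _ h4 h6
  rw [h5] at h7
  rcases mul_eq_zero.mp h7 with h8 | h8
  · exact hx (pow_eq_zero_iff (by omega) |>.mp h8)
  · exact hwne h8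

theorem red_cast_mul (ℓ : ℕ) (M : ℤ) (hM : (M : ZMod ℓ) = 0) (g : PowerSeries ℤ) :
    red ℓ ((M : PowerSeries ℤ) * g) = 0 := by
  rw [map_mul, map_intCast]
  have : ((M : ℤ) : PowerSeries (ZMod ℓ)) = 0 := by
    rw [← map_intCast (PowerSeries.C (R := ZMod ℓ)), hM, map_zero]
  rw [this, zero_mul]

theorem Ds_ne_zero (ℓ : ℕ) [Fact ℓ.Prime] : red ℓ Ds ≠ 0 := by
  intro h
  have h1 := coeff_p_Ds_pow ℓ 1
  rw [h] at h1
  simp at h1

/-- Case A: `ℓ` odd. -/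
theorem caseA (hp2 : ¬ 2 ∣ p) (hl2 : ℓ ≠ 2) (hpl : ℓ ≠ p) {u : ℤ} (hu : (u : ZMod ℓ) ≠ 0)
    {g h : PowerSeries ℤ} (hh : h = (u : PowerSeries ℤ) + ((3 * ℓ : ℤ) : PowerSeries ℤ) * g)
    (hpair : IsPair p 2 h (-(p : ℤ) • Us p h)) : False := by
  have hp0 := hp.out.ne_zero
  have hpu : ((p : ℤ) : ZMod ℓ) ≠ 0 := by
    rw [Int.cast_natCast]
    intro h0
    rw [ZMod.natCast_eq_zero_iff] at h0
    rcases (Nat.dvd_prime hp.out).mp h0 with h1 | h1
    · exact hℓ.out.one_lt.ne' h1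
    · exact hpl h1
  have h2u : ((2 : ℤ) : ZMod ℓ) ≠ 0 := by
    intro h0
    have h1 : ((2 : ℕ) : ZMod ℓ) = 0 := by exact_mod_cast h0
    rw [ZMod.natCast_eq_zero_iff] at h1
    rcases (Nat.dvd_prime Nat.prime_two).mp h1 with h2 | h2
    · exact hℓ.out.one_lt.ne' h2
    · exact hl2 h2
  -- constants and Hecke
  have hTs : ∀ (k : ℕ) (c : ℤ) (y : PowerSeries ℤ),
      Ts k ((c : PowerSeries ℤ) * y) = (c : PowerSeries ℤ) * Ts k y := by
    intro k c y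
    rw [← zsmul_eq_mul, Ts_zsmul, zsmul_eq_mul]
  have hT14 : ∀ y : PowerSeries ℤ, Ts 14 y = Ts 12 y + ((3 * 2 ^ 11 : ℤ) : PowerSeries ℤ) * Vs 2 y := by
    intro y
    rw [Ts, Ts, zsmul_eq_mul, zsmul_eq_mul]
    push_cast
    ring
  have hU : Us p h = (u : PowerSeries ℤ) + ((3 * ℓ : ℤ) : PowerSeries ℤ) * Us p g := by
    rw [hh, Us_add, ← zsmul_eq_mul, Us_zsmul, zsmul_eq_mul]
    congr 1
    rw [← map_intCast (PowerSeries.C (R := ℤ)), Us_C hp0]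
  have e2 : Even 2 := ⟨1, rfl⟩
  have e12 : Even 12 := ⟨6, rfl⟩
  have e14 : Even 14 := ⟨7, rfl⟩
  have hD := Ds_lvl.pair (p := p) e12
  have h1 : IsPair p 14 (h * Ds) ((-(p : ℤ) • Us p h) * ((p : ℤ) ^ 12 • Vs p Ds)) :=
    hpair.mul e12 e2 hD
  have h2 := h1.T2 hp2 e14 (by norm_num)
  have h3 : IsPair p 14 (h * Ts 12 Ds) ((-(p : ℤ) • Us p h) * Ts 12 ((p : ℤ) ^ 12 • Vs p Ds)) :=
    hpair.mul e12 e2 (hD.T2 hp2 e12 (by norm_num))
  have h4 := h2.sub e14 h3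
  set VD := Vs p Ds with hVD
  have c1 : Ts 14 (h * Ds) - h * Ts 12 Ds = (3 : ℤ) • (((2 ^ 11 * u : ℤ) : PowerSeries ℤ) * Vs 2 Ds +
      (ℓ : PowerSeries ℤ) * (Ts 14 (g * Ds) - g * Ts 12 Ds)) := by
    have : Ts 14 (h * Ds) = (u : PowerSeries ℤ) * Ts 14 Ds +
        ((3 * ℓ : ℤ) : PowerSeries ℤ) * Ts 14 (g * Ds) := by
      rw [hh, add_mul, Ts_add, hTs, mul_assoc, hTs]
    rw [this, hh, hT14 Ds, zsmul_eq_mul]
    push_cast
    ring
  have c2 : Ts 14 ((-(p : ℤ) • Us p h) * ((p : ℤ) ^ 12 • VD)) -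
      (-(p : ℤ) • Us p h) * Ts 12 ((p : ℤ) ^ 12 • VD) =
      (3 : ℤ) • (((2 ^ 11 * u * (-(p : ℤ) ^ 13) : ℤ) : PowerSeries ℤ) * Vs 2 VD +
      (ℓ : PowerSeries ℤ) * ((-(p : ℤ) ^ 13 : ℤ) : PowerSeries ℤ) *
        (Ts 14 (Us p g * VD) - Us p g * Ts 12 VD)) := by
    have h5 : (-(p : ℤ) • Us p h) * ((p : ℤ) ^ 12 • VD) =
        ((-(p : ℤ) ^ 13 * u : ℤ) : PowerSeries ℤ) * VD +
        ((-(p : ℤ) ^ 13 * (3 * ℓ) : ℤ) : PowerSeries ℤ) * (Us p g * VD) := by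
      rw [hU, zsmul_eq_mul, zsmul_eq_mul]
      push_cast
      ring
    have h6 : (-(p : ℤ) • Us p h) * Ts 12 ((p : ℤ) ^ 12 • VD) =
        ((-(p : ℤ) ^ 13 * u : ℤ) : PowerSeries ℤ) * Ts 12 VD +
        ((-(p : ℤ) ^ 13 * (3 * ℓ) : ℤ) : PowerSeries ℤ) * (Us p g * Ts 12 VD) := by
      rw [Ts_zsmul, hU, zsmul_eq_mul, zsmul_eq_mul]
      push_cast
      ring
    rw [h5, h6, Ts_add, hTs, hTs, hT14 VD, zsmul_eq_mul]
    push_cast
    ring
  have h5 := (h4.congr c1 c2).div e14 (by norm_num)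
  have hl0 : ((ℓ : ℤ) : ZMod ℓ) = 0 := by simp
  refine final_contradiction (ℓ := ℓ) (p := p) (k := 14) (s := 2) (x := Vs 2 (red ℓ Ds))
    (c1 := 2 ^ 11 * u) (c2 := 2 ^ 11 * u * (-(p : ℤ) ^ 13)) e14 (by norm_num) h5 ?_ ?_ ?_ ?_ ?_
  · rw [map_add, ← Int.cast_natCast (R := PowerSeries ℤ), red_cast_mul ℓ ℓ hl0, add_zero,
      ← zsmul_eq_mul, red_zsmul, red_Vs]
  · rw [map_add, ← Int.cast_natCast (R := PowerSeries ℤ) ℓ, mul_assoc (((ℓ : ℤ) : PowerSeries ℤ)),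
      red_cast_mul ℓ ℓ hl0, add_zero,
      ← zsmul_eq_mul, red_zsmul, red_Vs, hVD, red_Vs, Vs_comm two_ne_zero hp0]
  · intro h0
    rw [← Vs_zero 2] at h0
    exact Ds_ne_zero ℓ (Vs_injective two_ne_zero h0)
  · have : PowerSeries.X ^ (2 * 1) ∣ Vs 2 (red ℓ Ds) := by
      apply X_pow_dvd_Vs two_ne_zero
      rw [red_Ds, pow_one]
      exact dvd_mul_right _ _
    simpa using this
  · rw [Int.cast_mul, Int.cast_mul, Int.cast_pow, Int.cast_neg, Int.cast_pow]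
    exact mul_ne_zero (mul_ne_zero (pow_ne_zero _ h2u) hu) (neg_ne_zero.mpr (pow_ne_zero _ hpu))

theorem cc_Us {R : Type*} [CommRing R] (p : ℕ) (a : PowerSeries R) :
    PowerSeries.constantCoeff (Us p a) = PowerSeries.constantCoeff a := by
  rw [← PowerSeries.coeff_zero_eq_constantCoeff_apply, coeff_Us, zero_mul,
    PowerSeries.coeff_zero_eq_constantCoeff_apply]

theorem cc_Vs {R : Type*} [CommRing R] {p : ℕ} (hp : p ≠ 0) (a : PowerSeries R) :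
    PowerSeries.constantCoeff (Vs p a) = PowerSeries.constantCoeff a := by
  rw [Vs_eq_expand hp, PowerSeries.constantCoeff_expand]

theorem cc_zsmul (c : ℤ) (a : PowerSeries ℤ) :
    PowerSeries.constantCoeff (c • a) = c * PowerSeries.constantCoeff a := by
  rw [map_zsmul, smul_eq_mul]

theorem cc_intCast (c : ℤ) : PowerSeries.constantCoeff ((c : ℤ) : PowerSeries ℤ) = c := by
  rw [map_intCast, Int.cast_id]

/-- Case B: `ℓ = 3`, `p ≡ 1 mod 3`. -/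
theorem caseB (hpl : 3 ≠ p) (hp3 : (p : ZMod 3) = 1) {u : ℤ} (hu : (u : ZMod 3) ≠ 0)
    {g h : PowerSeries ℤ} (hh : h = (u : PowerSeries ℤ) + ((3 : ℤ) : PowerSeries ℤ) * g)
    (hpair : IsPair p 2 h (-(p : ℤ) • Us p h)) : False := by
  have hp0 := hp.out.ne_zero
  have e2 : Even 2 := ⟨1, rfl⟩
  have e6 : Even 6 := ⟨3, rfl⟩
  have h1 : IsPair p 6 (h ^ 3) ((-(p : ℤ) • Us p h) ^ 3) := hpair.pow e2 3
  have h2 := (E6s_lvl.pair (p := p) e6).zsmul e6 (u ^ 3)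
  have h3 := h1.sub e6 h2
  have hE6 : E6s = 1 - 504 * Phi 5 := rfl
  have h4 : red 3 (h ^ 3 - (u ^ 3) • E6s) = 0 := by
    rw [red_eq_zero_iff]
    refine ⟨3 * u ^ 2 * g + 9 * u * g ^ 2 + 9 * g ^ 3 + 168 * u ^ 3 * Phi 5, ?_⟩
    rw [zsmul_eq_mul, zsmul_eq_mul, hh, hE6]
    push_cast
    ring
  obtain ⟨b, hb⟩ := red_eq_zero_iff.mp (h3.compat hpl e6 h4)
  have h6 := congrArg (fun x => PowerSeries.constantCoeff x) hb
  simp only [map_sub, map_pow, cc_zsmul, cc_Us, cc_Vs hp0, constCoeff_E6s] at h6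
  rw [hh, map_add, map_mul, cc_intCast, cc_intCast] at h6
  have h7 := congrArg (fun x : ℤ => (x : ZMod 3)) h6
  push_cast at h7
  rw [hp3] at h7
  have h9 : (3 : ZMod 3) = 0 := by decide
  rw [h9] at h7
  revert h7 hu
  generalize (u : ZMod 3) = v
  intro hv h7
  simp only [zero_mul, add_zero] at h7
  revert v
  decide

/-- Case C: `ℓ = 2`, `p ≡ 1 mod 4`. -/
theorem caseC (hpl : 2 ≠ p) (hp4 : (p : ZMod 4) = 1) {u : ℤ} (hu : (u : ZMod 2) ≠ 0)
    {g h : PowerSeries ℤ} (hh : h = (u : PowerSeries ℤ) + ((4 : ℤ) : PowerSeries ℤ) * g)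
    (hpair : IsPair p 2 h (-(p : ℤ) • Us p h)) : False := by
  have hp0 := hp.out.ne_zero
  have e2 : Even 2 := ⟨1, rfl⟩
  have e6 : Even 6 := ⟨3, rfl⟩
  have h1 : IsPair p 6 (h ^ 3) ((-(p : ℤ) • Us p h) ^ 3) := hpair.pow e2 3
  have h2 := (E6s_lvl.pair (p := p) e6).zsmul e6 (u ^ 3)
  have h3 := h1.sub e6 h2
  have hE6 : E6s = 1 - 504 * Phi 5 := rfl
  have h4 : h ^ 3 - (u ^ 3) • E6s = ((2 : ℕ) : ℤ) ^ 2 •
      (3 * u ^ 2 * g + 12 * u * g ^ 2 + 16 * g ^ 3 + 126 * u ^ 3 * Phi 5 : PowerSeries ℤ) := by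
    rw [zsmul_eq_mul, zsmul_eq_mul, hh, hE6]
    push_cast
    ring
  obtain ⟨b, hb, -⟩ := IsPair.divPow hpl e6 2 _ _ (h3.congr h4 rfl)
  have h6 := congrArg (fun x => PowerSeries.constantCoeff x) hb
  simp only [map_sub, map_pow, cc_zsmul, cc_Us, cc_Vs hp0, constCoeff_E6s] at h6
  rw [hh, map_add, map_mul, cc_intCast, cc_intCast] at h6
  have h7 := congrArg (fun x : ℤ => (x : ZMod 4)) h6
  push_cast at h7
  rw [hp4] at h7
  have h9 : (4 : ZMod 4) = 0 := by decide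
  rw [h9] at h7
  obtain ⟨v, hv⟩ : ∃ v : ℤ, u = 2 * v + 1 := by
    have : ¬ (2 : ℤ) ∣ u := by
      rw [show (2 : ℤ) = ((2 : ℕ) : ℤ) by norm_num, ← ZMod.intCast_zmod_eq_zero_iff_dvd]
      exact hu
    exact ⟨u / 2, by omega⟩
  rw [hv] at h7
  push_cast at h7
  simp only [zero_mul, add_zero] at h7
  revert h7
  generalize (v : ZMod 4) = w
  revert w
  decide

/-- Case D: `ℓ = 2`. -/
theorem caseD (hpl : 2 ≠ p) {u : ℤ} (hu : (u : ZMod 2) = 1)
    {g h : PowerSeries ℤ} (hh : h = (u : PowerSeries ℤ) + ((8 : ℤ) : PowerSeries ℤ) * g)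
    (hpair : IsPair p 2 h (-(p : ℤ) • Us p h)) : False := by
  have hp0 := hp.out.ne_zero
  have hpu : ((p : ℤ) : ZMod 2) = 1 := by
    have h0 : ((p : ℤ) : ZMod 2) ≠ 0 := by
      rw [Int.cast_natCast]
      intro h0
      rw [ZMod.natCast_eq_zero_iff] at h0
      rcases (Nat.dvd_prime hp.out).mp h0 with h1 | h1
      · omega
      · exact hpl h1
    revert h0
    generalize ((p : ℤ) : ZMod 2) = v
    revert v
    decide
  have e2 : Even 2 := ⟨1, rfl⟩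
  have e4 : Even 4 := ⟨2, rfl⟩
  have e6 : Even 6 := ⟨3, rfl⟩
  have e8 : Even 8 := ⟨4, rfl⟩
  have e10 : Even 10 := ⟨5, rfl⟩
  have e12 : Even 12 := ⟨6, rfl⟩
  have hE6 : E6s = 1 - 504 * Phi 5 := rfl
  have hE4 : E4s = 1 + 240 * Phi 3 := rfl
  have hX := (hpair.pow e2 2 |>.cast (show 2 * 2 = 4 by rfl)).sub e4
    ((E4s_lvl.pair (p := p) e4).zsmul e4 (u ^ 2))
  have hY := (hpair.pow e2 3 |>.cast (show 3 * 2 = 6 by rfl)).sub e6
    ((E6s_lvl.pair (p := p) e6).zsmul e6 (u ^ 3))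
  set X1 : PowerSeries ℤ := u * g + 4 * g ^ 2 - 15 * u ^ 2 * Phi 3 with hX1
  set Y1 : PowerSeries ℤ := 3 * u ^ 2 * g + 24 * u * g ^ 2 + 64 * g ^ 3 + 63 * u ^ 3 * Phi 5 with hY1
  have hXe : h ^ 2 - u ^ 2 • E4s = ((2 : ℕ) : ℤ) ^ 4 • X1 := by
    rw [zsmul_eq_mul, zsmul_eq_mul, hh, hE4, hX1]
    push_cast
    ring
  have hYe : h ^ 3 - u ^ 3 • E6s = ((2 : ℕ) : ℤ) ^ 3 • Y1 := by
    rw [zsmul_eq_mul, zsmul_eq_mul, hh, hE6, hY1]
    push_cast
    ring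
  obtain ⟨X2, -, hXp⟩ := IsPair.divPow hpl e4 4 _ _ (hX.congr hXe rfl)
  obtain ⟨Y2, -, hYp⟩ := IsPair.divPow hpl e6 3 _ _ (hY.congr hYe rfl)
  have hZ := (hYp.mul e4 e6 (E4s_lvl.pair (p := p) e4)).sub e10
    ((hXp.mul e6 e4 (E6s_lvl.pair (p := p) e6)).zsmul e10 (3 * u))
  set Z1 : PowerSeries ℤ := 3 * u * g ^ 2 + 16 * g ^ 3 + 27 * u ^ 3 * Phi 3 + 378 * u ^ 3 * Xi +
    60 * Phi 3 * Y1 + 378 * u * Phi 5 * X1 with hZ1
  have hZe : Y1 * E4s - (3 * u) • (X1 * E6s) = ((2 : ℕ) : ℤ) ^ 2 • Z1 := by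
    rw [zsmul_eq_mul, zsmul_eq_mul, hE4, hE6, hZ1, hX1, hY1, Phi_five]
    push_cast
    ring
  obtain ⟨Z2, -, hZp⟩ := IsPair.divPow hpl e10 2 _ _ (hZ.congr hZe rfl)
  have hφ := hZp.sub e10 (((hXp.pow e4 2).cast (show 2 * 4 = 8 by rfl)).mul e2 e8 hpair)
  set φ1 := Z1 - X1 ^ 2 * h with hφ1
  set φ2 := Z2 - X2 ^ 2 * (-(p : ℤ) • Us p h) with hφ2
  have h2 : (2 : PowerSeries (ZMod 2)) = 0 := by
    have : (2 : PowerSeries (ZMod 2)) = PowerSeries.C (2 : ZMod 2) := by rw [map_ofNat]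
    rw [this, show (2 : ZMod 2) = 0 by decide, map_zero]
  have hu1 : ((u : ℤ) : PowerSeries (ZMod 2)) = 1 := by
    rw [← map_intCast (PowerSeries.C (R := ZMod 2)), hu, map_one]
  have hrh : red 2 h = 1 := by
    rw [hh, map_add, red_cast_mul 2 8 (by decide), map_intCast, hu1, add_zero]
  have hr1 : red 2 φ1 = red 2 Ds := by
    rw [hφ1, hZ1, hX1, hY1, hh, Ds, Phi_five]
    simp only [map_add, map_sub, map_mul, map_pow, map_intCast, hu1, map_ofNat]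
    set g' := red 2 g
    set a := red 2 (Phi 3)
    set x := red 2 Xi
    push_cast
    linear_combination (182*x + 42336*x^2 + 13*a + -19152*a*x + -1034*a^2 + -4000*a^3 + 4536*g'*x + 294*g'*a + -900*g'*a^2 + 1*g'^2 + 18144*g'^2*x + 1656*g'^2*a + 2400*g'^3*a + -40*g'^4 + -64*g'^5) * h2
  have hφh := (hφ.mul e2 e10 hpair).sub e12 (Ds_lvl.pair (p := p) e12)
  have h0 : red 2 (φ1 * h - Ds) = 0 := by
    rw [map_sub, map_mul, hr1, hrh, mul_one, sub_self]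
  have h1 := hφh.compat hpl e12 h0
  have hpc : (((p : ℤ) ^ 12 : ℤ) : ZMod 2) = 1 := by
    rw [Int.cast_pow, hpu, one_pow]
  have hpn : ((-(p : ℤ) : ℤ) : ZMod 2) = 1 := by
    rw [Int.cast_neg, hpu]
    decide
  have hone : ∀ (c : ℤ) (y : PowerSeries (ZMod 2)), (c : ZMod 2) = 1 → c • y = y := by
    intro c y hc
    ext n
    rw [cf_zsmul', hc, one_mul]
  rw [map_sub, map_mul, red_zsmul, red_zsmul, red_Vs, red_Us, hrh, hone _ _ hpc, hone _ _ hpn] at h1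
  have hU1 : Us p (1 : PowerSeries (ZMod 2)) = 1 := by
    rw [← map_one (PowerSeries.C (R := ZMod 2)), Us_C hp0]
  rw [hU1, mul_one] at h1
  refine final_contradiction (ℓ := 2) (p := p) (k := 10) (s := 1) (x := red 2 Ds)
    (c1 := 1) (c2 := 1) e10 (by norm_num) hφ ?_ ?_ ?_ ?_ ?_
  · rw [one_zsmul, hr1]
  · rw [one_zsmul]
    exact sub_eq_zero.mp h1
  · exact Ds_ne_zero 2
  · rw [red_Ds, pow_one]
    exact dvd_mul_right _ _
  · simp

theorem sigma_prime (k : ℕ) {q : ℕ} (hq : q.Prime) :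
    ArithmeticFunction.sigma k q = 1 + q ^ k := by
  rw [ArithmeticFunction.sigma_apply, hq.divisors, Finset.sum_pair hq.one_lt.ne]
  simp

theorem E4s_coeff {n : ℕ} (hn : n ≠ 0) :
    E4s.coeff n = 240 * ((ArithmeticFunction.sigma 3 n : ℕ) : ℤ) := by
  rw [E4s, show (240 : PowerSeries ℤ) * Phi 3 = (240 : ℤ) • Phi 3 by rw [zsmul_eq_mul]; norm_num,
    map_add, cf_zsmul, Phi, PowerSeries.coeff_mk, PowerSeries.coeff_one, if_neg hn, zero_add]

theorem E6s_coeff {n : ℕ} (hn : n ≠ 0) :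
    E6s.coeff n = -504 * ((ArithmeticFunction.sigma 5 n : ℕ) : ℤ) := by
  rw [E6s, show (504 : PowerSeries ℤ) * Phi 5 = (504 : ℤ) • Phi 5 by rw [zsmul_eq_mul]; norm_num,
    map_sub, cf_zsmul, Phi, PowerSeries.coeff_mk, PowerSeries.coeff_one, if_neg hn]
  ring

/-- Case E: `ℓ = p`. -/
theorem caseE (hp5 : 5 ≤ p) {u : ℤ} (hu : (u : ZMod p) ≠ 0)
    {g h : PowerSeries ℤ} (hh : h = (u : PowerSeries ℤ) + ((p : ℤ) : PowerSeries ℤ) * g)
    (hpair : IsPair p 2 h (-(p : ℤ) • Us p h)) : False := by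
  have hp0 := hp.out.ne_zero
  have hpz : ((p : ℤ) : ZMod p) = 0 := by simp
  have e2 : Even 2 := ⟨1, rfl⟩
  have e4 : Even 4 := ⟨2, rfl⟩
  have e6 : Even 6 := ⟨3, rfl⟩
  have h1 := (hpair.mul e4 e2 (E4s_lvl.pair' (p := p) e4)).trace e6 (by norm_num)
  set x : PowerSeries ℤ := (p : ℤ) ^ 4 • (h * Vs p E4s) - Us p (Us p h * E4s) with hx
  have h2 : (p : ℤ) ^ (2 + 4 - 1) • (h * Vs p E4s) + Us p (-(p : ℤ) • Us p h * E4s) =
      (p : ℤ) • x := by
    rw [smul_mul_assoc, Us_zsmul, hx, smul_sub, smul_smul, neg_zsmul, sub_eq_add_neg]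
    congr 2
    change (p : ℤ) ^ 5 = _
    ring
  rw [h2] at h1
  have h3 : LvlOne 6 x := h1.div (by exact_mod_cast hp0)
  have h4 : LvlOne 6 (x - (PowerSeries.constantCoeff x) • E6s) := h3.sub (E6s_lvl.zsmul _)
  have h5 : x - (PowerSeries.constantCoeff x) • E6s = 0 := by
    rcases h4.divΔ (by rw [map_sub, cc_zsmul, constCoeff_E6s, mul_one, sub_self]) with h | h
    · exact h.2
    · exact absurd h.1 (by norm_num)
  have h6 : red p x = -(u • Us p (red p E4s)) := by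
    have e1 : red p h = PowerSeries.C (u : ZMod p) := by
      rw [hh, map_add, red_cast_mul p p hpz, map_intCast, add_zero, map_intCast]
    have e3 : red p (((p : ℤ) ^ 4) • (h * Vs p E4s)) = 0 := by
      rw [zsmul_eq_mul, red_cast_mul]
      push_cast
      simp
    rw [hx, map_sub, e3, red_Us, map_mul, red_Us, e1, Us_C hp0, zero_sub, map_intCast,
      ← zsmul_eq_mul, Us_zsmul]
  have h7 : ((PowerSeries.constantCoeff x : ℤ) : ZMod p) = -(u : ZMod p) := by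
    have e1 := congrArg (fun y => PowerSeries.coeff 0 y) h6
    simp only [coeff_red, map_neg, cf_zsmul', coeff_Us, zero_mul] at e1
    rw [PowerSeries.coeff_zero_eq_constantCoeff_apply, PowerSeries.coeff_zero_eq_constantCoeff_apply,
      constCoeff_E4s] at e1
    rw [e1]
    simp
  have h8 : ∀ n : ℕ, ((E4s.coeff (n * p) : ℤ) : ZMod p) = ((E6s.coeff n : ℤ) : ZMod p) := by
    intro n
    have e1 := congrArg (fun y => PowerSeries.coeff n (red p y)) h5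
    simp only [map_sub, map_zero, red_zsmul, cf_zsmul', h6, h7, map_neg, coeff_Us, coeff_red] at e1
    have e3 : (u : ZMod p) * (((E4s.coeff (n * p) : ℤ) : ZMod p) - ((E6s.coeff n : ℤ) : ZMod p)) =
        0 := by
      linear_combination -e1
    exact sub_eq_zero.mp ((mul_eq_zero.mp e3).resolve_left hu)
  have hodd : p ≠ 2 := by omega
  have h9 := h8 1
  have h10 := h8 2
  have hcop : Nat.Coprime 2 p := (Nat.coprime_primes Nat.prime_two hp.out).mpr (Ne.symm hodd)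
  rw [one_mul, E4s_coeff hp0, E6s_coeff one_ne_zero, sigma_prime 3 hp.out] at h9
  rw [E4s_coeff (by positivity), E6s_coeff two_ne_zero,
    ArithmeticFunction.isMultiplicative_sigma.map_mul_of_coprime hcop, sigma_prime 3 hp.out,
    sigma_prime 3 Nat.prime_two, sigma_prime 5 Nat.prime_two] at h10
  have hpc : (p : ZMod p) = 0 := by simp
  push_cast at h9 h10
  rw [hpc] at h9 h10
  have h11 : ((24 : ℕ) : ZMod p) = 0 := by
    have h12 : (ArithmeticFunction.sigma 5 1 : ℕ) = 1 := by simp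
    rw [h12] at h9
    push_cast at h9 ⊢
    linear_combination 4 * h10 - 101 * h9
  rw [ZMod.natCast_eq_zero_iff] at h11
  have h12 : p ∣ 2 ^ 3 * 3 := h11
  rcases hp.out.dvd_mul.mp h12 with h13 | h13
  · have := Nat.le_of_dvd (by norm_num) (hp.out.dvd_of_dvd_pow h13)
    omega
  · have := Nat.le_of_dvd (by norm_num) h13
    omega

end

end Fermat.Agent.Eis
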