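import Mathlib
import Fermat.Agent.Eis.Cases
import Fermat.Prelude.Def_ModularCurve_ModularUnit

set_option autoImplicit false

noncomputable section

namespace Fermat.Agent.Eis

open ModularCurve

/-- sum of the divisors of `k` prime to `p` -/
def sgp (p k : ℕ) : ℕ := ∑ d ∈ k.divisors with ¬ p ∣ d, d

/-- `Σ σ'(k) q^k` -/
def Sp (p : ℕ) : PowerSeries ℤ := PowerSeries.mk fun n => (sgp p n : ℤ)

/-- `(p - 1) + 24 Σ σ'(k) q^k` -/
def Es (p : ℕ) : PowerSeries ℤ := (((p - 1 : ℕ) : ℤ) : PowerSeries ℤ) + 24 * Sp p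

theorem zmod2_eq_one : ∀ v : ZMod 2, v ≠ 0 → v = 1 := by decide

theorem sgp_zero (p : ℕ) : sgp p 0 = 0 := by simp [sgp]

section

variable {p : ℕ} [hp : Fact p.Prime]

theorem pair_div {H : PowerSeries ℤ} {d : ℤ} (hd : d ≠ 0)
    (h : IsPair p 2 (d • H) (-(p : ℤ) • Us p (d • H))) : IsPair p 2 H (-(p : ℤ) • Us p H) := by
  rw [Us_zsmul, smul_comm] at h
  exact h.div ⟨1, rfl⟩ hd

theorem upper_prime_pow (hp5 : 5 ≤ p) {a : PowerSeries ℤ}
    (hE : IsPair p 2 (Es p) (-(p : ℤ) • Us p (Es p)))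
    (hf : IsPair p 2 a (-(p : ℤ) • Us p a)) (ha0 : a.coeff 0 = 0)
    {ℓ e : ℕ} (hℓ : ℓ.Prime)
    (hcong : ∀ k, k ≠ 0 → ((ℓ ^ e : ℕ) : ℤ) ∣ (sgp p k : ℤ) - a.coeff k) :
    ℓ ^ e ∣ eisensteinNumerator p := by
  have hℓF : Fact ℓ.Prime := ⟨hℓ⟩
  by_contra hnd
  set n := eisensteinNumerator p with hn
  set g := Nat.gcd (p - 1) 12 with hg
  have hng : n * g = p - 1 := Nat.div_mul_cancel (Nat.gcd_dvd_left _ _)
  have hg12 : g ∣ 12 := Nat.gcd_dvd_right _ _
  have hp1 : p - 1 ≠ 0 := by omega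
  have e2 : Even 2 := ⟨1, rfl⟩
  have he0 : e ≠ 0 := by
    rintro rfl
    exact hnd (by simp)
  -- the form H0
  have hH0 : IsPair p 2 (Es p - (24 : ℤ) • a) (-(p : ℤ) • Us p (Es p - (24 : ℤ) • a)) := by
    have h1 := hE.sub e2 (hf.zsmul e2 24)
    refine h1.congr rfl ?_
    rw [Us_sub, smul_sub, smul_comm (24 : ℤ), Us_zsmul p 24 a]
  have hform : ∀ e' ≤ e, ∃ G : PowerSeries ℤ,
      Es p - (24 : ℤ) • a = (((p - 1 : ℕ) : ℤ) : PowerSeries ℤ) +
        (((24 * ℓ ^ e' : ℕ) : ℤ) : PowerSeries ℤ) * G := by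
    intro e' he'
    have h1 : ∀ k, ((ℓ ^ e' : ℕ) : ℤ) ∣ (sgp p k : ℤ) - a.coeff k := by
      intro k
      rcases eq_or_ne k 0 with rfl | hk
      · rw [sgp_zero, ha0]; simp
      · exact dvd_trans (by exact_mod_cast pow_dvd_pow ℓ he') (hcong k hk)
    choose G hG using h1
    refine ⟨PowerSeries.mk G, ?_⟩
    have h2 : Sp p - a = ((ℓ ^ e' : ℕ) : ℤ) • PowerSeries.mk G := by
      ext k
      rw [map_sub, Sp, PowerSeries.coeff_mk, cf_zsmul, PowerSeries.coeff_mk, hG]
    have h3 : Es p - (24 : ℤ) • a = (((p - 1 : ℕ) : ℤ) : PowerSeries ℤ) + 24 * (Sp p - a) := by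
      rw [Es, zsmul_eq_mul]
      push_cast
      ring
    rw [h3, h2, zsmul_eq_mul]
    push_cast
    ring
  obtain ⟨t, w, hw, htw⟩ := Nat.exists_eq_pow_mul_and_not_dvd hp1 ℓ hℓ.ne_one
  have hwz : ((w : ℤ) : ZMod ℓ) ≠ 0 := by
    rw [Int.cast_natCast, Ne, ZMod.natCast_eq_zero_iff]
    exact hw
  by_cases hlp : ℓ = p
  · -- ℓ = p
    subst hlp
    obtain ⟨G, hG⟩ := hform 1 (by omega)
    refine caseE (p := ℓ) hp5 (u := ((ℓ - 1 : ℕ) : ℤ)) ?_ (g := 24 * G) ?_ hH0
    · rw [Int.cast_natCast, Ne, ZMod.natCast_eq_zero_iff]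
      intro h
      have := Nat.le_of_dvd (by omega) h
      omega
    · rw [hG]
      push_cast
      ring
  have hpodd : ¬ 2 ∣ p := by
    intro h
    have := (Nat.prime_dvd_prime_iff_eq Nat.prime_two hp.out).mp h
    omega
  by_cases hl5 : 5 ≤ ℓ
  · -- ℓ ≥ 5
    have hcop : Nat.Coprime (ℓ ^ e) g := by
      apply Nat.Coprime.pow_left
      rw [hℓ.coprime_iff_not_dvd]
      intro h
      have h12 : ℓ ∣ 2 ^ 2 * 3 := h.trans hg12
      rcases hℓ.dvd_mul.mp h12 with h13 | h13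
      · have := Nat.le_of_dvd (by norm_num) (hℓ.dvd_of_dvd_pow h13)
        omega
      · have := Nat.le_of_dvd (by norm_num) h13
        omega
    have het : t + 1 ≤ e := by
      by_contra hlt
      apply hnd
      have h1 : ℓ ^ e ∣ n * g := by
        rw [hng, htw]
        exact Dvd.dvd.mul_right (pow_dvd_pow ℓ (by omega)) w
      exact hcop.dvd_of_dvd_mul_right h1
    obtain ⟨G, hG⟩ := hform (t + 1) het
    have h1 : Es p - (24 : ℤ) • a = ((ℓ ^ t : ℕ) : ℤ) • (((w : ℤ) : PowerSeries ℤ) +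
        ((3 * ℓ : ℤ) : PowerSeries ℤ) * (8 * G)) := by
      rw [hG, htw, zsmul_eq_mul]
      push_cast
      ring
    rw [h1] at hH0
    have h2 := pair_div (by exact_mod_cast pow_ne_zero t hℓ.ne_zero) hH0
    exact caseA hpodd (by omega) hlp hwz rfl h2
  have hl23 : ℓ = 2 ∨ ℓ = 3 := by
    have h2 := hℓ.two_le
    have h4 : ℓ ≠ 4 := by
      rintro rfl
      exact absurd hℓ (by norm_num)
    omega
  rcases hl23 with rfl | rfl
  · -- ℓ = 2
    have ht1 : t ≠ 0 := by
      rintro rfl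
      rw [pow_zero, one_mul] at htw
      apply hw
      rw [← htw]
      omega
    have hw1 : ((w : ℤ) : ZMod 2) = 1 := by
      exact zmod2_eq_one _ hwz
    by_cases ht2 : t = 1
    · subst ht2
      obtain ⟨G, hG⟩ := hform 1 (by omega)
      have h1 : Es p - (24 : ℤ) • a = (2 : ℤ) • (((w : ℤ) : PowerSeries ℤ) +
          ((8 : ℤ) : PowerSeries ℤ) * (3 * G)) := by
        rw [hG, htw, zsmul_eq_mul]
        push_cast
        ring
      rw [h1] at hH0
      exact caseD (by omega) hw1 rfl (pair_div (by norm_num) hH0)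
    · obtain ⟨s, rfl⟩ : ∃ s, t = s + 2 := ⟨t - 2, by omega⟩
      have hg4 : 4 ∣ g := by
        apply Nat.dvd_gcd
        · rw [htw, pow_add]
          exact Dvd.dvd.mul_right (dvd_mul_left _ _) w
        · norm_num
      obtain ⟨g', hg'⟩ := hg4
      have hg'3 : g' ∣ 3 := by
        rw [hg'] at hg12
        exact (Nat.mul_dvd_mul_iff_left (by norm_num)).mp (show 4 * g' ∣ 4 * 3 from hg12)
      have hcop : Nat.Coprime (2 ^ e) g' := by
        apply Nat.Coprime.pow_left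
        exact Nat.Coprime.coprime_dvd_right hg'3 (by norm_num)
      have het : s + 1 ≤ e := by
        by_contra hlt
        apply hnd
        have h1 : 2 ^ e * 4 ∣ (n * g') * 4 := by
          have : n * g' * 4 = n * g := by rw [hg']; ring
          rw [this, hng, htw, show 2 ^ e * 4 = 2 ^ (e + 2) by ring]
          exact Dvd.dvd.mul_right (pow_dvd_pow 2 (by omega)) w
        have h2 := (Nat.mul_dvd_mul_iff_right (by norm_num)).mp h1
        exact hcop.dvd_of_dvd_mul_right h2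
      obtain ⟨G, hG⟩ := hform (s + 1) het
      have h1 : Es p - (24 : ℤ) • a = ((2 : ℤ) ^ (s + 2)) • (((w : ℤ) : PowerSeries ℤ) +
          ((4 : ℤ) : PowerSeries ℤ) * (3 * G)) := by
        rw [hG, htw, zsmul_eq_mul]
        push_cast
        ring
      rw [h1] at hH0
      have hp4 : (p : ZMod 4) = 1 := by
        have h5 : 4 ∣ p - 1 := by
          rw [htw, pow_add]
          exact Dvd.dvd.mul_right (dvd_mul_left _ _) w
        have h6 : ((p - 1 : ℕ) : ZMod 4) = 0 := by rwa [ZMod.natCast_eq_zero_iff]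
        rw [Nat.cast_sub (by omega), Nat.cast_one] at h6
        exact sub_eq_zero.mp h6
      exact caseC (by omega) hp4 hwz rfl (pair_div (by positivity) hH0)
  · -- ℓ = 3
    by_cases ht0 : t = 0
    · subst ht0
      rw [pow_zero, one_mul] at htw
      obtain ⟨G, hG⟩ := hform 1 (by omega)
      rw [htw] at hG
      exact caseA hpodd (by norm_num) hlp hwz (g := 8 * G) (by rw [hG]; push_cast; ring) hH0
    · obtain ⟨s, rfl⟩ : ∃ s, t = s + 1 := ⟨t - 1, by omega⟩
      have hg3 : 3 ∣ g := by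
        apply Nat.dvd_gcd
        · rw [htw, pow_add]
          exact Dvd.dvd.mul_right (dvd_mul_left _ _) w
        · norm_num
      obtain ⟨g', hg'⟩ := hg3
      have hg'4 : g' ∣ 4 := by
        rw [hg'] at hg12
        exact (Nat.mul_dvd_mul_iff_left (by norm_num)).mp (show 3 * g' ∣ 3 * 4 from hg12)
      have hcop : Nat.Coprime (3 ^ e) g' := by
        apply Nat.Coprime.pow_left
        exact Nat.Coprime.coprime_dvd_right hg'4 (by norm_num)
      have het : s + 1 ≤ e := by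
        by_contra hlt
        apply hnd
        have h1 : 3 ^ e * 3 ∣ (n * g') * 3 := by
          have : n * g' * 3 = n * g := by rw [hg']; ring
          rw [this, hng, htw, ← pow_succ]
          exact Dvd.dvd.mul_right (pow_dvd_pow 3 (by omega)) w
        have h2 := (Nat.mul_dvd_mul_iff_right (by norm_num)).mp h1
        exact hcop.dvd_of_dvd_mul_right h2
      obtain ⟨G, hG⟩ := hform (s + 1) het
      have h1 : Es p - (24 : ℤ) • a = ((3 : ℤ) ^ (s + 1)) • (((w : ℤ) : PowerSeries ℤ) +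
          ((3 : ℤ) : PowerSeries ℤ) * (8 * G)) := by
        rw [hG, htw, zsmul_eq_mul]
        push_cast
        ring
      rw [h1] at hH0
      have hp3 : (p : ZMod 3) = 1 := by
        have h5 : 3 ∣ p - 1 := by
          rw [htw, pow_add]
          exact Dvd.dvd.mul_right (dvd_mul_left _ _) w
        have h6 : ((p - 1 : ℕ) : ZMod 3) = 0 := by rwa [ZMod.natCast_eq_zero_iff]
        rw [Nat.cast_sub (by omega), Nat.cast_one] at h6
        exact sub_eq_zero.mp h6
      exact caseB (by omega) hp3 hwz rfl (pair_div (by positivity) hH0)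

theorem upper (hp5 : 5 ≤ p) {a : PowerSeries ℤ}
    (hE : IsPair p 2 (Es p) (-(p : ℤ) • Us p (Es p)))
    (hf : IsPair p 2 a (-(p : ℤ) • Us p a)) (ha0 : a.coeff 0 = 0) {N : ℕ}
    (hcong : ∀ k, k ≠ 0 → (N : ℤ) ∣ (sgp p k : ℤ) - a.coeff k) :
    N ∣ eisensteinNumerator p := by
  rw [Nat.dvd_iff_prime_pow_dvd_dvd]
  intro ℓ e hℓ hdvd
  exact upper_prime_pow hp5 hE hf ha0 hℓ fun k hk =>
    dvd_trans (by exact_mod_cast hdvd) (hcong k hk)

end

end Fermat.Agent.Eis
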