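import Mathlib
import Fermat.Agent.Eis.Upper

set_option autoImplicit false

noncomputable section

namespace Fermat.Agent.Eis

open ArithmeticFunction
open scoped ArithmeticFunction.zeta

/-- `d ↦ d` for `d` prime to `p`, as an arithmetic function -/
def idp (p : ℕ) : ArithmeticFunction ℕ := ⟨fun d => if p ∣ d then 0 else d, by simp⟩

theorem idp_apply (p d : ℕ) : idp p d = if p ∣ d then 0 else d := rfl

theorem idp_mul {p : ℕ} (hp : p.Prime) : (idp p).IsMultiplicative := by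
  constructor
  · rw [idp_apply, if_neg]
    intro h
    exact hp.one_lt.ne' (Nat.dvd_one.mp h)
  · intro m n _
    simp only [idp_apply, hp.dvd_mul]
    split_ifs <;> simp_all

theorem sgp_eq (p k : ℕ) : sgp p k = ((ζ : ArithmeticFunction ℕ) * idp p) k := by
  rw [show ((ζ : ArithmeticFunction ℕ) * idp p) k = ∑ i ∈ k.divisors, idp p i from
    zeta_mul_apply, sgp, Finset.sum_filter]
  refine Finset.sum_congr rfl fun d _ => ?_
  rw [idp_apply]
  split_ifs <;> simp_all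

theorem sgp_mul {p m n : ℕ} (hp : p.Prime) (h : Nat.Coprime m n) :
    sgp p (m * n) = sgp p m * sgp p n := by
  rw [sgp_eq, sgp_eq, sgp_eq]
  exact (isMultiplicative_zeta.mul (idp_mul hp)).map_mul_of_coprime h

theorem sgp_prime_pow {p ℓ : ℕ} (hℓ : ℓ.Prime) (hp : p.Prime) (h : ℓ ≠ p) (a : ℕ) :
    sgp p (ℓ ^ a) = ∑ i ∈ Finset.range (a + 1), ℓ ^ i := by
  rw [sgp, Nat.divisors_prime_pow hℓ, Finset.filter_true_of_mem]
  · rw [Finset.sum_map]
    rfl
  · intro d hd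
    simp only [Finset.mem_map, Finset.mem_range] at hd
    obtain ⟨i, -, rfl⟩ := hd
    intro hpd
    have := (Nat.prime_dvd_prime_iff_eq hp hℓ).mp (hp.dvd_of_dvd_pow hpd)
    exact h this.symm

theorem sgp_p_pow {p : ℕ} (hp : p.Prime) (a : ℕ) : sgp p (p ^ a) = 1 := by
  rw [sgp, Nat.divisors_prime_pow hp]
  have : Finset.filter (fun d => ¬ p ∣ d) (Finset.map ⟨(p ^ ·), Nat.pow_right_injective hp.two_le⟩
      (Finset.range (a + 1))) = {1} := by
    ext d
    simp only [Finset.mem_filter, Finset.mem_map, Finset.mem_range, Finset.mem_singleton,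
      Function.Embedding.coeFn_mk]
    constructor
    · rintro ⟨⟨i, -, rfl⟩, h⟩
      rcases Nat.eq_zero_or_pos i with rfl | hi
      · simp
      · exact absurd (dvd_pow_self p hi.ne') h
    · rintro rfl
      refine ⟨⟨0, by omega, by simp⟩, ?_⟩
      intro h
      exact hp.one_lt.ne' (Nat.dvd_one.mp h)
  rw [this]
  simp

theorem sgp_one {p : ℕ} (hp : p.Prime) : sgp p 1 = 1 := by
  have := sgp_p_pow hp 0
  simpa using this

/-- Hecke relation at `p` -/
theorem sgp_mul_p {p : ℕ} (hp : p.Prime) (k : ℕ) (hk : k ≠ 0) : sgp p (k * p) = sgp p k := by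
  obtain ⟨a, m, hm, rfl⟩ := Nat.exists_eq_pow_mul_and_not_dvd hk p hp.ne_one
  have hc : ∀ b, Nat.Coprime (p ^ b) m := fun b =>
    Nat.Coprime.pow_left b ((hp.coprime_iff_not_dvd).mpr hm)
  rw [show p ^ a * m * p = p ^ (a + 1) * m by ring, sgp_mul hp (hc _), sgp_mul hp (hc _),
    sgp_p_pow hp, sgp_p_pow hp]

/-- Hecke relation at `ℓ ≠ p` -/
theorem sgp_mul_prime {p ℓ : ℕ} (hℓ : ℓ.Prime) (hp : p.Prime) (h : ℓ ≠ p) (k : ℕ) (hk : k ≠ 0) :
    sgp p (k * ℓ) + (if ℓ ∣ k then ℓ * sgp p (k / ℓ) else 0) = (1 + ℓ) * sgp p k := by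
  obtain ⟨a, m, hm, rfl⟩ := Nat.exists_eq_pow_mul_and_not_dvd hk ℓ hℓ.ne_one
  have hc : ∀ b, Nat.Coprime (ℓ ^ b) m := fun b =>
    Nat.Coprime.pow_left b ((hℓ.coprime_iff_not_dvd).mpr hm)
  rcases Nat.eq_zero_or_pos a with rfl | ha
  · rw [pow_zero, one_mul, if_neg hm, add_zero, mul_comm m ℓ]
    have := hc 1
    rw [pow_one] at this
    rw [sgp_mul hp this]
    have h2 := sgp_prime_pow hℓ hp h 1
    rw [pow_one] at h2
    rw [h2]
    simp [Finset.sum_range_succ]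
  · obtain ⟨b, rfl⟩ : ∃ b, a = b + 1 := ⟨a - 1, by omega⟩
    have h1 : ℓ ^ (b + 1) * m / ℓ = ℓ ^ b * m := by
      rw [pow_succ', mul_assoc, Nat.mul_div_cancel_left _ hℓ.pos]
    rw [if_pos (Dvd.dvd.mul_right (dvd_pow_self ℓ (by omega)) m), h1,
      show ℓ ^ (b + 1) * m * ℓ = ℓ ^ (b + 2) * m by ring, sgp_mul hp (hc _), sgp_mul hp (hc _),
      sgp_mul hp (hc _), sgp_prime_pow hℓ hp h, sgp_prime_pow hℓ hp h, sgp_prime_pow hℓ hp h,
      Finset.sum_range_succ, Finset.sum_range_succ, Finset.sum_range_succ]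
    ring

end Fermat.Agent.Eis
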