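import Mathlib
import Fermat.Agent.Eis.Sgp
import Fermat.Prelude.Def_CuspForm_HeckeLocal
import Fermat.Prelude.Def_CuspForm_HeckeEvalForms
import Fermat.Prelude.Def_HeckeGalois_EichlerShimura

set_option autoImplicit false

noncomputable section

namespace Fermat.Agent.Eis

open UpperHalfPlane ModularForm CongruenceSubgroup Matrix.SpecialLinearGroup Filter
open scoped MatrixGroups Manifold Topology
open Fermat.Agent.IntStr ModularFormClass CuspForm ModularCurve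

/-- A cusp form as an unbundled modular form. -/
theorem isMF_cusp {N : ℕ} [NeZero N] {k : ℤ} (f : CuspForm (Gamma0 N) k) :
    IsMF (Gamma0 N) k f where
  holo := f.holo'
  slash γ hγ := f.slash_action_eq' _ ⟨γ, hγ, rfl⟩
  bdd γ := by
    have hc : IsCusp (mapGL ℝ γ • OnePoint.infty) (Gamma0 N : Subgroup (GL (Fin 2) ℝ)) := by
      rw [Subgroup.IsArithmetic.isCusp_iff_isCusp_SL2Z]
      exact isCusp_SL2Z_iff'.mpr ⟨γ, rfl⟩
    exact (f.zero_at_cusps' hc _ rfl).isBoundedAtImInfty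

theorem cusp_coeff_zero {N : ℕ} [NeZero N] {k : ℤ} (f : CuspForm (Gamma0 N) k) :
    qCoeff f 0 = 0 := by
  have hmf := isMF_cusp f
  have hT := T_mem_Gamma0 N
  have h1 : IsZeroAtImInfty f := by
    have hc : IsCusp (OnePoint.infty) (Gamma0 N : Subgroup (GL (Fin 2) ℝ)) := by
      rw [Subgroup.IsArithmetic.isCusp_iff_isCusp_SL2Z]
      exact isCusp_SL2Z_iff'.mpr ⟨1, by simp⟩
    have := f.zero_at_cusps' hc 1 (by simp)
    simpa using this
  rw [qCoeff, qExpansion_coeff_zero one_pos (hmf.analyticAt hT) (hmf.periodic hT)]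
  exact h1.valueAtInfty_eq_zero

theorem qCoeff_add {N : ℕ} [NeZero N] {k : ℤ} (f g : CuspForm (Gamma0 N) k) (n : ℕ) :
    qCoeff (f + g : CuspForm (Gamma0 N) k) n = qCoeff f n + qCoeff g n := by
  rw [qCoeff, FunLike.coe_add, (isMF_cusp f).qExpansion_add (isMF_cusp g) (T_mem_Gamma0 N),
    map_add]
  rfl

theorem qCoeff_smul {N : ℕ} [NeZero N] {k : ℤ} (c : ℂ) (f : CuspForm (Gamma0 N) k) (n : ℕ) :
    qCoeff (c • f : CuspForm (Gamma0 N) k) n = c * qCoeff f n := by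
  rw [qCoeff, FunLike.coe_smul, (isMF_cusp f).qExpansion_smul (T_mem_Gamma0 N),
    map_smul]
  rfl

theorem qCoeff_zsmul {N : ℕ} [NeZero N] {k : ℤ} (c : ℤ) (f : CuspForm (Gamma0 N) k) (n : ℕ) :
    qCoeff (c • f : CuspForm (Gamma0 N) k) n = c * qCoeff f n := by
  rw [← qCoeff_smul, Int.cast_smul_eq_zsmul]

theorem qCoeff_zero {N : ℕ} [NeZero N] {k : ℤ} (n : ℕ) :
    qCoeff (0 : CuspForm (Gamma0 N) k) n = 0 := by
  have := qCoeff_zsmul 0 (0 : CuspForm (Gamma0 N) k) n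
  simpa using this

theorem mem_intLattice_iff {N : ℕ} [NeZero N] {k : ℤ} (f : CuspForm (Gamma0 N) k) :
    f ∈ intLattice N k ↔ ∀ n : ℕ, ∃ m : ℤ, qCoeff f n = (m : ℂ) := by
  constructor
  · intro h
    induction h using Submodule.span_induction with
    | mem x hx => exact hx
    | zero => exact fun n => ⟨0, by rw [qCoeff_zero]; simp⟩
    | add x y _ _ hx hy =>
      intro n
      obtain ⟨a, ha⟩ := hx n
      obtain ⟨b, hb⟩ := hy n
      exact ⟨a + b, by rw [qCoeff_add, ha, hb]; push_cast; rfl⟩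
    | smul c x _ hx =>
      intro n
      obtain ⟨a, ha⟩ := hx n
      exact ⟨c * a, by rw [qCoeff_zsmul, ha]; push_cast; rfl⟩
  · intro h
    exact Submodule.subset_span h

theorem cusp_eq_zero {N : ℕ} [NeZero N] {k : ℤ} (f : CuspForm (Gamma0 N) k)
    (h : ∀ n, n ≠ 0 → qCoeff f n = 0) : f = 0 := by
  have h1 : qExpansion 1 f = 0 := by
    ext n
    rcases eq_or_ne n 0 with rfl | hn
    · exact cusp_coeff_zero f
    · exact h n hn
  have h2 := (isMF_cusp f).eq_zero_of_qExpansion (T_mem_Gamma0 N) h1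
  exact DFunLike.coe_injective h2

section

variable {p : ℕ} [hp : Fact p.Prime]

/-- integral coefficients -/
def aZ (f : ↥(intLattice p 2)) (n : ℕ) : ℤ :=
  Classical.choose ((mem_intLattice_iff (f : CuspForm (Gamma0 p) 2)).mp f.2 n)

theorem aZ_spec (f : ↥(intLattice p 2)) (n : ℕ) :
    qCoeff (f : CuspForm (Gamma0 p) 2) n = (aZ f n : ℂ) :=
  Classical.choose_spec ((mem_intLattice_iff (f : CuspForm (Gamma0 p) 2)).mp f.2 n)

/-- the `n`-th coefficient as a linear functional -/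
def aL (n : ℕ) : ↥(intLattice p 2) →ₗ[ℤ] ℤ where
  toFun f := aZ f n
  map_add' f g := by
    have : ((aZ (f + g) n : ℤ) : ℂ) = ((aZ f n + aZ g n : ℤ) : ℂ) := by
      rw [← aZ_spec]
      push_cast
      rw [← aZ_spec, ← aZ_spec, ← qCoeff_add]
      rfl
    exact_mod_cast this
  map_smul' c f := by
    have : ((aZ (c • f) n : ℤ) : ℂ) = ((c * aZ f n : ℤ) : ℂ) := by
      rw [← aZ_spec]
      push_cast
      rw [← aZ_spec, ← qCoeff_zsmul]
      rfl
    rw [RingHom.id_apply, smul_eq_mul]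
    exact_mod_cast this

theorem aL_apply (n : ℕ) (f : ↥(intLattice p 2)) : aL n f = aZ f n := rfl

theorem lattice_eq_zero {f : ↥(intLattice p 2)} (h : ∀ n, n ≠ 0 → aZ f n = 0) : f = 0 := by
  apply Subtype.ext
  apply cusp_eq_zero
  intro n hn
  rw [aZ_spec, h n hn, Int.cast_zero]

theorem aZ_zero (f : ↥(intLattice p 2)) : aZ f 0 = 0 := by
  have h := aZ_spec f 0
  rw [cusp_coeff_zero] at h
  exact_mod_cast h.symm

/-- the Hecke algebra -/
abbrev TT (p : ℕ) [Fact p.Prime] := ↥(heckeLatticeAlgebra p ∅)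

/-- the structure map -/
def phi (p : ℕ) [Fact p.Prime] : HeckeAlg →+* TT p :=
  (latticeRestrictHom p ∅).toRingHom.comp (heckeEvalForms p 2)

theorem phi_apply (s : HeckeAlg) (f : ↥(intLattice p 2)) :
    ((((phi p s : TT p) : Module.End ℤ ↥(intLattice p 2)) f : ↥(intLattice p 2)) :
      CuspForm (Gamma0 p) 2) =
    ((heckeEvalForms p 2 s : heckeAlgebra p 2 ∅) : Module.End ℂ (CuspForm (Gamma0 p) 2)) f := rfl

theorem aZ_gen (ℓ : Nat.Primes) (f : ↥(intLattice p 2)) (n : ℕ) :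
    aZ (((phi p (MvPolynomial.X ℓ) : TT p) : Module.End ℤ ↥(intLattice p 2)) f) n =
      aZ f (n * ℓ) + if (ℓ : ℕ) ≠ p ∧ (ℓ : ℕ) ∣ n then (ℓ : ℤ) * aZ f (n / ℓ) else 0 := by
  have hℓ := ℓ.2
  have hmf := isMF_cusp (f : CuspForm (Gamma0 p) 2)
  have hT := T_mem_Gamma0 p
  have h1 : ((aZ (((phi p (MvPolynomial.X ℓ) : TT p) : Module.End ℤ ↥(intLattice p 2)) f) n : ℤ) :
      ℂ) = ((aZ f (n * ℓ) + if (ℓ : ℕ) ≠ p ∧ (ℓ : ℕ) ∣ n then (ℓ : ℤ) * aZ f (n / ℓ) else 0 : ℤ) :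
      ℂ) := by
    rw [← aZ_spec, phi_apply]
    have h2 : heckeEvalForms p 2 (MvPolynomial.X ℓ) = heckeFormsGen p 2 ℓ :=
      heckeEvalForms_heckeGen p 2 ℓ
    rw [h2]
    by_cases hlp : (ℓ : ℕ) = p
    · have hd : (ℓ : ℕ) ∣ p := hlp ▸ dvd_rfl
      rw [heckeFormsGen_of_dvd hd, heckeAlgebra.coe_U, CuspForm.coe_heckeULin_apply]
      rw [UpperHalfPlane.qCoeff_heckeU (hmf.periodic hT) hmf.holo hmf.bdd_infty 2 hℓ.ne_zero n,
        coeffHeckeU_apply, aZ_spec]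
      simp [hlp]
    · have hd : ¬ (ℓ : ℕ) ∣ p := by
        intro h
        exact hlp ((Nat.prime_dvd_prime_iff_eq hℓ hp.out).mp h)
      rw [heckeFormsGen_of_not_dvd hd, heckeAlgebra.coe_T, CuspForm.coe_heckeTLin_apply]
      rw [UpperHalfPlane.qCoeff_heckeT (hmf.periodic hT) hmf.holo hmf.bdd_infty 2 hℓ.ne_zero n,
        coeffHeckeT_apply, aZ_spec, aZ_spec]
      split_ifs with h3 h4 h4
      · push_cast
        norm_num
      · exact absurd ⟨hlp, h3⟩ h4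
      · exact absurd h4.2 h3
      · simp
  exact_mod_cast h1

theorem phi_surjective : Function.Surjective (phi p) := by
  intro t
  obtain ⟨x, rfl⟩ := latticeRestrictHom_surjective p ∅ t
  obtain ⟨x, hx⟩ := x
  have h : ∀ y (hy : y ∈ heckeAlgebra p 2 ∅), ∃ s, heckeEvalForms p 2 s = ⟨y, hy⟩ := by
    intro y hy
    refine Algebra.adjoin_induction (p := fun y hy => ∃ s, heckeEvalForms p 2 s = ⟨y, hy⟩)
      ?_ ?_ ?_ ?_ hy
    · rintro x (⟨ℓ, hℓ, hℓN, -, rfl⟩ | ⟨q, hqN, hq, -, rfl⟩)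
      · exact ⟨_, heckeEvalForms_heckeGen_of_not_dvd (ℓ := ⟨ℓ, hℓ⟩) hℓN⟩
      · exact ⟨_, heckeEvalForms_heckeGen_of_dvd (q := ⟨q, hq⟩) hqN⟩
    · intro r
      exact ⟨MvPolynomial.C r, heckeEvalForms_C p 2 r⟩
    · rintro x y hx hy ⟨s, hs⟩ ⟨t, ht⟩
      exact ⟨s + t, by rw [map_add, hs, ht]; rfl⟩
    · rintro x y hx hy ⟨s, hs⟩ ⟨t, ht⟩
      exact ⟨s * t, by rw [map_mul, hs, ht]; rfl⟩
  obtain ⟨s, hs⟩ := h x hx
  refine ⟨s, ?_⟩
  rw [phi, RingHom.comp_apply, hs]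
  rfl

/-- the Eisenstein character -/
def lam (p : ℕ) : HeckeAlg →+* ℤ := (MvPolynomial.aeval (R := ℤ) (eisensteinSystem p)).toRingHom

theorem lam_X (ℓ : Nat.Primes) :
    lam p (MvPolynomial.X ℓ) = if (ℓ : ℕ) = p then 1 else 1 + (ℓ : ℕ) := by
  have h1 : lam p (MvPolynomial.X ℓ) = eisensteinSystem p ℓ := MvPolynomial.aeval_X _ _
  rw [h1]
  split_ifs with h
  · exact eisensteinSystem_of_dvd (h ▸ dvd_rfl)
  · exact eisensteinSystem_of_not_dvd fun hd => h ((Nat.prime_dvd_prime_iff_eq ℓ.2 hp.out).mp hd)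

omit hp in
theorem lam_C (c : ℤ) : lam p (MvPolynomial.C c) = c := by
  have : lam p (MvPolynomial.C c) = algebraMap ℤ ℤ c := MvPolynomial.aeval_C _ _
  exact this

omit hp in
theorem mem_eis_iff (s : HeckeAlg) : s ∈ eisensteinIdeal p ↔ lam p s = 0 :=
  mem_eigenIdeal_iff _ _

theorem sgp_hecke (ℓ : Nat.Primes) (k : ℕ) (hk : k ≠ 0) :
    (sgp p (k * ℓ) : ℤ) + (if (ℓ : ℕ) ≠ p ∧ (ℓ : ℕ) ∣ k then (ℓ : ℤ) * sgp p (k / ℓ) else 0) =
      lam p (MvPolynomial.X ℓ) * sgp p k := by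
  rw [lam_X]
  by_cases h : (ℓ : ℕ) = p
  · rw [if_pos h, if_neg (by tauto), h, sgp_mul_p hp.out k hk]
    ring
  · rw [if_neg h]
    have h1 := sgp_mul_prime ℓ.2 hp.out h k hk
    have h2 : (if (ℓ : ℕ) ≠ p ∧ (ℓ : ℕ) ∣ k then ((ℓ : ℕ) : ℤ) * (sgp p (k / ℓ) : ℤ) else 0) =
        ((if (ℓ : ℕ) ∣ k then (ℓ : ℕ) * sgp p (k / ℓ) else 0 : ℕ) : ℤ) := by
      by_cases h3 : (ℓ : ℕ) ∣ k
      · rw [if_pos ⟨h, h3⟩, if_pos h3]; push_cast; rfl
      · rw [if_neg (by tauto), if_neg h3]; simp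
    rw [h2]
    exact_mod_cast h1

theorem coe_mul_apply (s t : HeckeAlg) (f : ↥(intLattice p 2)) :
    ((phi p (s * t) : TT p) : Module.End ℤ ↥(intLattice p 2)) f =
      ((phi p s : TT p) : Module.End ℤ ↥(intLattice p 2))
        (((phi p t : TT p) : Module.End ℤ ↥(intLattice p 2)) f) := by
  rw [map_mul]
  rfl

theorem coe_add_apply (s t : HeckeAlg) (f : ↥(intLattice p 2)) :
    ((phi p (s + t) : TT p) : Module.End ℤ ↥(intLattice p 2)) f =
      ((phi p s : TT p) : Module.End ℤ ↥(intLattice p 2)) f +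
        ((phi p t : TT p) : Module.End ℤ ↥(intLattice p 2)) f := by
  rw [map_add]
  rfl

theorem coe_C_apply (c : ℤ) (f : ↥(intLattice p 2)) :
    ((phi p (MvPolynomial.C c) : TT p) : Module.End ℤ ↥(intLattice p 2)) f = c • f := by
  have h1 : phi p (MvPolynomial.C c) = (c : TT p) := by
    rw [show (MvPolynomial.C c : HeckeAlg) = ((c : ℤ) : HeckeAlg) by simp, map_intCast]
  rw [h1]
  have h2 : (((c : ℤ) : TT p) : Module.End ℤ ↥(intLattice p 2)) = ((c : ℤ) : Module.End ℤ ↥(intLattice p 2)) := by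
    simp
  rw [h2]
  simp

/-- **Lower bound**: a cusp form congruent to the Eisenstein series forces `n ∣ c`. -/
theorem lower {n : ℤ} {w : ℤ} (hw : IsCoprime n w) {g : ↥(intLattice p 2)}
    (hg : ∀ k, k ≠ 0 → n ∣ aZ g k - w * sgp p k) {s : HeckeAlg} (hs : lam p s = 0) {c : ℤ}
    (hsc : phi p s = phi p (MvPolynomial.C c)) : n ∣ c := by
  have key : ∀ s : HeckeAlg, ∀ k, k ≠ 0 →
      n ∣ aZ (((phi p s : TT p) : Module.End ℤ ↥(intLattice p 2)) g) k -
        lam p s * w * sgp p k := by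
    intro s
    induction s using MvPolynomial.induction_on with
    | C c =>
      intro k hk
      rw [coe_C_apply, ← aL_apply, map_smul, aL_apply, lam_C, smul_eq_mul]
      obtain ⟨x, hx⟩ := hg k hk
      exact ⟨c * x, by linear_combination c * hx⟩
    | add s t hs ht =>
      intro k hk
      rw [coe_add_apply, ← aL_apply, map_add, aL_apply, aL_apply, map_add]
      obtain ⟨x, hx⟩ := hs k hk
      obtain ⟨y, hy⟩ := ht k hk
      exact ⟨x + y, by linear_combination hx + hy⟩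
    | mul_X s ℓ hs =>
      intro k hk
      rw [mul_comm s, coe_mul_apply, aZ_gen, map_mul]
      obtain ⟨x, hx⟩ := hs (k * ℓ) (mul_ne_zero hk ℓ.2.ne_zero)
      have h3 := sgp_hecke (p := p) ℓ k hk
      by_cases h2 : (ℓ : ℕ) ≠ p ∧ (ℓ : ℕ) ∣ k
      · have hk' : k / ℓ ≠ 0 := by
          obtain ⟨m, rfl⟩ := h2.2
          rw [Nat.mul_div_cancel_left _ ℓ.2.pos]
          rintro rfl
          simp at hk
        obtain ⟨y, hy⟩ := hs (k / ℓ) hk'
        rw [if_pos h2] at h3 ⊢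
        exact ⟨x + ℓ * y, by linear_combination hx + (ℓ : ℤ) * hy + (lam p s * w) * h3⟩
      · rw [if_neg h2] at h3 ⊢
        exact ⟨x, by linear_combination hx + (lam p s * w) * h3⟩
  have h1 := key s 1 one_ne_zero
  rw [hsc, coe_C_apply, ← aL_apply, map_smul, aL_apply, hs, sgp_one hp.out, smul_eq_mul] at h1
  have h2 := hg 1 one_ne_zero
  rw [sgp_one hp.out] at h2
  have h3 : n ∣ c * w := by
    obtain ⟨x, hx⟩ := h1
    obtain ⟨y, hy⟩ := h2
    exact ⟨x - c * y, by push_cast at hx hy; linear_combination hx - c * hy⟩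
  exact hw.dvd_of_dvd_mul_right h3

end

end Fermat.Agent.Eis
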