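import Mathlib
import Fermat.Agent.Eis.Lattice

set_option autoImplicit false

noncomputable section

namespace Fermat.Agent.Eis

open UpperHalfPlane ModularForm CongruenceSubgroup Matrix.SpecialLinearGroup Filter
open scoped MatrixGroups Manifold Topology
open Fermat.Agent.IntStr ModularFormClass CuspForm ModularCurve

section

variable {p : ℕ} [hp : Fact p.Prime]

theorem exists_tk (k : ℕ) (hk : k ≠ 0) : ∃ s : HeckeAlg,
    (∀ f : ↥(intLattice p 2),
      aZ (((phi p s : TT p) : Module.End ℤ ↥(intLattice p 2)) f) 1 = aZ f k) ∧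
      lam p s = sgp p k := by
  induction k using Nat.strong_induction_on with
  | _ k ih =>
    rcases eq_or_ne k 1 with rfl | hk1
    · refine ⟨1, fun f => ?_, ?_⟩
      · rw [map_one]
        rfl
      · rw [map_one, sgp_one hp.out]
        rfl
    · obtain ⟨ℓ, hℓ, j, rfl⟩ := Nat.exists_prime_and_dvd hk1
      have hj : j ≠ 0 := by
        rintro rfl
        exact hk (mul_zero _)
      have hjlt : j < ℓ * j := by
        have := hℓ.two_le
        nlinarith [Nat.pos_of_ne_zero hj]
      obtain ⟨s, hs, hs'⟩ := ih j hjlt hj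
      set L : Nat.Primes := ⟨ℓ, hℓ⟩ with hL
      have hgen := sgp_hecke (p := p) L j hj
      by_cases h2 : (L : ℕ) ≠ p ∧ (L : ℕ) ∣ j
      · obtain ⟨i, hi⟩ := h2.2
        have hLℓ : (L : ℕ) = ℓ := rfl
        have hi0 : i ≠ 0 := by
          rintro rfl
          exact hj (by rw [hi, mul_zero])
        have hdiv : j / (L : ℕ) = i := by
          rw [hi, Nat.mul_div_cancel_left _ L.2.pos]
        have hilt : i < ℓ * j := by
          have h3 : i ≤ j := by
            rw [hi, hLℓ]
            exact Nat.le_mul_of_pos_left i hℓ.pos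
          omega
        obtain ⟨t, ht, ht'⟩ := ih i hilt hi0
        refine ⟨s * MvPolynomial.X L + MvPolynomial.C (-(ℓ : ℤ)) * t, fun f => ?_, ?_⟩
        · rw [coe_add_apply, coe_mul_apply, coe_mul_apply, coe_C_apply, ← aL_apply, map_add,
            map_smul, aL_apply, aL_apply, hs, ht, aZ_gen, if_pos h2, hdiv, hLℓ, smul_eq_mul,
            mul_comm j ℓ]
          ring
        · rw [map_add, map_mul, map_mul, lam_C, hs', ht']
          rw [if_pos h2, hdiv, hLℓ, mul_comm j ℓ] at hgen
          linear_combination -hgen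
      · refine ⟨s * MvPolynomial.X L, fun f => ?_, ?_⟩
        · rw [coe_mul_apply, hs, aZ_gen, if_neg h2, add_zero, mul_comm j]
        · rw [map_mul, hs']
          rw [if_neg h2, add_zero, mul_comm j] at hgen
          rw [hgen]
          ring

/-- the pairing -/
def pairB (p : ℕ) [Fact p.Prime] : ↥(intLattice p 2) →ₗ[ℤ] (TT p →ₗ[ℤ] ℤ) :=
  LinearMap.mk₂ ℤ (fun f t => aL 1 ((t : Module.End ℤ ↥(intLattice p 2)) f))
    (fun f g t => by rw [map_add, map_add])
    (fun c f t => by rw [map_smul, map_smul])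
    (fun f t t' => by
      rw [← map_add]
      rfl)
    (fun c f t => by
      rw [← map_smul]
      rfl)

theorem pairB_apply (f : ↥(intLattice p 2)) (t : TT p) :
    pairB p f t = aZ ((t : Module.End ℤ ↥(intLattice p 2)) f) 1 := rfl

theorem pairB_injective : Function.Injective (pairB p) := by
  rw [injective_iff_map_eq_zero]
  intro f hf
  apply lattice_eq_zero
  intro k hk
  obtain ⟨s, hs, -⟩ := exists_tk (p := p) k hk
  rw [← hs f, ← pairB_apply, hf]
  rfl

theorem pairB_flip_injective : Function.Injective (pairB p).flip := by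
  rw [injective_iff_map_eq_zero]
  intro t ht
  apply Subtype.ext
  refine LinearMap.ext fun f => ?_
  apply lattice_eq_zero
  intro k hk
  obtain ⟨s, hs, -⟩ := exists_tk (p := p) k hk
  rw [← hs]
  have h1 : ((phi p s : TT p) : Module.End ℤ ↥(intLattice p 2))
      ((t : Module.End ℤ ↥(intLattice p 2)) f) =
      (t : Module.End ℤ ↥(intLattice p 2)) (((phi p s : TT p) : Module.End ℤ ↥(intLattice p 2)) f) := by
    have h2 : phi p s * t = t * phi p s := mul_comm _ _
    exact congrArg (fun x : TT p => (x : Module.End ℤ ↥(intLattice p 2)) f) h2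
  rw [h1, ← pairB_apply, ← LinearMap.flip_apply, ht]
  rfl

theorem finrank_eq : Module.finrank ℤ ↥(intLattice p 2) = Module.finrank ℤ (TT p →ₗ[ℤ] ℤ) := by
  have := intLattice.moduleFinite p
  have := intLattice.moduleFree p
  apply le_antisymm
  · exact LinearMap.finrank_le_finrank_of_injective pairB_injective
  · have h1 : Module.finrank ℤ (TT p) ≤ Module.finrank ℤ (↥(intLattice p 2) →ₗ[ℤ] ℤ) :=
      LinearMap.finrank_le_finrank_of_injective pairB_flip_injective
    rw [Module.finrank_linearMap, Module.finrank_self, mul_one] at h1 ⊢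
    exact h1

theorem duality (Ψ : TT p →ₗ[ℤ] ℤ) :
    ∃ f : ↥(intLattice p 2), ∀ t : TT p, aZ ((t : Module.End ℤ ↥(intLattice p 2)) f) 1 = Ψ t := by
  have := intLattice.moduleFinite p
  have := intLattice.moduleFree p
  have h1 : Module.finrank ℤ (LinearMap.range (pairB p)) = Module.finrank ℤ (TT p →ₗ[ℤ] ℤ) := by
    rw [LinearMap.finrank_range_of_inj pairB_injective, finrank_eq]
  have hfin := Submodule.finiteQuotientOfFreeOfRankEq _ h1
  set M := (LinearMap.range (pairB p)).toAddSubgroup.index with hM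
  have hM0 : M ≠ 0 := by
    rw [hM]
    have : Finite ((TT p →ₗ[ℤ] ℤ) ⧸ (LinearMap.range (pairB p)).toAddSubgroup) := hfin
    exact AddSubgroup.index_ne_zero_of_finite
  have h2 : M • Ψ ∈ LinearMap.range (pairB p) :=
    AddSubgroup.nsmul_index_mem (LinearMap.range (pairB p)).toAddSubgroup Ψ
  obtain ⟨f0, hf0⟩ := h2
  have hMc : (M : ℂ) ≠ 0 := by exact_mod_cast hM0
  have h3 : ∀ t : TT p, aZ ((t : Module.End ℤ ↥(intLattice p 2)) f0) 1 = M * Ψ t := by
    intro t
    rw [← pairB_apply, hf0]
    simp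
  have hmem : ((M : ℂ)⁻¹ • (f0 : CuspForm (Gamma0 p) 2)) ∈ intLattice p 2 := by
    rw [mem_intLattice_iff]
    intro k
    rw [qCoeff_smul]
    rcases eq_or_ne k 0 with rfl | hk
    · exact ⟨0, by rw [cusp_coeff_zero]; simp⟩
    · obtain ⟨s, hs, -⟩ := exists_tk (p := p) k hk
      refine ⟨Ψ (phi p s), ?_⟩
      rw [aZ_spec, ← hs, h3]
      push_cast
      field_simp
  refine ⟨⟨_, hmem⟩, fun t => ?_⟩
  set f1 : ↥(intLattice p 2) := ⟨_, hmem⟩ with hf1
  have h4 : (M : ℤ) • f1 = f0 := by
    apply Subtype.ext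
    change (M : ℤ) • ((M : ℂ)⁻¹ • (f0 : CuspForm (Gamma0 p) 2)) = f0
    rw [natCast_zsmul, ← Nat.cast_smul_eq_nsmul ℂ, smul_smul, mul_inv_cancel₀ hMc, one_smul]
  have h5 := h3 t
  rw [← h4, map_smul, ← aL_apply, map_smul, smul_eq_mul, aL_apply] at h5
  exact mul_left_cancel₀ (by exact_mod_cast hM0) h5

end

end Fermat.Agent.Eis
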