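import Mathlib
import Fermat.Agent.Eis.Duality

set_option autoImplicit false

noncomputable section

namespace Fermat.Agent.Eis

open UpperHalfPlane ModularForm CongruenceSubgroup Matrix.SpecialLinearGroup Filter
open scoped MatrixGroups Manifold Topology
open Fermat.Agent.IntStr ModularFormClass CuspForm ModularCurve

section

variable {p : ℕ} [hp : Fact p.Prime]

/-- the image of the Eisenstein ideal -/
abbrev JJ (p : ℕ) [Fact p.Prime] : Ideal (TT p) := Ideal.map (phi p) (eisensteinIdeal p)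

theorem isPair_of_lattice (f : ↥(intLattice p 2)) :
    IsPair p 2 (PowerSeries.mk (aZ f)) (-(p : ℤ) • Us p (PowerSeries.mk (aZ f))) := by
  apply isPair_weight_two (isMF_cusp (f : CuspForm (Gamma0 p) 2))
  ext n
  rw [coeff_tc, PowerSeries.coeff_mk]
  exact aZ_spec f n

theorem mem_JJ_iff (t : TT p) : t ∈ JJ p ↔ ∃ s : HeckeAlg, lam p s = 0 ∧ phi p s = t := by
  rw [Ideal.mem_map_iff_of_surjective _ phi_surjective]
  simp only [mem_eis_iff]

theorem phi_C (c : ℤ) : phi p (MvPolynomial.C c) = (c : TT p) := by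
  rw [show (MvPolynomial.C c : HeckeAlg) = ((c : ℤ) : HeckeAlg) by simp, map_intCast]

theorem castRingHom_surjective :
    Function.Surjective (Int.castRingHom (TT p ⧸ JJ p)) := by
  intro x
  obtain ⟨t, rfl⟩ := Ideal.Quotient.mk_surjective x
  obtain ⟨s, rfl⟩ := phi_surjective t
  refine ⟨lam p s, ?_⟩
  rw [eq_intCast, ← map_intCast (Ideal.Quotient.mk (JJ p)), ← phi_C, Ideal.Quotient.eq, ← map_sub,
    mem_JJ_iff]
  exact ⟨_, by rw [map_sub, lam_C, sub_self], rfl⟩

theorem mem_ker_iff (c : ℤ) :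
    c ∈ RingHom.ker (Int.castRingHom (TT p ⧸ JJ p)) ↔ phi p (MvPolynomial.C c) ∈ JJ p := by
  rw [RingHom.mem_ker, eq_intCast, ← map_intCast (Ideal.Quotient.mk (JJ p)), ← phi_C,
    Ideal.Quotient.eq_zero_iff_mem]

theorem upper_mem (hp5 : 5 ≤ p) (hE : IsPair p 2 (Es p) (-(p : ℤ) • Us p (Es p))) :
    ((eisensteinNumerator p : ℕ) : ℤ) ∈ RingHom.ker (Int.castRingHom (TT p ⧸ JJ p)) := by
  obtain ⟨m0, hm0⟩ : ∃ m0 : ℤ, RingHom.ker (Int.castRingHom (TT p ⧸ JJ p)) = Ideal.span {m0} :=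
    (inferInstance : (RingHom.ker (Int.castRingHom (TT p ⧸ JJ p))).IsPrincipal).principal
  set m := m0.natAbs with hm
  have hspan : ∀ c : ℤ, c ∈ RingHom.ker (Int.castRingHom (TT p ⧸ JJ p)) ↔ (m : ℤ) ∣ c := by
    intro c
    rw [hm0, Ideal.mem_span_singleton, hm, Int.natAbs_dvd]
  rw [hspan]
  -- the character mod m
  set ψ0 : HeckeAlg →+* ZMod m := (Int.castRingHom (ZMod m)).comp (lam p) with hψ0
  have hker : RingHom.ker (phi p) ≤ RingHom.ker ψ0 := by
    intro s hs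
    rw [RingHom.mem_ker] at hs ⊢
    rw [hψ0, RingHom.comp_apply, eq_intCast, ZMod.intCast_zmod_eq_zero_iff_dvd, ← hspan,
      mem_ker_iff, mem_JJ_iff]
    refine ⟨MvPolynomial.C (lam p s) - s, ?_, ?_⟩
    · rw [map_sub, lam_C, sub_self]
    · rw [map_sub, hs, sub_zero]
  set ψ : TT p →+* ZMod m := RingHom.liftOfSurjective (phi p) phi_surjective ⟨ψ0, hker⟩ with hψ
  have hψs : ∀ s, ψ (phi p s) = ((lam p s : ℤ) : ZMod m) := by
    intro s
    rw [hψ, RingHom.liftOfRightInverse_comp_apply]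
    rfl
  obtain ⟨Ψ, hΨ⟩ := Module.projective_lifting_property
    (Int.castRingHom (ZMod m)).toIntAlgHom.toLinearMap ψ.toIntAlgHom.toLinearMap
    (ZMod.intCast_surjective)
  obtain ⟨f, hf⟩ := duality Ψ
  have hcong : ∀ k, k ≠ 0 → (m : ℤ) ∣ (sgp p k : ℤ) - (PowerSeries.mk (aZ f)).coeff k := by
    intro k hk
    obtain ⟨s, hs, hs'⟩ := exists_tk (p := p) k hk
    rw [PowerSeries.coeff_mk, ← hs f, hf, ← ZMod.intCast_zmod_eq_zero_iff_dvd, ← hs']
    have h1 := LinearMap.congr_fun hΨ (phi p s)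
    have h2 : ((Ψ (phi p s) : ℤ) : ZMod m) = ψ (phi p s) := h1
    rw [hψs] at h2
    push_cast
    rw [h2, sub_self]
  have h0 : (PowerSeries.mk (aZ f)).coeff 0 = 0 := by
    rw [PowerSeries.coeff_mk, aZ_zero]
  exact_mod_cast upper hp5 hE (isPair_of_lattice f) h0 hcong

theorem card_of_ker {n : ℕ} (h : RingHom.ker (Int.castRingHom (TT p ⧸ JJ p)) = Ideal.span {(n : ℤ)}) :
    Nat.card (TT p ⧸ JJ p) = n := by
  have e1 := RingHom.quotientKerEquivOfSurjective (castRingHom_surjective (p := p))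
  rw [← Nat.card_congr e1.toEquiv, h, Nat.card_congr (Int.quotientSpanNatEquivZMod n).toEquiv,
    Nat.card_zmod]

theorem index_eq (hp5 : 5 ≤ p) (hE : IsPair p 2 (Es p) (-(p : ℤ) • Us p (Es p)))
    {w : ℤ} (hw : IsCoprime ((eisensteinNumerator p : ℕ) : ℤ) w) {g : ↥(intLattice p 2)}
    (hg : ∀ k, k ≠ 0 → ((eisensteinNumerator p : ℕ) : ℤ) ∣ aZ g k - w * sgp p k) :
    Nat.card (TT p ⧸ JJ p) = eisensteinNumerator p := by
  apply card_of_ker
  apply le_antisymm
  · intro c hc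
    rw [Ideal.mem_span_singleton]
    rw [mem_ker_iff, mem_JJ_iff] at hc
    obtain ⟨s, hs, hs'⟩ := hc
    exact lower hw hg hs hs'
  · rw [Ideal.span_singleton_le_iff_mem]
    exact upper_mem hp5 hE

theorem index_of_trivial (h : ∀ f : ↥(intLattice p 2), f = 0) :
    Nat.card (TT p ⧸ JJ p) = 1 := by
  have h1 : Subsingleton (TT p) := by
    constructor
    intro a b
    apply Subtype.ext
    refine LinearMap.ext fun f => ?_
    rw [h ((a : Module.End ℤ ↥(intLattice p 2)) f), h ((b : Module.End ℤ ↥(intLattice p 2)) f)]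
  have h2 : Subsingleton (TT p ⧸ JJ p) :=
    (Ideal.Quotient.mk_surjective (I := JJ p)).subsingleton
  exact Nat.card_unique

end

end Fermat.Agent.Eis
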