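import Mathlib
import Fermat.Agent.Eis.Index
import Fermat.Agent.Gam0.Index
import Fermat.Prelude.Thm_ModularForm_sturm_bound_Gamma0

set_option autoImplicit false

noncomputable section

namespace Fermat.Agent.Eis

open UpperHalfPlane ModularForm CongruenceSubgroup Matrix.SpecialLinearGroup Filter
open scoped MatrixGroups Manifold Topology
open Fermat.Agent.IntStr ModularFormClass CuspForm ModularCurve

theorem index_Gamma0_prime {p : ℕ} (hp : p.Prime) : (Gamma0 p).index = p + 1 := by
  have h1 := Fermat.Agent.Gam0.index_Gamma0 p hp.pos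
  have h2 := Fermat.Agent.Gam0.dedekindPsi_mul_of_not_dvd (M := 1) one_pos hp
    (fun h => hp.one_lt.ne' (Nat.dvd_one.mp h))
  rw [one_mul, ModularCurve.dedekindPsi_one, mul_one] at h2
  rw [h1, h2]

theorem small_trivial {p : ℕ} [hp : Fact p.Prime] (h : p < 5) (f : ↥(intLattice p 2)) : f = 0 := by
  have hmf := isMF_cusp (f : CuspForm (Gamma0 p) 2)
  have h1 := ModularForm.sturm_bound_Gamma0 p hmf.toModularForm ?_
  · apply Subtype.ext
    apply DFunLike.coe_injective
    have := congrArg (fun F : ModularForm (Gamma0 p) 2 => (F : ℍ → ℂ)) h1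
    exact this
  · intro n hn
    rw [index_Gamma0_prime hp.out] at hn
    have h2 : n = 0 := by
      have : ((2 : ℤ) * ((p + 1 : ℕ) : ℤ)).toNat / 12 = 0 := by omega
      omega
    subst h2
    exact cusp_coeff_zero (f : CuspForm (Gamma0 p) 2)

theorem num_small {p : ℕ} [hp : Fact p.Prime] (h : p < 5) : eisensteinNumerator p = 1 := by
  have h2 := hp.out.two_le
  have h4 : p ≠ 4 := by
    rintro rfl
    exact absurd hp.out (by norm_num)
  have : p = 2 ∨ p = 3 := by omega
  rcases this with rfl | rfl
  · decide
  · decide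

theorem index_small {p : ℕ} [hp : Fact p.Prime] (h : p < 5) :
    Nat.card (TT p ⧸ JJ p) = eisensteinNumerator p := by
  rw [num_small h, index_of_trivial (small_trivial h)]

end Fermat.Agent.Eis
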