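import Mathlib
import Fermat.Agent.Eis.Gamma0p

set_option autoImplicit false

noncomputable section

namespace Fermat.Agent.Eis

open UpperHalfPlane hiding I
open ModularForm CongruenceSubgroup Matrix.SpecialLinearGroup Filter Complex
open scoped MatrixGroups Manifold Topology Real
open Fermat.Agent.IntStr

/-- theta function attached to a weight function and a residue map -/
def thetaFn {A ι : Type} [DecidableEq A] (r : ι → A) (w : ι → ℝ) (x : A) (z : ℍ) : ℂ :=
  ∑' n, if r n = x then cexp (2 * π * I * w n * z) else 0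

/-- A theta system: theta functions indexed by a finite quadratic module. -/
structure TS (A ι : Type) [AddCommGroup A] [Fintype A] [DecidableEq A] [AddCommGroup ι] where
  r : ι →+ A
  w : ι → ℝ
  Q : A → ℂ
  B : A → A → ℂ
  c : ℍ → ℂ
  w_nonneg : ∀ n, 0 ≤ w n
  w_neg : ∀ n, w (-n) = w n
  w_zero : w 0 = 0
  w_eq_zero : ∀ n, w n = 0 → n = 0
  hsum : ∀ y : ℝ, 0 < y → Summable fun n => Real.exp (-2 * π * w n * y)
  hQ : ∀ n, cexp (2 * π * I * w n) = Q (r n)
  Q_add : ∀ x y, Q (x + y) = Q x * Q y * B x y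
  Q_neg : ∀ x, Q (-x) = Q x
  Q_zero : Q 0 = 1
  B_add : ∀ x y z, B (x + y) z = B x z * B y z
  B_comm : ∀ x y, B x y = B y x
  S_law : ∀ x z, thetaFn r w x (ModularGroup.S • z) = c z * ∑ y, B x y * thetaFn r w y z

namespace TS

variable {A ι : Type} [AddCommGroup A] [Fintype A] [DecidableEq A] [AddCommGroup ι]
variable (T : TS A ι)

/-- the theta functions of a theta system -/
def theta (x : A) : ℍ → ℂ := thetaFn T.r T.w x

theorem norm_term_le (x : A) (z : ℂ) (n : ι) :
    ‖(if T.r n = x then cexp (2 * π * I * T.w n * z) else 0)‖ ≤ Real.exp (-2 * π * T.w n * z.im) := by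
  split_ifs with h
  · rw [Complex.norm_exp]
    apply Real.exp_le_exp.mpr
    apply le_of_eq
    have : (2 * π * I * T.w n * z : ℂ) = ((2 * π * T.w n : ℝ) : ℂ) * (I * z) := by
      push_cast; ring
    rw [this, Complex.re_ofReal_mul, Complex.I_mul_re]
    ring
  · rw [norm_zero]
    positivity

theorem summable_norm_term (x : A) {z : ℂ} (hz : 0 < z.im) :
    Summable fun n => ‖(if T.r n = x then cexp (2 * π * I * T.w n * z) else 0)‖ :=
  Summable.of_nonneg_of_le (fun _ => norm_nonneg _) (fun n => T.norm_term_le x z n)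
    (T.hsum z.im hz)

theorem summable_term (x : A) {z : ℂ} (hz : 0 < z.im) :
    Summable fun n => (if T.r n = x then cexp (2 * π * I * T.w n * z) else 0) :=
  (T.summable_norm_term x hz).of_norm

theorem hasSum_theta (x : A) (z : ℍ) :
    HasSum (fun n => if T.r n = x then cexp (2 * π * I * T.w n * z) else 0) (T.theta x z) :=
  (T.summable_term x z.im_pos).hasSum

theorem theta_T (x : A) (z : ℍ) : T.theta x ((1 : ℝ) +ᵥ z) = T.Q x * T.theta x z := by
  rw [theta, thetaFn, thetaFn, ← tsum_mul_left]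
  refine tsum_congr fun n => ?_
  split_ifs with h
  · rw [← h, ← T.hQ, ← Complex.exp_add, coe_vadd]
    congr 1
    push_cast
    ring
  · rw [mul_zero]

theorem theta_S (x : A) (z : ℍ) :
    T.theta x (ModularGroup.S • z) = T.c z * ∑ y, T.B x y * T.theta y z := T.S_law x z

theorem theta_bdd (x : A) : IsBoundedAtImInfty (T.theta x) := by
  rw [isBoundedAtImInfty_iff]
  refine ⟨∑' n, Real.exp (-2 * π * T.w n * 1), 1, fun z hz => ?_⟩
  have h1 := T.hsum 1 one_pos
  rw [theta, thetaFn]
  refine tsum_of_norm_bounded h1.hasSum fun n => ?_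
  refine (T.norm_term_le x z n).trans ?_
  apply Real.exp_le_exp.mpr
  have h2 := T.w_nonneg n
  have h3 : T.w n * 1 ≤ T.w n * (z : ℂ).im := mul_le_mul_of_nonneg_left hz h2
  have h4 := Real.pi_pos
  nlinarith

theorem theta_holo (x : A) : MDiff (T.theta x) := by
  rw [UpperHalfPlane.mdifferentiable_iff]
  have h1 : ∀ z : ℂ, 0 < z.im → DifferentiableAt ℂ
      (fun z : ℂ => ∑' n, if T.r n = x then cexp (2 * π * I * T.w n * z) else 0) z := by
    intro z hz
    set δ := z.im / 2 with hδ
    have hδ0 : 0 < δ := by positivity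
    have hopen : IsOpen {u : ℂ | δ < u.im} := isOpen_lt continuous_const Complex.continuous_im
    have h2 : DifferentiableOn ℂ
        (fun z : ℂ => ∑' n, if T.r n = x then cexp (2 * π * I * T.w n * z) else 0)
        {u : ℂ | δ < u.im} := by
      refine differentiableOn_tsum_of_summable_norm (T.hsum δ hδ0) (fun n => ?_) hopen
        (fun n u hu => ?_)
      · intro u _
        split_ifs with h
        · exact (((differentiableAt_id.const_mul _)).cexp).differentiableWithinAt
        · exact (differentiableAt_const _).differentiableWithinAt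
      · refine (T.norm_term_le x u n).trans ?_
        apply Real.exp_le_exp.mpr
        have h2 := T.w_nonneg n
        have hu' : δ < u.im := hu
        have h3 : T.w n * δ ≤ T.w n * u.im := mul_le_mul_of_nonneg_left hu'.le h2
        have h4 := Real.pi_pos
        nlinarith
    exact h2.differentiableAt (hopen.mem_nhds (show δ < z.im by rw [hδ]; linarith))
  intro z hz
  refine DifferentiableWithinAt.congr_of_eventuallyEq (h1 z hz).differentiableWithinAt ?_ ?_
  · filter_upwards [self_mem_nhdsWithin] with u hu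
    rw [Function.comp_apply, theta, thetaFn, ofComplex_apply_of_im_pos hu]
  · rw [Function.comp_apply, theta, thetaFn, ofComplex_apply_of_im_pos hz]

theorem B_add_right (x y z : A) : T.B x (y + z) = T.B x y * T.B x z := by
  rw [T.B_comm, T.B_add, T.B_comm y, T.B_comm z]

theorem Q_ne_zero (x : A) : T.Q x ≠ 0 := by
  intro h
  have h1 := T.Q_add x (-x)
  rw [add_neg_cancel, T.Q_zero, h] at h1
  simp at h1

theorem B_zero (x : A) : T.B 0 x = 1 := by
  have h1 := T.Q_add 0 x
  rw [zero_add, T.Q_zero, one_mul] at h1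
  have h2 := T.Q_ne_zero x
  have h3 : T.Q x * (T.B 0 x - 1) = 0 := by linear_combination -h1
  exact sub_eq_zero.mp ((mul_eq_zero.mp h3).resolve_left h2)

theorem B_ne_zero (x y : A) : T.B x y ≠ 0 := by
  intro h
  have h1 := T.B_add x (-x) y
  rw [add_neg_cancel, T.B_zero, h] at h1
  simp at h1

theorem B_neg (x y : A) : T.B (-x) y = (T.B x y)⁻¹ := by
  have h1 := T.B_add x (-x) y
  rw [add_neg_cancel, T.B_zero] at h1
  exact eq_inv_of_mul_eq_one_right h1.symm

theorem B_nsmul (n : ℕ) (x y : A) : T.B (n • x) y = T.B x y ^ n := by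
  induction n with
  | zero => simp [T.B_zero]
  | succ n ih => rw [succ_nsmul, T.B_add, ih, pow_succ]

theorem B_self (x : A) : T.B x x = T.Q x ^ 2 := by
  have h1 := T.Q_add x (-x)
  rw [add_neg_cancel, T.Q_zero, T.Q_neg, T.B_comm, T.B_neg] at h1
  have h2 := T.B_ne_zero x x
  field_simp at h1
  exact h1

theorem Q_nsmul (n : ℕ) (x : A) : T.Q (n • x) = T.Q x ^ (n ^ 2) := by
  induction n with
  | zero => simp [T.Q_zero]
  | succ n ih =>
    rw [succ_nsmul, T.Q_add, ih, T.B_nsmul, T.B_self, ← pow_succ, ← pow_mul, ← pow_add]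
    congr 1
    ring

end TS

/-! ### Products of theta systems -/

section

variable {A ι A' ι' : Type} [AddCommGroup A] [Fintype A] [DecidableEq A] [AddCommGroup ι]
  [AddCommGroup A'] [Fintype A'] [DecidableEq A'] [AddCommGroup ι']

theorem thetaFn_prod (T : TS A ι) (T' : TS A' ι') (x : A) (y : A') (z : ℍ) :
    thetaFn (fun n : ι × ι' => (T.r n.1, T'.r n.2)) (fun n => T.w n.1 + T'.w n.2) (x, y) z =
      thetaFn T.r T.w x z * thetaFn T'.r T'.w y z := by
  rw [thetaFn, thetaFn, thetaFn, tsum_mul_tsum_of_summable_norm (T.summable_norm_term x z.im_pos)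
    (T'.summable_norm_term y z.im_pos)]
  refine tsum_congr fun n => ?_
  by_cases h1 : T.r n.1 = x
  · by_cases h2 : T'.r n.2 = y
    · rw [if_pos (by rw [h1, h2]), if_pos h1, if_pos h2, ← Complex.exp_add]
      congr 1
      push_cast
      ring
    · rw [if_neg (fun h => h2 (Prod.ext_iff.mp h).2), if_neg h2, mul_zero]
  · rw [if_neg (fun h => h1 (Prod.ext_iff.mp h).1), if_neg h1, zero_mul]

/-- product of theta systems -/
def TS.prod (T : TS A ι) (T' : TS A' ι') : TS (A × A') (ι × ι') where
  r := T.r.prodMap T'.r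
  w n := T.w n.1 + T'.w n.2
  Q x := T.Q x.1 * T'.Q x.2
  B x y := T.B x.1 y.1 * T'.B x.2 y.2
  c z := T.c z * T'.c z
  w_nonneg n := add_nonneg (T.w_nonneg _) (T'.w_nonneg _)
  w_neg n := by rw [Prod.fst_neg, Prod.snd_neg, T.w_neg, T'.w_neg]
  w_zero := by rw [Prod.fst_zero, Prod.snd_zero, T.w_zero, T'.w_zero, add_zero]
  w_eq_zero n h := by
    have h1 := T.w_nonneg n.1
    have h2 := T'.w_nonneg n.2
    exact Prod.ext (T.w_eq_zero _ (by linarith)) (T'.w_eq_zero _ (by linarith))
  hsum y hy := by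
    have h1 := T.hsum y hy
    have h2 := T'.hsum y hy
    have h3 := h1.mul_of_nonneg h2 (fun _ => (Real.exp_pos _).le) (fun _ => (Real.exp_pos _).le)
    refine h3.congr fun n => ?_
    rw [← Real.exp_add]
    congr 1
    ring
  hQ n := by
    change _ = T.Q (T.r n.1) * T'.Q (T'.r n.2)
    rw [← T.hQ, ← T'.hQ, ← Complex.exp_add]
    congr 1
    push_cast
    ring
  Q_add x y := by
    rw [Prod.fst_add, Prod.snd_add, T.Q_add, T'.Q_add]
    ring
  Q_neg x := by rw [Prod.fst_neg, Prod.snd_neg, T.Q_neg, T'.Q_neg]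
  Q_zero := by rw [Prod.fst_zero, Prod.snd_zero, T.Q_zero, T'.Q_zero, mul_one]
  B_add x y z := by
    rw [Prod.fst_add, Prod.snd_add, T.B_add, T'.B_add]
    ring
  B_comm x y := by rw [T.B_comm, T'.B_comm]
  S_law x z := by
    have h1 := thetaFn_prod T T' x.1 x.2 (ModularGroup.S • z)
    have h2 : ∀ y : A × A', thetaFn (fun n : ι × ι' => (T.r n.1, T'.r n.2))
      (fun n => T.w n.1 + T'.w n.2) y z = thetaFn T.r T.w y.1 z * thetaFn T'.r T'.w y.2 z :=
      fun y => thetaFn_prod T T' y.1 y.2 z
    have h3 : ∀ (y : A × A') (u : ℍ), thetaFn (T.r.prodMap T'.r) (fun n => T.w n.1 + T'.w n.2) y u =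
      thetaFn (fun n : ι × ι' => (T.r n.1, T'.r n.2)) (fun n => T.w n.1 + T'.w n.2) y u :=
      fun y u => rfl
    rw [h3, h1, T.S_law, T'.S_law]
    simp only [h3, h2]
    rw [Fintype.sum_prod_type]
    rw [mul_mul_mul_comm, Finset.sum_mul_sum]
    congr 1
    refine Finset.sum_congr rfl fun y _ => Finset.sum_congr rfl fun y' _ => ?_
    ring

end

end Fermat.Agent.Eis
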