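import Mathlib
import Fermat.Agent.Eis.ThetaSys

set_option autoImplicit false

noncomputable section

namespace Fermat.Agent.Eis

open UpperHalfPlane hiding I
open ModularForm CongruenceSubgroup Matrix.SpecialLinearGroup Filter Complex
open scoped MatrixGroups Manifold Topology Real
open Fermat.Agent.IntStr

variable (m : ℕ) [hm : NeZero m]

instance instNeZeroTwoMul : NeZero (2 * m) := ⟨mul_ne_zero two_ne_zero hm.out⟩

/-- the quadratic function on `ℤ/2m` -/
def Q1 (a : ZMod (2 * m)) : ℂ := cexp (2 * π * I * (((a.val : ℝ) ^ 2 / (4 * m) : ℝ) : ℂ))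

theorem exp_int (n : ℤ) : cexp (2 * π * I * n) = 1 := by
  rw [mul_comm]
  exact Complex.exp_int_mul_two_pi_mul_I n

theorem exists_rep (n : ℤ) : ∃ k : ℤ, n = (((n : ZMod (2 * m)).val : ℕ) : ℤ) + 2 * m * k := by
  refine ⟨n / ((2 * m : ℕ) : ℤ), ?_⟩
  rw [ZMod.val_intCast]
  have := Int.emod_add_mul_ediv n ((2 * m : ℕ) : ℤ)
  push_cast at this ⊢
  linarith

theorem Q1_intCast (n : ℤ) :
    Q1 m (n : ZMod (2 * m)) = cexp (2 * π * I * (((n : ℝ) ^ 2 / (4 * m) : ℝ) : ℂ)) := by
  have hmc : (m : ℂ) ≠ 0 := by exact_mod_cast hm.out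
  obtain ⟨k, hk⟩ := exists_rep m n
  set v := (n : ZMod (2 * m)).val with hv
  have h1 : (n : ℂ) = (v : ℂ) + 2 * m * k := by exact_mod_cast hk
  rw [Q1, ← hv]
  have h2 : (2 * π * I * (((n : ℝ) ^ 2 / (4 * m) : ℝ) : ℂ) : ℂ) =
      2 * π * I * (((v : ℝ) ^ 2 / (4 * m) : ℝ) : ℂ) + 2 * π * I * ((v * k + m * k ^ 2 : ℤ) : ℂ) := by
    push_cast
    rw [h1]
    field_simp
    ring
  rw [h2, Complex.exp_add, exp_int, mul_one]

/-- the bilinear form on `ℤ/2m` -/
def B1 (a b : ZMod (2 * m)) : ℂ := ZMod.stdAddChar (a * b)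

theorem B1_intCast (n l : ℤ) :
    B1 m (n : ZMod (2 * m)) (l : ZMod (2 * m)) = cexp (2 * π * I * ((n * l : ℤ) : ℂ) / (2 * m)) := by
  rw [B1, ← Int.cast_mul, ZMod.stdAddChar_coe]
  push_cast
  rfl

theorem exp_eq_term (k : ℤ) (z τ : ℂ) :
    jacobiTheta₂_term k z τ = cexp (2 * π * I * k * z + π * I * k ^ 2 * τ) := rfl

/-- the weight `n²/(4m)` -/
def w1 (n : ℤ) : ℝ := (n : ℝ) ^ 2 / (4 * m)

theorem thetaFn_one (a : ZMod (2 * m)) (z : ℍ) :
    thetaFn (fun n : ℤ => (n : ZMod (2 * m))) (w1 m) a z =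
      cexp (2 * π * I * (((a.val : ℝ) ^ 2 / (4 * m) : ℝ) : ℂ) * z) *
        jacobiTheta₂ (a.val * z) (2 * m * z) := by
  have hmc : (m : ℂ) ≠ 0 := by exact_mod_cast hm.out
  rw [thetaFn]
  have hinj : Function.Injective (fun k : ℤ => (a.val : ℤ) + 2 * m * k) := by
    intro k l h
    simp only [add_right_inj] at h
    have : (2 * (m : ℤ)) ≠ 0 := mul_ne_zero two_ne_zero (by exact_mod_cast hm.out)
    exact mul_left_cancel₀ this h
  rw [← hinj.tsum_eq]
  · rw [jacobiTheta₂, ← tsum_mul_left]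
    refine tsum_congr fun k => ?_
    have h1 : (((a.val : ℤ) + 2 * m * k : ℤ) : ZMod (2 * m)) = a := by
      push_cast
      rw [ZMod.natCast_zmod_val]
      have : (2 * (m : ZMod (2 * m))) = 0 := by
        have := ZMod.natCast_self (2 * m)
        exact_mod_cast this
      rw [this]
      ring
    rw [if_pos h1, jacobiTheta₂_term, ← Complex.exp_add]
    congr 1
    rw [w1]
    push_cast
    field_simp
    ring
  · intro n hn
    rw [Function.mem_support, ne_eq, ite_eq_right_iff, not_forall] at hn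
    obtain ⟨h, -⟩ := hn
    obtain ⟨k, hk⟩ := exists_rep m n
    rw [h] at hk
    exact ⟨k, hk.symm⟩

theorem hsum_one (y : ℝ) (hy : 0 < y) : Summable fun n : ℤ => Real.exp (-2 * π * w1 m n * y) := by
  have hmr : (0 : ℝ) < m := by exact_mod_cast Nat.pos_of_ne_zero hm.out
  have h1 : 0 < ((I * (y / (2 * m) : ℝ) : ℂ)).im := by
    rw [Complex.I_mul_im, Complex.ofReal_re]
    positivity
  have h2 := ((summable_jacobiTheta₂_term_iff 0 _).mpr h1).norm
  refine h2.congr fun n => ?_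
  rw [jacobiTheta₂_term, Complex.norm_exp]
  congr 1
  have h3 : (2 * π * I * n * 0 + π * I * n ^ 2 * (I * ((y / (2 * m) : ℝ) : ℂ)) : ℂ) =
      ((-(π * n ^ 2 * (y / (2 * m))) : ℝ) : ℂ) := by
    push_cast
    linear_combination (π * n ^ 2 * (y / (2 * m)) : ℂ) * Complex.I_mul_I
  rw [h3, Complex.ofReal_re, w1]
  field_simp
  ring

theorem summable_w1 (a : ZMod (2 * m)) (z : ℍ) : Summable fun n : ℤ =>
    (if (n : ZMod (2 * m)) = a then cexp (2 * π * I * w1 m n * z) else 0) := by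
  refine Summable.of_norm_bounded (hsum_one m z.im z.im_pos) fun n => ?_
  split_ifs with h
  · rw [Complex.norm_exp]
    apply Real.exp_le_exp.mpr
    apply le_of_eq
    have : (2 * π * I * w1 m n * z : ℂ) = ((2 * π * w1 m n : ℝ) : ℂ) * (I * z) := by
      push_cast; ring
    rw [this, Complex.re_ofReal_mul, Complex.I_mul_re]
    rw [coe_im]
    ring
  · rw [norm_zero]
    positivity

theorem theta_dual (a : ZMod (2 * m)) (z : ℍ) :
    ∑ b, B1 m a b * thetaFn (fun n : ℤ => (n : ZMod (2 * m))) (w1 m) b z =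
      jacobiTheta₂ (a.val / (2 * m)) (z / (2 * m)) := by
  have hmc : (m : ℂ) ≠ 0 := by exact_mod_cast hm.out
  have h1 : HasSum (fun n : ℤ => ∑ b, B1 m a b *
      (if (n : ZMod (2 * m)) = b then cexp (2 * π * I * w1 m n * z) else 0))
      (∑ b, B1 m a b * thetaFn (fun n : ℤ => (n : ZMod (2 * m))) (w1 m) b z) := by
    apply hasSum_sum
    intro b _
    exact (summable_w1 m b z).hasSum.mul_left _
  rw [← h1.tsum_eq, jacobiTheta₂]
  refine tsum_congr fun n => ?_
  rw [Finset.sum_eq_single (n : ZMod (2 * m))]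
  · rw [if_pos rfl]
    have h2 : a = ((a.val : ℤ) : ZMod (2 * m)) := by
      rw [Int.cast_natCast, ZMod.natCast_zmod_val]
    conv_lhs => rw [h2]
    rw [B1_intCast, jacobiTheta₂_term, ← Complex.exp_add, w1]
    congr 1
    push_cast
    field_simp
    ring
  · intro b _ hb
    rw [if_neg (Ne.symm hb), mul_zero]
  · intro h
    exact absurd (Finset.mem_univ _) h

/-- the automorphy factor `(-iz/2m)^{1/2}` -/
def c1 (z : ℍ) : ℂ := (-I * (z / (2 * m))) ^ (1 / 2 : ℂ)

theorem S_law_one (a : ZMod (2 * m)) (z : ℍ) :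
    thetaFn (fun n : ℤ => (n : ZMod (2 * m))) (w1 m) a (ModularGroup.S • z) =
      c1 m z * ∑ b, B1 m a b * thetaFn (fun n : ℤ => (n : ZMod (2 * m))) (w1 m) b z := by
  have hmc : (m : ℂ) ≠ 0 := by exact_mod_cast hm.out
  have hz : (z : ℂ) ≠ 0 := ne_zero z
  rw [theta_dual, thetaFn_one, ← jacobiTheta₂_neg_left (a.val / (2 * m)),
    jacobiTheta₂_functional_equation (-(a.val / (2 * m))) (z / (2 * m)), coe_S_smul]
  have hc : (-I * ((z : ℂ) / (2 * m))) ^ (1 / 2 : ℂ) ≠ 0 := by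
    rw [Ne, Complex.cpow_eq_zero_iff]
    push Not
    intro h
    exfalso
    have h2 : (z : ℂ) / (2 * m) ≠ 0 := div_ne_zero hz (mul_ne_zero two_ne_zero hmc)
    rcases mul_eq_zero.mp h with h | h
    · exact neg_ne_zero.mpr Complex.I_ne_zero h
    · exact h2 h
  rw [c1, ← mul_assoc, ← mul_assoc, mul_one_div_cancel hc, one_mul]
  congr 1
  · congr 1
    push_cast
    field_simp
    ring
  · congr 1
    · field_simp
    · field_simp

/-- the one-dimensional theta system -/
def TS1 : TS (ZMod (2 * m)) ℤ where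
  r := (Int.castRingHom (ZMod (2 * m))).toAddMonoidHom
  w := w1 m
  Q := Q1 m
  B := B1 m
  c := c1 m
  w_nonneg n := by rw [w1]; positivity
  w_neg n := by rw [w1, w1]; push_cast; ring
  w_zero := by rw [w1]; simp
  w_eq_zero n h := by
    rw [w1] at h
    have hmr : (m : ℝ) ≠ 0 := by exact_mod_cast hm.out
    have h2 : (n : ℝ) ^ 2 = 0 := by
      rcases div_eq_zero_iff.mp h with h | h
      · exact h
      · exact absurd h (mul_ne_zero (by norm_num) hmr)
    exact_mod_cast pow_eq_zero_iff (two_ne_zero) |>.mp h2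
  hsum := hsum_one m
  hQ n := by
    change _ = Q1 m (n : ZMod (2 * m))
    rw [Q1_intCast, w1]
  Q_add x y := by
    obtain ⟨a, rfl⟩ := ZMod.intCast_surjective x
    obtain ⟨b, rfl⟩ := ZMod.intCast_surjective y
    rw [← Int.cast_add, Q1_intCast, Q1_intCast, Q1_intCast, B1_intCast, ← Complex.exp_add,
      ← Complex.exp_add]
    congr 1
    have hmc : (m : ℂ) ≠ 0 := by exact_mod_cast hm.out
    push_cast
    field_simp
    ring
  Q_neg x := by
    obtain ⟨a, rfl⟩ := ZMod.intCast_surjective x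
    rw [← Int.cast_neg, Q1_intCast, Q1_intCast]
    congr 1
    push_cast
    ring
  Q_zero := by
    have := Q1_intCast m 0
    rw [Int.cast_zero] at this
    rw [this]
    simp
  B_add x y z := by
    rw [B1, B1, B1, add_mul, AddChar.map_add_eq_mul]
  B_comm x y := by
    rw [B1, B1, mul_comm x y]
  S_law := S_law_one m

end Fermat.Agent.Eis
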