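import Mathlib
import Fermat.Agent.Eis.Theta1

set_option autoImplicit false

noncomputable section

namespace Fermat.Agent.Eis

open UpperHalfPlane hiding I
open ModularForm CongruenceSubgroup Matrix.SpecialLinearGroup Filter Complex
open scoped MatrixGroups Manifold Topology Real
open Fermat.Agent.IntStr

section

variable {A ι : Type} [AddCommGroup A] [Fintype A] [DecidableEq A] [AddCommGroup ι]

open scoped Classical in
/-- gluing data -/
structure Glue (T : TS A ι) (p : ℕ) (B0 B1 : AddSubgroup A) : Prop where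
  perp : ∀ y, y ∈ B1 ↔ ∀ x ∈ B0, T.B x y = 1
  iso : ∀ x ∈ B0, T.Q x = 1
  Qp : ∀ y ∈ B1, T.Q y ^ p = 1
  gauss : ∀ j : ℤ, ¬ (p : ℤ) ∣ j →
    ∑ y : ↥B1, T.Q (y : A) ^ j = ∑ y : ↥B1, T.Q (y : A)

theorem slash_sum {κ : Type*} (s : Finset κ) (F : κ → ℍ → ℂ) (k : ℤ) (γ : SL(2, ℤ)) :
    (∑ i ∈ s, F i) ∣[k] γ = ∑ i ∈ s, F i ∣[k] γ := by rw [SlashAction.sum_slash]

theorem TS.theta_slash_T (T : TS A ι) (k : ℤ) (x : A) :
    T.theta x ∣[k] ModularGroup.T = T.Q x • T.theta x := by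
  funext z
  have h := slash_T_zpow_apply (T.theta x) k 1 z
  rw [zpow_one] at h
  rw [h, Int.cast_one, T.theta_T, Pi.smul_apply, smul_eq_mul]

theorem TS.theta_slash_T_zpow (T : TS A ι) (k : ℤ) (x : A) (i : ℤ) :
    T.theta x ∣[k] (ModularGroup.T ^ i) = T.Q x ^ i • T.theta x := by
  have hQ := T.Q_ne_zero x
  have hinv : T.theta x ∣[k] (ModularGroup.T⁻¹) = (T.Q x)⁻¹ • T.theta x := by
    have h1 := congrArg (fun f : ℍ → ℂ => f ∣[k] (ModularGroup.T⁻¹)) (T.theta_slash_T k x)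
    simp only [SL_smul_slash] at h1
    rw [← SlashAction.slash_mul, mul_inv_cancel, SlashAction.slash_one] at h1
    conv_rhs => rw [h1]
    rw [smul_smul, inv_mul_cancel₀ hQ, one_smul]
  induction i with
  | zero => simp
  | succ i ih =>
    rw [_root_.zpow_add, zpow_one, SlashAction.slash_mul, ih, SL_smul_slash, T.theta_slash_T,
      smul_smul, zpow_add_one₀ hQ]
  | pred i ih =>
    rw [_root_.zpow_sub, zpow_one, SlashAction.slash_mul, ih, SL_smul_slash, hinv,
      smul_smul, zpow_sub_one₀ hQ]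

variable {T : TS A ι} {p : ℕ} {B0 B1 : AddSubgroup A}

theorem Glue.le (hG : Glue T p B0 B1) : B0 ≤ B1 := by
  intro x hx
  rw [hG.perp]
  intro y hy
  have h := T.Q_add y x
  rw [hG.iso _ (B0.add_mem hy hx), hG.iso _ hy, hG.iso _ hx] at h
  simpa using h.symm

open scoped Classical in
theorem Glue.sum_B0 (hG : Glue T p B0 B1) (y : A) :
    ∑ x : ↥B0, T.B (x : A) y = if y ∈ B1 then (Fintype.card ↥B0 : ℂ) else 0 := by
  split_ifs with h
  · rw [Finset.sum_congr rfl fun (x : ↥B0) _ => (hG.perp y).mp h x x.2]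
    simp
  · rw [hG.perp] at h
    push Not at h
    obtain ⟨b, hb, hb'⟩ := h
    set S := ∑ x : ↥B0, T.B (x : A) y with hS
    have h1 : S = T.B b y * S := by
      conv_lhs => rw [hS, ← Equiv.sum_comp (Equiv.addRight (⟨b, hb⟩ : ↥B0))]
      rw [hS, Finset.mul_sum]
      refine Finset.sum_congr rfl fun x _ => ?_
      change T.B ((x : A) + b) y = _
      rw [T.B_add, mul_comm]
    have h2 : (1 - T.B b y) * S = 0 := by linear_combination h1
    rcases mul_eq_zero.mp h2 with h3 | h3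
    · exact absurd (sub_eq_zero.mp h3).symm hb'
    · exact h3

open scoped Classical in
/-- the glued theta function -/
def glued (T : TS A ι) (B0 : AddSubgroup A) : ℍ → ℂ := ∑ x : ↥B0, T.theta (x : A)

open scoped Classical in
/-- twisted sums -/
def FF (T : TS A ι) (B1 : AddSubgroup A) (j : ℤ) : ℍ → ℂ :=
  ∑ y : ↥B1, (T.Q (y : A) ^ j) • T.theta (y : A)

theorem FF_slash_T_zpow (i j : ℤ) (k : ℤ) :
    FF T B1 j ∣[k] (ModularGroup.T ^ i) = FF T B1 (j + i) := by
  rw [FF, slash_sum, FF]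
  refine Finset.sum_congr rfl fun y _ => ?_
  rw [SL_smul_slash, T.theta_slash_T_zpow, smul_smul, zpow_add₀ (T.Q_ne_zero _)]

theorem Glue.glued_T (hG : Glue T p B0 B1) (k : ℤ) :
    glued T B0 ∣[k] ModularGroup.T = glued T B0 := by
  rw [glued, slash_sum]
  refine Finset.sum_congr rfl fun y _ => ?_
  rw [T.theta_slash_T, hG.iso _ y.2, one_smul]

open scoped Classical in
theorem Glue.glued_S (hG : Glue T p B0 B1) {k : ℤ} {c0 : ℂ}
    (hS : ∀ x, T.theta x ∣[k] ModularGroup.S = c0 • ∑ y, T.B x y • T.theta y) :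
    glued T B0 ∣[k] ModularGroup.S = (c0 * Fintype.card ↥B0) • FF T B1 0 := by
  rw [glued, slash_sum, FF]
  simp only [hS, zpow_zero, one_smul]
  rw [← Finset.smul_sum, Finset.sum_comm, mul_smul]
  congr 1
  have h1 : ∀ y : A, ∑ x : ↥B0, T.B (x : A) y • T.theta y =
      if y ∈ B1 then (Fintype.card ↥B0 : ℂ) • T.theta y else 0 := by
    intro y
    rw [← Finset.sum_smul, hG.sum_B0]
    split_ifs <;> simp
  simp only [h1]
  rw [Finset.smul_sum, ← Finset.sum_filter]
  exact Finset.sum_subtype _ (by simp) _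

theorem Glue.Bp (hG : Glue T p B0 B1) {y z : A} (hy : y ∈ B1) (hz : z ∈ B1) :
    T.B y z ^ p = 1 := by
  have h := T.Q_add y z
  have h1 := congrArg (fun x : ℂ => x ^ p) h
  simp only [mul_pow] at h1
  rw [hG.Qp _ (B1.add_mem hy hz), hG.Qp _ hy, hG.Qp _ hz] at h1
  simpa using h1.symm

theorem zpow_congr_mod {x : ℂ} (hx : x ^ p = 1) (hx0 : x ≠ 0) {i j : ℤ} (h : (p : ℤ) ∣ i - j) :
    x ^ i = x ^ j := by
  obtain ⟨m, hm⟩ := h
  have h1 : i = j + p * m := by linarith
  rw [h1, zpow_add₀ hx0, _root_.zpow_mul, zpow_natCast, hx, _root_.one_zpow, mul_one]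

open scoped Classical in
theorem Glue.FF_S (hG : Glue T p B0 B1) {k : ℤ} {c0 : ℂ}
    (hS : ∀ x, T.theta x ∣[k] ModularGroup.S = c0 • ∑ y, T.B x y • T.theta y)
    (hp : p.Prime) {j j' : ℤ} (hj : (p : ℤ) ∣ j * j' + 1) :
    FF T B1 j ∣[k] ModularGroup.S = (c0 * ∑ y : ↥B1, T.Q (y : A)) • FF T B1 j' := by
  have hjp : ¬ (p : ℤ) ∣ j := by
    intro h
    have h1 : (p : ℤ) ∣ 1 := (Int.dvd_add_right (h.mul_right j')).mp hj
    have := Int.le_of_dvd one_pos h1
    have := hp.two_le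
    omega
  -- inner sums
  have key : ∀ z : A, ∑ y : ↥B1, T.Q (y : A) ^ j * T.B (y : A) z =
      if z ∈ B1 then T.Q z ^ j' * ∑ y : ↥B1, T.Q (y : A) else 0 := by
    intro z
    split_ifs with hz
    · -- complete the square
      obtain ⟨i, hi⟩ : ∃ i : ℕ, (p : ℤ) ∣ (i : ℤ) + j' := by
        refine ⟨(-j' % p).toNat, ?_⟩
        have h1 : 0 ≤ -j' % (p : ℤ) := Int.emod_nonneg _ (by exact_mod_cast hp.ne_zero)
        rw [Int.toNat_of_nonneg h1]
        have h2 := Int.emod_add_mul_ediv (-j') (p : ℤ)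
        exact ⟨-(-j' / p), by linarith⟩
      have hij : (p : ℤ) ∣ (i : ℤ) * j - 1 := by
        obtain ⟨a, ha⟩ := hi
        obtain ⟨b, hb⟩ := hj
        exact ⟨a * j - b, by linear_combination j * ha - hb⟩
      rw [← hG.gauss j hjp, Finset.mul_sum,
        ← Equiv.sum_comp (Equiv.addRight (⟨i • z, B1.nsmul_mem hz i⟩ : ↥B1))
          (fun y : ↥B1 => T.Q z ^ j' * T.Q (y : A) ^ j)]
      refine Finset.sum_congr rfl fun y _ => ?_
      change _ = T.Q z ^ j' * T.Q ((y : A) + i • z) ^ j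
      have hBy : T.B (y : A) (i • z) = T.B (y : A) z ^ i := by
        rw [T.B_comm, T.B_nsmul, T.B_comm]
      rw [T.Q_add, T.Q_nsmul, hBy, mul_zpow, mul_zpow]
      have e1 : (T.B (y : A) z ^ i) ^ j = T.B (y : A) z := by
        rw [← zpow_natCast, ← _root_.zpow_mul]
        conv_rhs => rw [← zpow_one (T.B (y : A) z)]
        exact zpow_congr_mod (hG.Bp y.2 hz) (T.B_ne_zero _ _) hij
      have e2 : T.Q z ^ j' * (T.Q z ^ i ^ 2) ^ j = 1 := by
        rw [← zpow_natCast, ← _root_.zpow_mul, ← zpow_add₀ (T.Q_ne_zero z), ← zpow_zero (T.Q z)]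
        apply zpow_congr_mod (hG.Qp z hz) (T.Q_ne_zero _)
        obtain ⟨a, ha⟩ := hi
        obtain ⟨b, hb⟩ := hij
        refine ⟨a + i * b, ?_⟩
        push_cast
        linear_combination ha + (i : ℤ) * hb
      rw [e1]
      linear_combination (-(T.Q (y : A) ^ j * T.B (y : A) z)) * e2
    · have hz' := hz
      rw [hG.perp] at hz'
      push Not at hz'
      obtain ⟨b, hb, hb'⟩ := hz'
      set S := ∑ y : ↥B1, T.Q (y : A) ^ j * T.B (y : A) z with hS
      have h1 : S = T.B b z * S := by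
        conv_lhs => rw [hS, ← Equiv.sum_comp (Equiv.addRight (⟨b, hG.le hb⟩ : ↥B1))]
        rw [hS, Finset.mul_sum]
        refine Finset.sum_congr rfl fun y _ => ?_
        change T.Q ((y : A) + b) ^ j * T.B ((y : A) + b) z = _
        rw [T.Q_add, hG.iso b hb, T.B_comm (y : A) b, (hG.perp _).mp y.2 b hb, mul_one, mul_one,
          T.B_add]
        ring
      have h2 : (1 - T.B b z) * S = 0 := by linear_combination h1
      rcases mul_eq_zero.mp h2 with h3 | h3
      · exact absurd (sub_eq_zero.mp h3).symm hb'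
      · exact h3
  rw [FF, slash_sum]
  simp only [SL_smul_slash, hS]
  have h1 : ∀ y : ↥B1, T.Q (y : A) ^ j • c0 • ∑ z, T.B (y : A) z • T.theta z =
      ∑ z, (c0 * (T.Q (y : A) ^ j * T.B (y : A) z)) • T.theta z := by
    intro y
    rw [smul_smul, Finset.smul_sum]
    refine Finset.sum_congr rfl fun z _ => ?_
    rw [smul_smul]
    congr 1
    ring
  simp only [h1]
  rw [Finset.sum_comm]
  have h2 : ∀ z : A, ∑ y : ↥B1, (c0 * (T.Q (y : A) ^ j * T.B (y : A) z)) • T.theta z =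
      if z ∈ B1 then ((c0 * ∑ y : ↥B1, T.Q (y : A)) * T.Q z ^ j') • T.theta z else 0 := by
    intro z
    rw [← Finset.sum_smul, ← Finset.mul_sum, key]
    split_ifs
    · congr 1
      ring
    · simp
  simp only [h2]
  rw [← Finset.sum_filter, FF, Finset.smul_sum]
  simp only [smul_smul]
  exact Finset.sum_subtype _ (by simp) _

open scoped Classical in
/-- The glued theta function is `Γ₀(p)`-invariant. -/
theorem Glue.invariant [hp : Fact p.Prime] (hG : Glue T p B0 B1) {c0 : ℂ}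
    (hS : ∀ x, T.theta x ∣[(2 : ℤ)] ModularGroup.S = c0 • ∑ y, T.B x y • T.theta y)
    (γ : SL(2, ℤ)) (hγ : γ ∈ Gamma0 p) : glued T B0 ∣[(2 : ℤ)] γ = glued T B0 := by
  set h := glued T B0 with hh
  by_cases h0 : h = 0
  · rw [h0, SlashAction.zero_slash]
  have hT := hG.glued_T 2
  rw [← hh] at hT
  set C : ℂ := c0 * Fintype.card ↥B0 with hC
  have hS0 : h ∣[(2 : ℤ)] ModularGroup.S = C • FF T B1 0 := hG.glued_S hS
  have hST : ∀ j : ℤ, (h ∣[(2 : ℤ)] ModularGroup.S) ∣[(2 : ℤ)] (ModularGroup.T ^ j) =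
      C • FF T B1 j := by
    intro j
    rw [hS0, SL_smul_slash, FF_slash_T_zpow, zero_add]
  have hneg : ∀ f : ℍ → ℂ, f ∣[(2 : ℤ)] (-1 : SL(2, ℤ)) = f := by
    intro f
    funext z
    have h1 : (-1 : SL(2, ℤ)) • z = z := by
      have := ModularGroup.SL_neg_smul 1 z
      rwa [one_smul] at this
    rw [SL_slash_apply, h1, ModularGroup.denom_apply]
    simp
  set μ : ℂ := c0 * ∑ y : ↥B1, T.Q (y : A) with hμ
  have hFS : ∀ j j' : ℤ, (p : ℤ) ∣ j * j' + 1 →
      FF T B1 j ∣[(2 : ℤ)] ModularGroup.S = μ • FF T B1 j' := fun j j' hj =>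
    hG.FF_S hS hp.out hj
  -- μ = 1
  have hμ1 : μ = 1 := by
    have h1 : ((h ∣[(2 : ℤ)] ModularGroup.S) ∣[(2 : ℤ)] (ModularGroup.T ^ (1 : ℤ))) ∣[(2 : ℤ)]
        ModularGroup.S = μ • ((h ∣[(2 : ℤ)] ModularGroup.S) ∣[(2 : ℤ)] (ModularGroup.T ^ (-1 : ℤ))) := by
      rw [hST, hST, SL_smul_slash, hFS 1 (-1) (by simp), smul_comm]
    have h2 : ((h ∣[(2 : ℤ)] ModularGroup.S) ∣[(2 : ℤ)] (ModularGroup.T ^ (1 : ℤ))) ∣[(2 : ℤ)]
        ModularGroup.S = (h ∣[(2 : ℤ)] ModularGroup.S) ∣[(2 : ℤ)] (ModularGroup.T ^ (-1 : ℤ)) := by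
      have h3 : ModularGroup.T * (ModularGroup.S * ModularGroup.T ^ (1 : ℤ) * ModularGroup.S) =
          ModularGroup.S * ModularGroup.T ^ (-1 : ℤ) := by
        ext i j
        simp only [Matrix.SpecialLinearGroup.coe_mul, ModularGroup.coe_S, ModularGroup.coe_T,
          ModularGroup.coe_T_zpow]
        fin_cases i <;> fin_cases j <;> simp [Matrix.mul_apply, Fin.sum_univ_two]
      rw [← SlashAction.slash_mul, ← SlashAction.slash_mul, ← SlashAction.slash_mul, ← h3]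
      conv_rhs => rw [SlashAction.slash_mul, hT]
      rw [mul_assoc]
    rw [h2] at h1
    have h4 : (1 - μ) • ((h ∣[(2 : ℤ)] ModularGroup.S) ∣[(2 : ℤ)] (ModularGroup.T ^ (-1 : ℤ))) = 0 := by
      rw [sub_smul, one_smul, ← h1, sub_self]
    rcases smul_eq_zero.mp h4 with h5 | h5
    · exact (sub_eq_zero.mp h5).symm
    · exfalso
      apply h0
      rw [← SlashAction.slash_mul] at h5
      have h6 := congrArg (fun f : ℍ → ℂ => f ∣[(2 : ℤ)]
        (ModularGroup.S * ModularGroup.T ^ (-1 : ℤ))⁻¹) h5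
      simp only [← SlashAction.slash_mul, mul_inv_cancel, SlashAction.slash_one,
        SlashAction.zero_slash] at h6
      exact h6
  apply invariant_of_orbit (hneg h) hT ?_ ?_ γ hγ
  · rw [hST, hS0]
    congr 1
    rw [FF, FF]
    refine Finset.sum_congr rfl fun y _ => ?_
    rw [zpow_natCast, hG.Qp _ y.2, zpow_zero]
  · intro j j' hj
    rw [hST, hST, SL_smul_slash, hFS j j' hj, hμ1, one_smul]

end

end Fermat.Agent.Eis
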