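import Mathlib
import Fermat.Agent.Eis.ThetaGlue

set_option autoImplicit false

noncomputable section

namespace Fermat.Agent.Eis

open UpperHalfPlane hiding I
open ModularForm CongruenceSubgroup Matrix.SpecialLinearGroup Filter Complex
open scoped MatrixGroups Manifold Topology Real
open Fermat.Agent.IntStr

/-! ### Exponentials -/

theorem exp_div_eq_one_iff {N : ℕ} (hN : N ≠ 0) (a : ℤ) :
    cexp (2 * π * I * (((a : ℝ) / (N : ℝ) : ℝ) : ℂ)) = 1 ↔ (N : ℤ) ∣ a := by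
  have hNc : (N : ℂ) ≠ 0 := by exact_mod_cast hN
  have hpi : (2 * π * I : ℂ) ≠ 0 := Complex.two_pi_I_ne_zero
  rw [Complex.exp_eq_one_iff]
  constructor
  · rintro ⟨n, hn⟩
    refine ⟨n, ?_⟩
    have h1 : (2 * π * I : ℂ) * ((((a : ℝ) / (N : ℝ) : ℝ) : ℂ) - n) = 0 := by
      linear_combination hn
    have h2 := sub_eq_zero.mp ((mul_eq_zero.mp h1).resolve_left hpi)
    push_cast at h2
    rw [div_eq_iff hNc] at h2
    have h3 : (a : ℂ) = ((N * n : ℤ) : ℂ) := by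
      rw [h2]
      push_cast
      ring
    exact_mod_cast h3
  · rintro ⟨n, rfl⟩
    refine ⟨n, ?_⟩
    push_cast
    field_simp

/-- the weight-two automorphy constant -/
theorem c1_eq (m : ℕ) [hm : NeZero m] (z : ℍ) :
    c1 m z = ((((1 / (2 * m) : ℝ)) : ℂ) ^ (1 / 2 : ℂ)) * (-I * z) ^ (1 / 2 : ℂ) := by
  have hmr : (0 : ℝ) < m := by exact_mod_cast Nat.pos_of_ne_zero hm.out
  have hz : (z : ℂ) ≠ 0 := ne_zero z
  have h1 : (-I * (z / (2 * m)) : ℂ) = (((1 / (2 * m) : ℝ)) : ℂ) * (-I * z) := by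
    push_cast
    ring
  have hx : (-I * z : ℂ) ≠ 0 := mul_ne_zero (neg_ne_zero.mpr Complex.I_ne_zero) hz
  have hr : (0 : ℝ) < 1 / (2 * m) := by positivity
  have hrc : (((1 / (2 * m) : ℝ)) : ℂ) ≠ 0 := by exact_mod_cast hr.ne'
  rw [c1, h1, Complex.cpow_def_of_ne_zero (mul_ne_zero hrc hx), Complex.log_ofReal_mul hr hx,
    add_mul, Complex.exp_add, Complex.cpow_def_of_ne_zero hrc, Complex.cpow_def_of_ne_zero hx,
    Complex.ofReal_log hr.le]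

theorem half_pow_four (z : ℍ) : ((-I * z : ℂ) ^ (1 / 2 : ℂ)) ^ 4 = -(z : ℂ) ^ 2 := by
  have h1 : ((-I * z : ℂ) ^ (1 / 2 : ℂ)) ^ 2 = -I * z := by
    rw [← Complex.cpow_nat_mul]
    norm_num
  rw [show (4 : ℕ) = 2 * 2 by rfl, pow_mul, h1]
  linear_combination (z : ℂ) ^ 2 * Complex.I_sq

section

variable (p D : ℕ) [hp : Fact p.Prime] [hD : Fact D.Prime]

instance instNeZeroPD : NeZero (p * D) := ⟨mul_ne_zero hp.out.ne_zero hD.out.ne_zero⟩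

/-- the index group -/
abbrev AA : Type := (ZMod (2 * 1) × ZMod (2 * D)) × (ZMod (2 * p) × ZMod (2 * (p * D)))

/-- the lattice -/
abbrev II : Type := (ℤ × ℤ) × (ℤ × ℤ)

/-- the four-dimensional theta system -/
def TT4 : TS (AA p D) II := ((TS1 1).prod (TS1 D)).prod ((TS1 p).prod (TS1 (p * D)))

/-- constant of the `S`-transformation -/
def c0 : ℂ := -((((1 / (2 * (1 : ℕ)) : ℝ)) : ℂ) ^ (1 / 2 : ℂ) * (((1 / (2 * D) : ℝ)) : ℂ) ^ (1 / 2 : ℂ) *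
  ((((1 / (2 * p) : ℝ)) : ℂ) ^ (1 / 2 : ℂ) * (((1 / (2 * (p * D : ℕ)) : ℝ)) : ℂ) ^ (1 / 2 : ℂ)))

theorem TT4_c (z : ℍ) : (TT4 p D).c z = c0 p D * (z : ℂ) ^ 2 := by
  change (c1 1 z * c1 D z) * (c1 p z * c1 (p * D) z) = _
  rw [c1_eq, c1_eq, c1_eq, c1_eq, c0]
  linear_combination ((((1 / (2 * (1 : ℕ)) : ℝ)) : ℂ) ^ (1 / 2 : ℂ) *
    (((1 / (2 * D) : ℝ)) : ℂ) ^ (1 / 2 : ℂ) * ((((1 / (2 * p) : ℝ)) : ℂ) ^ (1 / 2 : ℂ) *
    (((1 / (2 * (p * D : ℕ)) : ℝ)) : ℂ) ^ (1 / 2 : ℂ))) * half_pow_four z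

theorem TT4_S (x : AA p D) : (TT4 p D).theta x ∣[(2 : ℤ)] ModularGroup.S =
    c0 p D • ∑ y, (TT4 p D).B x y • (TT4 p D).theta y := by
  funext z
  have hz : (z : ℂ) ≠ 0 := ne_zero z
  rw [slash_S_apply, (TT4 p D).theta_S, TT4_c, Pi.smul_apply, Finset.sum_apply, smul_eq_mul,
    ← mul_assoc, ← mul_assoc]
  have h1 : (z : ℂ) ^ (-(2 : ℤ)) * c0 p D * (z : ℂ) ^ 2 = c0 p D := by
    rw [_root_.zpow_neg]
    norm_cast
    field_simp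
  rw [h1]
  rfl

/-- the numerator of the quadratic form -/
def NN (n : II) : ℤ := p * D * n.1.1 ^ 2 + p * n.1.2 ^ 2 + D * n.2.1 ^ 2 + n.2.2 ^ 2

/-- the numerator of the bilinear form -/
def BB (n l : II) : ℤ :=
  p * D * (n.1.1 * l.1.1) + p * (n.1.2 * l.1.2) + D * (n.2.1 * l.2.1) + n.2.2 * l.2.2

theorem TT4_w (n : II) : (TT4 p D).w n = ((NN p D n : ℤ) : ℝ) / ((4 * (p * D) : ℕ) : ℝ) := by
  have hpr : (p : ℝ) ≠ 0 := by exact_mod_cast hp.out.ne_zero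
  have hDr : (D : ℝ) ≠ 0 := by exact_mod_cast hD.out.ne_zero
  change (w1 1 n.1.1 + w1 D n.1.2) + (w1 p n.2.1 + w1 (p * D) n.2.2) = _
  rw [w1, w1, w1, w1, NN]
  push_cast
  field_simp
  ring

theorem TT4_Q (n : II) : (TT4 p D).Q ((TT4 p D).r n) =
    cexp (2 * π * I * ((((NN p D n : ℤ) : ℝ) / ((4 * (p * D) : ℕ) : ℝ) : ℝ) : ℂ)) := by
  rw [← (TT4 p D).hQ, TT4_w]

theorem TT4_B (n l : II) : (TT4 p D).B ((TT4 p D).r n) ((TT4 p D).r l) =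
    cexp (2 * π * I * ((((BB p D n l : ℤ) : ℝ) / ((2 * (p * D) : ℕ) : ℝ) : ℝ) : ℂ)) := by
  have hpr : (p : ℂ) ≠ 0 := by exact_mod_cast hp.out.ne_zero
  have hDr : (D : ℂ) ≠ 0 := by exact_mod_cast hD.out.ne_zero
  change (B1 1 (n.1.1 : ZMod (2 * 1)) (l.1.1 : ZMod (2 * 1)) *
    B1 D (n.1.2 : ZMod (2 * D)) (l.1.2 : ZMod (2 * D))) *
    (B1 p (n.2.1 : ZMod (2 * p)) (l.2.1 : ZMod (2 * p)) *
    B1 (p * D) (n.2.2 : ZMod (2 * (p * D))) (l.2.2 : ZMod (2 * (p * D)))) = _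
  rw [B1_intCast, B1_intCast, B1_intCast, B1_intCast, ← Complex.exp_add, ← Complex.exp_add,
    ← Complex.exp_add]
  congr 1
  rw [BB]
  push_cast
  field_simp
  ring

/-- the dual lattice -/
def Lam1 (lam : ℤ) : AddSubgroup II where
  carrier := {n | (2 : ℤ) ∣ n.1.1 - n.1.2 ∧ (2 : ℤ) ∣ n.2.1 - n.2.2 ∧
    (D : ℤ) ∣ n.2.2 - lam * n.1.2}
  zero_mem' := by simp
  add_mem' {a b} ha hb := by
    obtain ⟨⟨x1, h1⟩, ⟨x2, h2⟩, ⟨x3, h3⟩⟩ := ha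
    obtain ⟨⟨y1, k1⟩, ⟨y2, k2⟩, ⟨y3, k3⟩⟩ := hb
    refine ⟨⟨x1 + y1, ?_⟩, ⟨x2 + y2, ?_⟩, ⟨x3 + y3, ?_⟩⟩
    · simp only [Prod.fst_add, Prod.snd_add]; linear_combination h1 + k1
    · simp only [Prod.fst_add, Prod.snd_add]; linear_combination h2 + k2
    · simp only [Prod.fst_add, Prod.snd_add]; linear_combination h3 + k3
  neg_mem' {a} ha := by
    obtain ⟨⟨x1, h1⟩, ⟨x2, h2⟩, ⟨x3, h3⟩⟩ := ha
    refine ⟨⟨-x1, ?_⟩, ⟨-x2, ?_⟩, ⟨-x3, ?_⟩⟩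
    · simp only [Prod.fst_neg, Prod.snd_neg]; linear_combination -h1
    · simp only [Prod.fst_neg, Prod.snd_neg]; linear_combination -h2
    · simp only [Prod.fst_neg, Prod.snd_neg]; linear_combination -h3

/-- the lattice -/
def Lam0 (lam : ℤ) : AddSubgroup II where
  carrier := {n | n ∈ Lam1 D lam ∧ (p : ℤ) ∣ n.2.1 ∧ (p : ℤ) ∣ n.2.2}
  zero_mem' := ⟨(Lam1 D lam).zero_mem, by simp, by simp⟩
  add_mem' {a b} ha hb :=
    ⟨(Lam1 D lam).add_mem ha.1 hb.1, dvd_add ha.2.1 hb.2.1, dvd_add ha.2.2 hb.2.2⟩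
  neg_mem' {a} ha :=
    ⟨(Lam1 D lam).neg_mem ha.1, (dvd_neg).mpr ha.2.1, (dvd_neg).mpr ha.2.2⟩

variable {p D}
variable {lam : ℤ}

omit hD in
theorem mem_Lam1 {n : II} : n ∈ Lam1 D lam ↔ (2 : ℤ) ∣ n.1.1 - n.1.2 ∧ (2 : ℤ) ∣ n.2.1 - n.2.2 ∧
    (D : ℤ) ∣ n.2.2 - lam * n.1.2 := Iff.rfl

omit hp hD in
theorem mem_Lam0 {n : II} : n ∈ Lam0 p D lam ↔ n ∈ Lam1 D lam ∧ (p : ℤ) ∣ n.2.1 ∧
    (p : ℤ) ∣ n.2.2 := Iff.rfl

theorem coprime_of_prime_ne {a b : ℕ} (ha : a.Prime) (hb : b.Prime) (h : a ≠ b) :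
    IsCoprime (a : ℤ) (b : ℤ) := by
  rw [Nat.isCoprime_iff_coprime]
  exact (Nat.coprime_primes ha hb).mpr h

omit hp hD in
theorem four_D_dvd (hD4 : D % 4 = 3) (hlam : (D : ℤ) ∣ lam ^ 2 + p) {n : II}
    (hn : n ∈ Lam1 D lam) : ((4 * D : ℕ) : ℤ) ∣ NN p D n := by
  obtain ⟨⟨u, hu⟩, ⟨v, hv⟩, ⟨k, hk⟩⟩ := mem_Lam1.mp hn
  obtain ⟨e, he⟩ := hlam
  obtain ⟨d, hd⟩ : ∃ d : ℤ, (D : ℤ) = 4 * d + 3 := ⟨(D / 4 : ℕ), by omega⟩
  have hs : n.1.1 = n.1.2 + 2 * u := by linarith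
  have hσ : n.2.1 = n.2.2 + 2 * v := by linarith
  have hτ : n.2.2 = lam * n.1.2 + D * k := by linarith
  have h4 : (4 : ℤ) ∣ NN p D n := by
    refine ⟨p * (D * (n.1.2 * u + u ^ 2) + (d + 1) * n.1.2 ^ 2) +
      (D * (n.2.2 * v + v ^ 2) + (d + 1) * n.2.2 ^ 2), ?_⟩
    rw [NN, hs, hσ]
    linear_combination (p * n.1.2 ^ 2 + n.2.2 ^ 2) * hd
  have hD' : (D : ℤ) ∣ NN p D n := by
    refine ⟨p * n.1.1 ^ 2 + n.2.1 ^ 2 + e * n.1.2 ^ 2 + 2 * lam * n.1.2 * k + D * k ^ 2, ?_⟩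
    rw [NN, hτ]
    linear_combination (n.1.2 ^ 2) * he
  have hcop : IsCoprime (4 : ℤ) (D : ℤ) := by
    rw [show (4 : ℤ) = ((4 : ℕ) : ℤ) by norm_num, Nat.isCoprime_iff_coprime]
    have h2 : Nat.Coprime 2 D := by
      rw [Nat.coprime_two_left]
      exact Nat.odd_iff.mpr (by omega)
    exact Nat.Coprime.pow_left 2 h2
  push_cast
  exact hcop.mul_dvd h4 hD'

theorem four_pD_dvd (hp2 : p ≠ 2) (hpD : D ≠ p) (hD4 : D % 4 = 3) (hlam : (D : ℤ) ∣ lam ^ 2 + p)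
    {n : II} (hn : n ∈ Lam0 p D lam) : ((4 * (p * D) : ℕ) : ℤ) ∣ NN p D n := by
  obtain ⟨hn1, ⟨x, hx⟩, ⟨y, hy⟩⟩ := mem_Lam0.mp hn
  have h1 := four_D_dvd (p := p) hD4 hlam hn1
  have h2 : (p : ℤ) ∣ NN p D n := by
    refine ⟨D * n.1.1 ^ 2 + n.1.2 ^ 2 + D * p * x ^ 2 + p * y ^ 2, ?_⟩
    rw [NN, hx, hy]
    ring
  have hcop : IsCoprime ((4 * D : ℕ) : ℤ) (p : ℤ) := by
    rw [Nat.isCoprime_iff_coprime]
    apply Nat.Coprime.mul_left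
    · exact Nat.Coprime.pow_left 2 ((Nat.coprime_primes Nat.prime_two hp.out).mpr (Ne.symm hp2))
    · exact (Nat.coprime_primes hD.out hp.out).mpr hpD
  have h3 := hcop.mul_dvd h1 h2
  have e : ((4 * (p * D) : ℕ) : ℤ) = ((4 * D : ℕ) : ℤ) * p := by push_cast; ring
  rw [e]
  exact h3

theorem two_pD_dvd_BB (hp2 : p ≠ 2) (hpD : D ≠ p) (hD4 : D % 4 = 3)
    (hlam : (D : ℤ) ∣ lam ^ 2 + p)
    {n l : II} (hn : n ∈ Lam0 p D lam) (hl : l ∈ Lam1 D lam) :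
    ((2 * (p * D) : ℕ) : ℤ) ∣ BB p D n l := by
  obtain ⟨hn1, ⟨x, hx⟩, ⟨y, hy⟩⟩ := mem_Lam0.mp hn
  obtain ⟨⟨u, hu⟩, ⟨v, hv⟩, ⟨k, hk⟩⟩ := mem_Lam1.mp hn1
  obtain ⟨⟨u', hu'⟩, ⟨v', hv'⟩, ⟨k', hk'⟩⟩ := mem_Lam1.mp hl
  obtain ⟨e, he⟩ := hlam
  obtain ⟨d, hd⟩ : ∃ d : ℤ, (D : ℤ) = 2 * d + 1 := ⟨(D / 2 : ℕ), by omega⟩
  have h2 : (2 : ℤ) ∣ BB p D n l := by
    have hs : n.1.1 = n.1.2 + 2 * u := by linarith
    have hσ : n.2.1 = n.2.2 + 2 * v := by linarith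
    have hs' : l.1.1 = l.1.2 + 2 * u' := by linarith
    have hσ' : l.2.1 = l.2.2 + 2 * v' := by linarith
    refine ⟨p * D * (n.1.2 * u' + u * l.1.2 + 2 * u * u') + p * (d + 1) * (n.1.2 * l.1.2) +
      (D * (n.2.2 * v' + v * l.2.2 + 2 * v * v') + (d + 1) * (n.2.2 * l.2.2)), ?_⟩
    rw [BB, hs, hσ, hs', hσ']
    linear_combination (p * (n.1.2 * l.1.2) + n.2.2 * l.2.2) * hd
  have hD' : (D : ℤ) ∣ BB p D n l := by
    have hτ : n.2.2 = lam * n.1.2 + D * k := by linarith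
    have hτ' : l.2.2 = lam * l.1.2 + D * k' := by linarith
    refine ⟨p * (n.1.1 * l.1.1) + n.2.1 * l.2.1 + e * (n.1.2 * l.1.2) +
      lam * n.1.2 * k' + lam * l.1.2 * k + D * k * k', ?_⟩
    rw [BB, hτ, hτ']
    linear_combination (n.1.2 * l.1.2) * he
  have hp' : (p : ℤ) ∣ BB p D n l := by
    refine ⟨D * (n.1.1 * l.1.1) + n.1.2 * l.1.2 + D * (x * l.2.1) + y * l.2.2, ?_⟩
    rw [BB, hx, hy]
    ring
  have c1 : IsCoprime (2 : ℤ) (p : ℤ) := by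
    have := coprime_of_prime_ne Nat.prime_two hp.out (Ne.symm hp2)
    exact_mod_cast this
  have c2 : IsCoprime ((2 : ℤ) * p) (D : ℤ) := by
    apply IsCoprime.mul_left
    · have := coprime_of_prime_ne Nat.prime_two hD.out (by omega)
      exact_mod_cast this
    · exact coprime_of_prime_ne hp.out hD.out (Ne.symm hpD)
  have h3 := c2.mul_dvd (c1.mul_dvd h2 hp') hD'
  have e : ((2 * (p * D) : ℕ) : ℤ) = 2 * p * D := by push_cast; ring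
  rw [e]
  exact h3

theorem mem_Lam1_of (hpD : D ≠ p) (hD4 : D % 4 = 3)
    (hlam : (D : ℤ) ∣ lam ^ 2 + p) {l : II}
    (h : ∀ n ∈ Lam0 p D lam, ((2 * (p * D) : ℕ) : ℤ) ∣ BB p D n l) : l ∈ Lam1 D lam := by
  have hpz : (p : ℤ) ≠ 0 := by exact_mod_cast hp.out.ne_zero
  have hDz : (D : ℤ) ≠ 0 := by exact_mod_cast hD.out.ne_zero
  obtain ⟨d, hd⟩ : ∃ d : ℤ, (D : ℤ) = 2 * d + 1 := ⟨(D / 2 : ℕ), by omega⟩
  rw [mem_Lam1]
  refine ⟨?_, ?_, ?_⟩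
  · have h1 := h ((1, (D : ℤ)), (0, 0)) (mem_Lam0.mpr ⟨mem_Lam1.mpr ⟨⟨-d, by
      simp only; linarith⟩, by simp, ⟨-lam, by simp only; ring⟩⟩, by simp, by simp⟩)
    obtain ⟨c, hc⟩ := h1
    rw [BB] at hc
    push_cast at hc
    have h2 : (p * D : ℤ) * (l.1.1 + l.1.2) = (p * D : ℤ) * (2 * c) := by linear_combination hc
    have h3 := mul_left_cancel₀ (mul_ne_zero hpz hDz) h2
    exact ⟨c - l.1.2, by linarith⟩
  · have h1 := h ((0, 0), ((p : ℤ), (p * D : ℤ))) (mem_Lam0.mpr ⟨mem_Lam1.mpr ⟨by simp,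
      ⟨-(p * d), by simp only; rw [hd]; ring⟩, ⟨p, by simp only; ring⟩⟩, by simp,
      by simp⟩)
    obtain ⟨c, hc⟩ := h1
    rw [BB] at hc
    push_cast at hc
    have h2 : (p * D : ℤ) * (l.2.1 + l.2.2) = (p * D : ℤ) * (2 * c) := by linear_combination hc
    have h3 := mul_left_cancel₀ (mul_ne_zero hpz hDz) h2
    exact ⟨c - l.2.2, by linarith⟩
  · obtain ⟨x, y, hxy⟩ := coprime_of_prime_ne hp.out hD.out (Ne.symm hpD)
    -- μ = x * lam, p μ = lam - D y lam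
    have h1 := h ((0, 2), (0, 2 * (p : ℤ) * (x * lam))) (mem_Lam0.mpr ⟨mem_Lam1.mpr ⟨by simp,
      ⟨-(p * (x * lam)), by simp only; ring⟩, ⟨-(2 * (y * lam)), by
        simp only
        linear_combination (2 * lam) * hxy⟩⟩, by simp, ⟨2 * (x * lam), by simp only; ring⟩⟩)
    obtain ⟨c, hc⟩ := h1
    obtain ⟨e, he⟩ := hlam
    rw [BB] at hc
    push_cast at hc
    have h2 : (2 * p : ℤ) * (l.1.2 + x * lam * l.2.2) = (2 * p : ℤ) * (D * c) := by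
      linear_combination hc
    have h3 := mul_left_cancel₀ (mul_ne_zero two_ne_zero hpz) h2
    -- lam * t = - lam² x τ + ... = p x τ - D e x τ; p x = 1 - D y
    refine ⟨x * e * l.2.2 + y * l.2.2 - lam * c, ?_⟩
    linear_combination (-lam) * h3 + (x * l.2.2) * he - (l.2.2) * hxy

end

end Fermat.Agent.Eis
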