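import Mathlib
import Fermat.Agent.Eis.ThetaH

set_option autoImplicit false

noncomputable section

namespace Fermat.Agent.Eis

open UpperHalfPlane hiding I
open ModularForm CongruenceSubgroup Matrix.SpecialLinearGroup Filter Complex
open scoped MatrixGroups Manifold Topology Real
open Fermat.Agent.IntStr

section

variable (p D : ℕ) [hp : Fact p.Prime] [hD : Fact D.Prime]

theorem r_surjective : Function.Surjective (TT4 p D).r := by
  rintro ⟨⟨a, b⟩, ⟨c, d⟩⟩
  obtain ⟨a, rfl⟩ := ZMod.intCast_surjective a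
  obtain ⟨b, rfl⟩ := ZMod.intCast_surjective b
  obtain ⟨c, rfl⟩ := ZMod.intCast_surjective c
  obtain ⟨d, rfl⟩ := ZMod.intCast_surjective d
  exact ⟨((a, b), (c, d)), rfl⟩

/-- image of the dual lattice -/
def B1g (lam : ℤ) : AddSubgroup (AA p D) := (Lam1 D lam).map (TT4 p D).r

/-- image of the lattice -/
def B0g (lam : ℤ) : AddSubgroup (AA p D) := (Lam0 p D lam).map (TT4 p D).r

omit hp in
theorem dvd_aux1 : p ∣ 2 * p := Dvd.intro_left 2 rfl

omit hp hD in
theorem dvd_aux2 : p ∣ 2 * (p * D) := (Dvd.intro D rfl).mul_left 2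

/-- reduction modulo `p` -/
def proj : AA p D →+ ZMod p × ZMod p :=
  ((ZMod.castHom (dvd_aux1 p) (ZMod p)).toAddMonoidHom.prodMap
    (ZMod.castHom (dvd_aux2 p D) (ZMod p)).toAddMonoidHom).comp (AddMonoidHom.snd _ _)

theorem proj_r (n : II) : proj p D ((TT4 p D).r n) = ((n.2.1 : ZMod p), (n.2.2 : ZMod p)) := by
  change (ZMod.castHom (dvd_aux1 p) (ZMod p) (n.2.1 : ZMod (2 * p)),
    ZMod.castHom (dvd_aux2 p D) (ZMod p) (n.2.2 : ZMod (2 * (p * D)))) = _
  rw [map_intCast, map_intCast]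

variable {p D}

theorem four_D_ne (hp2 : p ≠ 2) (hpD : D ≠ p) : (4 * D : ZMod p) ≠ 0 := by
  intro h
  have h1 : ((4 * D : ℕ) : ZMod p) = 0 := by exact_mod_cast h
  rw [ZMod.natCast_eq_zero_iff] at h1
  rcases (Nat.Prime.dvd_mul hp.out).mp h1 with h2 | h2
  · have h3 : p ∣ 2 := hp.out.dvd_of_dvd_pow (show p ∣ 2 ^ 2 by simpa using h2)
    exact hp2 ((Nat.prime_dvd_prime_iff_eq hp.out Nat.prime_two).mp h3)
  · exact hpD ((Nat.prime_dvd_prime_iff_eq hp.out hD.out).mp h2).symm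

variable {lam : ℤ}

/-- the quadratic form in two variables -/
def N2 (v : ZMod p × ZMod p) : ZMod p := D * v.1 ^ 2 + v.2 ^ 2

theorem Q_eq (hp2 : p ≠ 2) (hpD : D ≠ p) (hD4 : D % 4 = 3) (hlam : (D : ℤ) ∣ lam ^ 2 + p)
    {y : AA p D} (hy : y ∈ B1g p D lam) :
    (TT4 p D).Q y = ZMod.stdAddChar ((4 * D : ZMod p)⁻¹ * N2 (D := D) (proj p D y)) := by
  obtain ⟨n, hn, rfl⟩ := hy
  obtain ⟨M, hM⟩ := four_D_dvd (p := p) hD4 hlam hn
  have hpc : (p : ℂ) ≠ 0 := by exact_mod_cast hp.out.ne_zero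
  have hDc : (D : ℂ) ≠ 0 := by exact_mod_cast hD.out.ne_zero
  rw [TT4_Q, proj_r, hM]
  have h1 : (4 * D : ZMod p)⁻¹ * N2 (D := D) ((n.2.1 : ZMod p), (n.2.2 : ZMod p)) =
      ((M : ℤ) : ZMod p) := by
    rw [inv_mul_eq_iff_eq_mul₀ (four_D_ne hp2 hpD), N2]
    have h2 := congrArg (Int.cast : ℤ → ZMod p) hM
    rw [NN] at h2
    push_cast at h2
    rw [CharP.cast_eq_zero] at h2
    linear_combination h2
  rw [h1, ZMod.stdAddChar_coe]
  congr 1
  push_cast
  field_simp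

theorem proj_surj (hp2 : p ≠ 2) (hpD : D ≠ p) (v : ZMod p × ZMod p) :
    ∃ y ∈ B1g p D lam, proj p D y = v := by
  obtain ⟨v1, v2⟩ := v
  have h4 := four_D_ne hp2 hpD
  have h2 : (2 * D : ZMod p) ≠ 0 := by
    intro h
    apply h4
    linear_combination 2 * h
  obtain ⟨a, ha⟩ := ZMod.intCast_surjective ((2 * D : ZMod p)⁻¹ * v1)
  obtain ⟨b, hb⟩ := ZMod.intCast_surjective ((2 * D : ZMod p)⁻¹ * v2)
  refine ⟨(TT4 p D).r ((0, 0), (2 * D * a, 2 * D * b)),
    AddSubgroup.mem_map_of_mem _ (mem_Lam1.mpr ⟨by simp, ⟨D * a - D * b, by simp only; ring⟩,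
      ⟨2 * b, by simp only; ring⟩⟩), ?_⟩
  rw [proj_r]
  push_cast
  rw [ha, hb, mul_inv_cancel_left₀ h2, mul_inv_cancel_left₀ h2]

/-- averaging -/
theorem sum_comp_surj {B V : Type*} [AddCommGroup B] [Fintype B] [AddCommGroup V] [Fintype V]
    (q : B →+ V) (hq : Function.Surjective q) (F : V → ℂ) :
    (Fintype.card V : ℂ) * ∑ y, F (q y) = (Fintype.card B : ℂ) * ∑ v, F v := by
  have h1 : ∀ v : V, ∑ y, F (q y) = ∑ y, F (q y + v) := by
    intro v
    obtain ⟨b, rfl⟩ := hq v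
    rw [← Equiv.sum_comp (Equiv.addRight b)]
    refine Finset.sum_congr rfl fun y _ => ?_
    rw [Equiv.coe_addRight, map_add]
  have h2 : ∑ v : V, ∑ y, F (q y) = ∑ v : V, ∑ y, F (q y + v) :=
    Finset.sum_congr rfl fun v _ => h1 v
  rw [Finset.sum_comm (f := fun v y => F (q y + v))] at h2
  have h3 : ∀ y : B, ∑ v, F (q y + v) = ∑ v, F v := fun y =>
    Equiv.sum_comp (Equiv.addLeft (q y)) F
  simp only [h3, Finset.sum_const, Finset.card_univ, nsmul_eq_mul] at h2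
  exact h2

theorem sum_similitude (hp2 : p ≠ 2) (hpD : D ≠ p) {j : ZMod p} (hj : j ≠ 0) (κ : ZMod p)
    (ψ : ZMod p → ℂ) :
    ∑ v : ZMod p × ZMod p, ψ (j * (κ * N2 (D := D) v)) =
      ∑ v : ZMod p × ZMod p, ψ (κ * N2 (D := D) v) := by
  have hD0 : (D : ZMod p) ≠ 0 := by
    intro h
    rw [ZMod.natCast_eq_zero_iff] at h
    exact hpD ((Nat.prime_dvd_prime_iff_eq hp.out hD.out).mp h).symm
  obtain ⟨a, b, hab⟩ : ∃ a b : ZMod p, a ^ 2 + D * b ^ 2 = j := by
    obtain ⟨a, b, h⟩ := FiniteField.exists_root_sum_quadratic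
      (f := Polynomial.X ^ 2 - Polynomial.C j) (g := Polynomial.C (D : ZMod p) * Polynomial.X ^ 2)
      (by rw [Polynomial.degree_X_pow_sub_C two_pos]; rfl)
      (by rw [Polynomial.degree_C_mul_X_pow 2 hD0]; rfl)
      (by rw [ZMod.card]; exact (hp.out.eq_two_or_odd).resolve_left hp2)
    refine ⟨a, b, ?_⟩
    simp at h
    linear_combination h
  set e : (ZMod p × ZMod p) ≃ (ZMod p × ZMod p) :=
    { toFun := fun v => (a * v.1 + b * v.2, a * v.2 - D * b * v.1)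
      invFun := fun u => (j⁻¹ * (a * u.1 - b * u.2), j⁻¹ * (a * u.2 + D * b * u.1))
      left_inv := by
        intro v
        ext
        · simp only
          rw [inv_mul_eq_iff_eq_mul₀ hj]
          linear_combination v.1 * hab
        · simp only
          rw [inv_mul_eq_iff_eq_mul₀ hj]
          linear_combination v.2 * hab
      right_inv := by
        intro v
        ext
        · simp only
          have : a * (j⁻¹ * (a * v.1 - b * v.2)) + b * (j⁻¹ * (a * v.2 + D * b * v.1)) =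
            j⁻¹ * (j * v.1) := by rw [← hab]; ring
          rw [this, inv_mul_cancel_left₀ hj]
        · simp only
          have : a * (j⁻¹ * (a * v.2 + D * b * v.1)) - D * b * (j⁻¹ * (a * v.1 - b * v.2)) =
            j⁻¹ * (j * v.2) := by rw [← hab]; ring
          rw [this, inv_mul_cancel_left₀ hj] } with he
  rw [← Equiv.sum_comp e (fun v => ψ (κ * N2 (D := D) v))]
  refine Finset.sum_congr rfl fun v _ => ?_
  have h1 : e v = (a * v.1 + b * v.2, a * v.2 - D * b * v.1) := rfl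
  rw [h1, N2, N2]
  congr 1
  simp only
  linear_combination (-(κ * (D * v.1 ^ 2 + v.2 ^ 2))) * hab

theorem stdAddChar_zpow (x : ZMod p) (j : ℤ) :
    (ZMod.stdAddChar x : ℂ) ^ j = ZMod.stdAddChar ((j : ZMod p) * x) := by
  obtain ⟨m, rfl⟩ := ZMod.intCast_surjective x
  rw [← Int.cast_mul, ZMod.stdAddChar_coe, ZMod.stdAddChar_coe, ← Complex.exp_int_mul]
  congr 1
  push_cast
  ring

open scoped Classical in
theorem glue4 (hp2 : p ≠ 2) (hpD : D ≠ p) (hD4 : D % 4 = 3) (hlam : (D : ℤ) ∣ lam ^ 2 + p) :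
    Glue (TT4 p D) p (B0g p D lam) (B1g p D lam) where
  perp y := by
    constructor
    · rintro ⟨l, hl, rfl⟩ x ⟨n, hn, rfl⟩
      rw [TT4_B, exp_div_eq_one_iff (NeZero.ne (2 * (p * D)))]
      exact two_pD_dvd_BB hp2 hpD hD4 hlam hn hl
    · intro h
      obtain ⟨l, rfl⟩ := r_surjective p D y
      refine AddSubgroup.mem_map_of_mem _ (mem_Lam1_of hpD hD4 hlam fun n hn => ?_)
      have := h _ (AddSubgroup.mem_map_of_mem _ hn)
      rwa [TT4_B, exp_div_eq_one_iff (NeZero.ne (2 * (p * D)))] at this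
  iso := by
    rintro x ⟨n, hn, rfl⟩
    rw [TT4_Q, exp_div_eq_one_iff (NeZero.ne (4 * (p * D)))]
    exact four_pD_dvd hp2 hpD hD4 hlam hn
  Qp := by
    rintro y hy
    rw [Q_eq hp2 hpD hD4 hlam hy, ← zpow_natCast, stdAddChar_zpow, Int.cast_natCast,
      CharP.cast_eq_zero, zero_mul, AddChar.map_zero_eq_one]
  gauss j hj := by
    have hj' : ((j : ℤ) : ZMod p) ≠ 0 := by
      rwa [Ne, ZMod.intCast_zmod_eq_zero_iff_dvd]
    set q : ↥(B1g p D lam) →+ ZMod p × ZMod p := (proj p D).comp (B1g p D lam).subtype with hq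
    have hsurj : Function.Surjective q := by
      intro v
      obtain ⟨y, hy, hv⟩ := proj_surj (lam := lam) hp2 hpD v
      exact ⟨⟨y, hy⟩, hv⟩
    have e1 : ∀ y : ↥(B1g p D lam), (TT4 p D).Q (y : AA p D) =
        ZMod.stdAddChar ((4 * D : ZMod p)⁻¹ * N2 (D := D) (q y)) := fun y =>
      Q_eq hp2 hpD hD4 hlam y.2
    have hcard : (Fintype.card (ZMod p × ZMod p) : ℂ) ≠ 0 := by
      exact_mod_cast Fintype.card_ne_zero
    apply mul_left_cancel₀ hcard
    have e2 : ∑ y : ↥(B1g p D lam), (TT4 p D).Q (y : AA p D) ^ j =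
        ∑ y : ↥(B1g p D lam), (ZMod.stdAddChar ((j : ZMod p) *
          ((4 * D : ZMod p)⁻¹ * N2 (D := D) (q y))) : ℂ) :=
      Finset.sum_congr rfl fun y _ => by rw [e1, stdAddChar_zpow]
    have e3 : ∑ y : ↥(B1g p D lam), (TT4 p D).Q (y : AA p D) =
        ∑ y : ↥(B1g p D lam), (ZMod.stdAddChar
          ((4 * D : ZMod p)⁻¹ * N2 (D := D) (q y)) : ℂ) :=
      Finset.sum_congr rfl fun y _ => e1 y
    rw [e2, e3]
    rw [sum_comp_surj q hsurj (fun v => (ZMod.stdAddChar ((j : ZMod p) *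
          ((4 * D : ZMod p)⁻¹ * N2 (D := D) v)) : ℂ)),
      sum_comp_surj q hsurj (fun v => (ZMod.stdAddChar 
          ((4 * D : ZMod p)⁻¹ * N2 (D := D) v) : ℂ)),
      sum_similitude hp2 hpD hj' _ (fun x => (ZMod.stdAddChar x : ℂ))]

end

end Fermat.Agent.Eis
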