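import Mathlib
import Fermat.Agent.Eis.Upper

set_option autoImplicit false

noncomputable section

namespace Fermat.Agent.Eis

open UpperHalfPlane ModularForm CongruenceSubgroup Matrix Matrix.SpecialLinearGroup Filter
open scoped MatrixGroups Manifold Topology
open Fermat.Agent.IntStr EisensteinSeries

theorem sgp_add {p : ℕ} (hp : p ≠ 0) (n : ℕ) (hn : n ≠ 0) :
    sgp p n + (if p ∣ n then p * ArithmeticFunction.sigma 1 (n / p) else 0) =
      ArithmeticFunction.sigma 1 n := by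
  rw [ArithmeticFunction.sigma_one_apply n, sgp,
    ← Finset.sum_filter_add_sum_filter_not n.divisors (fun d => ¬ p ∣ d)]
  congr 1
  split_ifs with h
  · obtain ⟨m, rfl⟩ := h
    rw [Nat.mul_div_cancel_left _ (Nat.pos_of_ne_zero hp), ArithmeticFunction.sigma_one_apply,
      Finset.mul_sum]
    refine Finset.sum_nbij' (fun d => p * d) (fun d => d / p) ?_ ?_ ?_ ?_ ?_
    · intro d hd
      have hd := Nat.dvd_of_mem_divisors hd
      rw [Finset.mem_filter, Nat.mem_divisors]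
      exact ⟨⟨Nat.mul_dvd_mul_left p hd, hn⟩, not_not.mpr (dvd_mul_right p d)⟩
    · intro d hd
      rw [Finset.mem_filter, Nat.mem_divisors, not_not] at hd
      obtain ⟨⟨hd1, -⟩, e, rfl⟩ := hd
      rw [Nat.mul_div_cancel_left _ (Nat.pos_of_ne_zero hp), Nat.mem_divisors]
      exact ⟨Nat.dvd_of_mul_dvd_mul_left (Nat.pos_of_ne_zero hp) hd1, right_ne_zero_of_mul hn⟩
    · intro d hd
      exact Nat.mul_div_cancel_left _ (Nat.pos_of_ne_zero hp)
    · intro d hd
      rw [Finset.mem_filter, not_not] at hd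
      exact Nat.mul_div_cancel' hd.2
    · intro d hd
      rfl
  · symm
    apply Finset.sum_eq_zero
    intro d hd
    rw [Finset.mem_filter, not_not, Nat.mem_divisors] at hd
    exact absurd (hd.2.trans hd.1.1) h

theorem sub_slash' (k : ℤ) (f g : ℍ → ℂ) (γ : SL(2, ℤ)) :
    (f - g) ∣[k] γ = f ∣[k] γ - g ∣[k] γ := by
  rw [sub_eq_add_neg, SlashAction.add_slash, SlashAction.neg_slash, sub_eq_add_neg]

theorem sub_slash_GL (k : ℤ) (f g : ℍ → ℂ) (γ : GL (Fin 2) ℝ) :
    (f - g) ∣[k] γ = f ∣[k] γ - g ∣[k] γ := by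
  rw [sub_eq_add_neg, SlashAction.add_slash, SlashAction.neg_slash, sub_eq_add_neg]

theorem bdd_sub {f g : ℍ → ℂ} (hf : IsBoundedAtImInfty f) (hg : IsBoundedAtImInfty g) :
    IsBoundedAtImInfty (f - g) := by
  have := hf.add (hg.const_smul_left (-1 : ℂ))
  rwa [neg_one_smul, ← sub_eq_add_neg] at this

/-- The weight two Eisenstein series of level `p`. -/
def E2p (p : ℕ) : ℍ → ℂ := (p : ℂ) • V p E2 - E2

section

variable {p : ℕ} [hp : Fact p.Prime]

theorem E2p_eq : E2p p = E2 ∣[(2 : ℤ)] heckeDiagMatrix p - E2 := by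
  have hpc : (p : ℂ) ≠ 0 := by exact_mod_cast hp.out.ne_zero
  rw [E2p, V_eq_slash hp.out.ne_zero 2, smul_smul]
  congr 1
  rw [show (1 : ℤ) - 2 = -1 by norm_num, _root_.zpow_neg_one, mul_inv_cancel₀ hpc, one_smul]

theorem E2p_slash (γ : SL(2, ℤ)) (hγ : γ ∈ Gamma0 p) : E2p p ∣[(2 : ℤ)] γ = E2p p := by
  have hp0 := hp.out.ne_zero
  have hpc : (p : ℂ) ≠ 0 := by exact_mod_cast hp0
  obtain ⟨c, hc⟩ := (mem_Gamma0_iff γ).mp hγ
  have hdet : γ 0 0 * γ 1 1 - γ 0 1 * (p * c) = 1 := by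
    rw [← hc]
    have := γ.det_coe
    rw [Matrix.det_fin_two] at this
    exact this
  obtain ⟨δ, δ', hδ, hδ', h⟩ := diag_mul_comm hp0 _ _ _ _ hdet
  have e : δ = γ := by
    ext i j
    rw [hδ]
    fin_cases i <;> fin_cases j <;> simp [hc]
  subst e
  have h1 : (E2 ∣[(2 : ℤ)] heckeDiagMatrix p) ∣[(2 : ℤ)] δ =
      (E2 ∣[(2 : ℤ)] δ') ∣[(2 : ℤ)] heckeDiagMatrix p := by
    rw [SL_slash, ← SlashAction.slash_mul, SL_slash, ← SlashAction.slash_mul]
    exact congrArg (fun g => E2 ∣[(2 : ℤ)] g) h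
  funext z
  rw [E2p_eq, sub_slash', h1, E2_slash_action, E2_slash_action, Pi.sub_apply,
    Pi.sub_apply, Pi.sub_apply, slash_heckeDiagMatrix_apply 2 hp0,
    slash_heckeDiagMatrix_apply 2 hp0]
  simp only [Pi.sub_apply, Pi.smul_apply, D2, smul_eq_mul]
  rw [ModularGroup.denom_apply, ModularGroup.denom_apply, coe_heckeDiagMatrix_smul hp0]
  have e10 : δ' 1 0 = c := by rw [hδ']; rfl
  have e11 : δ' 1 1 = δ 1 1 := by rw [hδ']; rfl
  rw [e10, e11, hc]
  have hden : ((((p : ℤ) * c : ℤ) : ℂ)) * z + ((δ 1 1 : ℤ) : ℂ) ≠ 0 := by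
    have := denom_ne_zero (δ : GL (Fin 2) ℝ) z
    rw [ModularGroup.denom_apply, hc] at this
    exact this
  push_cast at hden ⊢
  simp only [zpow_one, pow_one]
  have h2 : (c : ℂ) * (p * z) + (δ 1 1 : ℤ) = p * c * z + (δ 1 1 : ℤ) := by ring
  rw [h2]
  field_simp
  ring

omit hp in
theorem diag_mul_S (hp0 : p ≠ 0) :
    heckeDiagMatrix p * (mapGL ℝ ModularGroup.S) = (mapGL ℝ ModularGroup.S) * heckeMatrix p 0 := by
  apply Units.ext
  have e1 : ∀ (γ : SL(2, ℤ)), ((mapGL ℝ γ : GL (Fin 2) ℝ) : Matrix (Fin 2) (Fin 2) ℝ) =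
      !![((γ 0 0 : ℤ) : ℝ), ((γ 0 1 : ℤ) : ℝ); ((γ 1 0 : ℤ) : ℝ), ((γ 1 1 : ℤ) : ℝ)] := by
    intro γ
    ext i j
    rw [mapGL_apply_real]
    fin_cases i <;> fin_cases j <;> rfl
  rw [Units.val_mul, Units.val_mul, val_heckeDiagMatrix hp0, val_heckeMatrix hp0, e1,
    ModularGroup.coe_S, Matrix.mul_fin_two, Matrix.mul_fin_two]
  simp

theorem E2_slash_S_bdd : IsBoundedAtImInfty (E2 ∣[(2 : ℤ)] ModularGroup.S) := by
  rw [E2_slash_action]
  have h1 : IsBoundedAtImInfty (D2 ModularGroup.S) := by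
    have : Tendsto (D2 ModularGroup.S) atImInfty (𝓝 0) := by
      have h2 : D2 ModularGroup.S = fun z : ℍ => 2 * Real.pi * Complex.I / (z : ℂ) := by
        funext z
        exact D2_S z
      rw [h2, tendsto_zero_iff_norm_tendsto_zero]
      have h3 : Tendsto (fun z : ℍ => (2 * Real.pi) / z.im) atImInfty (𝓝 0) := by
        have h4 : Tendsto (fun τ : ℍ ↦ τ.im) atImInfty atTop := tendsto_comap
        exact h4.const_div_atTop _
      refine squeeze_zero (fun _ => norm_nonneg _) (fun z => ?_) h3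
      rw [norm_div]
      have h5 : ‖(2 * Real.pi * Complex.I : ℂ)‖ = 2 * Real.pi := by
        simp [abs_of_pos Real.pi_pos]
      rw [h5]
      exact div_le_div_of_nonneg_left (by positivity) z.im_pos
        ((le_abs_self _).trans (Complex.abs_im_le_norm z))
    exact (IsZeroAtImInfty.isBoundedAtImInfty this)
  have h2 := isBoundedAtImInfty_E2
  have h3 : IsBoundedAtImInfty (-(1 / (2 * riemannZeta 2)) • D2 ModularGroup.S) :=
    h1.const_smul_left _
  have h4 := h2.add h3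
  rw [_root_.neg_smul, ← sub_eq_add_neg] at h4
  exact h4

theorem E2p_mf : IsMF (Gamma0 p) 2 (E2p p) := by
  have hp0 := hp.out.ne_zero
  refine isMF_of hp.out ?_ E2p_slash ?_ ?_
  · exact ((V_holo hp0 E2_mdifferentiable).const_smul _).sub E2_mdifferentiable
  · exact bdd_sub ((V_bdd hp0 isBoundedAtImInfty_E2).const_smul_left _) isBoundedAtImInfty_E2
  · have h1 : E2p p ∣[(2 : ℤ)] ModularGroup.S =
        (E2 ∣[(2 : ℤ)] ModularGroup.S) ∣[(2 : ℤ)] heckeMatrix p 0 -
          E2 ∣[(2 : ℤ)] ModularGroup.S := by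
      rw [E2p_eq, sub_slash']
      congr 1
      rw [SL_slash, ← SlashAction.slash_mul, SL_slash, ← SlashAction.slash_mul]
      exact congrArg (fun g => E2 ∣[(2 : ℤ)] g) (diag_mul_S hp0)
    rw [h1]
    refine bdd_sub ?_ E2_slash_S_bdd
    exact E2_slash_S_bdd.slash _ (by simp [val_heckeMatrix hp0])

theorem E2p_qExpansion : qExpansion 1 (E2p p) = tc (Es p) := by
  have hp0 := hp.out.ne_zero
  have hmf := E2p_mf (p := p)
  have hE : ∀ τ : ℍ, HasSum (fun m : ℕ => (if m = 0 then 1 else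
      -24 * ArithmeticFunction.sigma 1 m : ℂ) • Function.Periodic.qParam 1 (τ : ℂ) ^ m) (E2 τ) := by
    intro τ
    simpa only [Function.Periodic.qParam, Complex.ofReal_one, div_one] using
      hasSum_qExpansion_E2 (z := τ)
  have hV := hasSum_V hp0 hE
  ext n
  rw [coeff_unique (c := fun m => (p : ℂ) * (if p ∣ m then (if m / p = 0 then 1 else
      -24 * ArithmeticFunction.sigma 1 (m / p) : ℂ) else 0) - (if m = 0 then 1 else
      -24 * ArithmeticFunction.sigma 1 m : ℂ)) hmf.holo.continuous (hmf.analyticAt (T_mem_Gamma0 p))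
    (fun τ => ?_) n, coeff_tc, Es, show (24 : PowerSeries ℤ) * Sp p = (24 : ℤ) • Sp p by
      rw [zsmul_eq_mul]; norm_num, map_add, cf_zsmul, Sp, PowerSeries.coeff_mk]
  · rw [← map_intCast (PowerSeries.C (R := ℤ)), PowerSeries.coeff_C]
    rcases eq_or_ne n 0 with rfl | hn
    · simp [sgp_zero, hp.out.pos]
    · rw [if_neg hn, if_neg hn]
      have h := sgp_add hp0 n hn
      rw [← h]
      split_ifs with h1 h2
      · exfalso
        obtain ⟨m, rfl⟩ := h1
        rw [Nat.mul_div_cancel_left _ hp.out.pos] at h2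
        exact hn (by rw [h2, mul_zero])
      · push_cast
        ring
      · push_cast
        ring
  · have h1 := ((hV τ).mul_left (p : ℂ)).sub (hE τ)
    have h2 : (fun m : ℕ => ((p : ℂ) * (if p ∣ m then (if m / p = 0 then 1 else
      -24 * ArithmeticFunction.sigma 1 (m / p) : ℂ) else 0) - (if m = 0 then 1 else
      -24 * ArithmeticFunction.sigma 1 m : ℂ)) • Function.Periodic.qParam 1 (τ : ℂ) ^ m) =
      fun m : ℕ => (p : ℂ) * ((if p ∣ m then (if m / p = 0 then 1 else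
      -24 * ArithmeticFunction.sigma 1 (m / p) : ℂ) else 0) •
        Function.Periodic.qParam 1 (τ : ℂ) ^ m) - (if m = 0 then 1 else
      -24 * ArithmeticFunction.sigma 1 m : ℂ) • Function.Periodic.qParam 1 (τ : ℂ) ^ m := by
      funext m
      simp only [smul_eq_mul]
      ring
    rw [h2]
    exact h1

theorem Es_pair : IsPair p 2 (Es p) (-(p : ℤ) • Us p (Es p)) :=
  isPair_weight_two E2p_mf E2p_qExpansion

end

end Fermat.Agent.Eis
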