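import Mathlib
import Fermat.Agent.Eis.ThetaG
import Fermat.Agent.Eis.Weight2

set_option autoImplicit false

noncomputable section

namespace Fermat.Agent.Eis

open UpperHalfPlane hiding I
open ModularForm CongruenceSubgroup Matrix.SpecialLinearGroup Filter Complex
open scoped MatrixGroups Manifold Topology Real
open Fermat.Agent.IntStr

section fiber

variable {L : Type} (K : L → ℕ)

/-- number of elements in a fibre -/
def fibCard (m : ℕ) : ℕ := Nat.card {n : L // K n = m}

theorem finite_fiber {q : ℂ} (hq : q ≠ 0) (h : Summable fun n : L => q ^ K n) (m : ℕ) :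
    Finite {n : L // K n = m} := by
  by_contra hinf
  rw [not_finite_iff_infinite] at hinf
  have h1 : Summable fun n : {n : L // K n = m} => q ^ K (n : L) :=
    h.comp_injective Subtype.val_injective
  have h2 : (fun n : {n : L // K n = m} => q ^ K (n : L)) = fun _ => q ^ m := by
    funext n
    rw [n.2]
  rw [h2] at h1
  have h3 := (summable_const_iff (q ^ m)).mp h1
  exact pow_ne_zero m hq h3

theorem hasSum_fiber {q a : ℂ} (hq : q ≠ 0) (h : HasSum (fun n : L => q ^ K n) a) :
    HasSum (fun m : ℕ => (fibCard K m : ℂ) • q ^ m) a := by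
  have h1 : HasSum (fun x : (Σ m : ℕ, {n : L // K n = m}) =>
      q ^ K ((Equiv.sigmaFiberEquiv K) x)) a := by
    rw [← (Equiv.sigmaFiberEquiv K).hasSum_iff] at h
    exact h
  refine h1.sigma fun m => ?_
  have hfin := finite_fiber K hq h.summable m
  have := Fintype.ofFinite {n : L // K n = m}
  have h2 : (fun c : {n : L // K n = m} => q ^ K ((Equiv.sigmaFiberEquiv K) ⟨m, c⟩)) =
      fun _ => q ^ m := by
    funext c
    change q ^ K (c : L) = _
    rw [c.2]
  rw [h2]
  have h3 := hasSum_fintype (fun _ : {n : L // K n = m} => q ^ m)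
  rw [Finset.sum_const, Finset.card_univ, nsmul_eq_mul, ← Nat.card_eq_fintype_card] at h3
  exact h3

end fiber

theorem bdd_sum {ι : Type*} (s : Finset ι) (F : ι → ℍ → ℂ)
    (h : ∀ i ∈ s, IsBoundedAtImInfty (F i)) : IsBoundedAtImInfty (∑ i ∈ s, F i) := by
  classical
  induction s using Finset.induction_on with
  | empty => simpa using zero_form_isBoundedAtImInfty
  | insert i s hi ih =>
    rw [Finset.sum_insert hi]
    exact (h i (Finset.mem_insert_self i s)).add
      (ih fun j hj => h j (Finset.mem_insert_of_mem hj))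

section

variable (p D : ℕ) [hp : Fact p.Prime] [hD : Fact D.Prime] (lam : ℤ)

/-- the theta series -/
def Th : ℍ → ℂ := glued (TT4 p D) (B0g p D lam)

variable {p D lam}

theorem Th_mf (hp2 : p ≠ 2) (hpD : D ≠ p) (hD4 : D % 4 = 3) (hlam : (D : ℤ) ∣ lam ^ 2 + p) :
    IsMF (Gamma0 p) 2 (Th p D lam) := by
  classical
  have hG := glue4 hp2 hpD hD4 hlam
  refine isMF_of hp.out ?_ (fun γ hγ => hG.invariant (TT4_S p D) γ hγ) ?_ ?_
  · exact holo_sum _ _ fun x _ => (TT4 p D).theta_holo _
  · rw [Th, glued]
    exact bdd_sum _ _ fun x _ => (TT4 p D).theta_bdd _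
  · rw [Th, hG.glued_S (TT4_S p D), FF]
    have h1 := bdd_sum Finset.univ (fun y : ↥(B1g p D lam) =>
      ((TT4 p D).Q (y : AA p D) ^ (0 : ℤ)) • (TT4 p D).theta (y : AA p D))
      fun x _ => ((TT4 p D).theta_bdd _).const_smul_left _
    exact h1.const_smul_left _

/-- the lattice of the theta series -/
def LL (p D : ℕ) [hp : Fact p.Prime] [hD : Fact D.Prime] (lam : ℤ) : AddSubgroup II :=
  (B0g p D lam).comap (TT4 p D).r

theorem exists_K (hp2 : p ≠ 2) (hpD : D ≠ p) (hD4 : D % 4 = 3) (hlam : (D : ℤ) ∣ lam ^ 2 + p)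
    (n : ↥(LL p D lam)) : ∃ k : ℕ, (TT4 p D).w (n : II) = k := by
  have hG := glue4 hp2 hpD hD4 hlam
  have h1 := hG.iso _ n.2
  rw [← (TT4 p D).hQ, Complex.exp_eq_one_iff] at h1
  obtain ⟨k, hk⟩ := h1
  have h2 : (2 * π * I : ℂ) * (((TT4 p D).w (n : II) : ℂ) - k) = 0 := by linear_combination hk
  have h3 := sub_eq_zero.mp ((mul_eq_zero.mp h2).resolve_left Complex.two_pi_I_ne_zero)
  have h4 : (TT4 p D).w (n : II) = (k : ℝ) := by exact_mod_cast h3
  have h5 : 0 ≤ k := by
    have := (TT4 p D).w_nonneg (n : II)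
    rw [h4] at this
    exact_mod_cast this
  obtain ⟨m, rfl⟩ := Int.eq_ofNat_of_zero_le h5
  exact ⟨m, by rw [h4]; simp⟩

theorem hasSum_Th (z : ℍ) : HasSum (fun n : ↥(LL p D lam) =>
    cexp (2 * π * I * (TT4 p D).w (n : II) * z)) (Th p D lam z) := by
  classical
  have h1 : HasSum (fun n : II => ∑ x : ↥(B0g p D lam),
      if (TT4 p D).r n = (x : AA p D) then cexp (2 * π * I * (TT4 p D).w n * z) else 0)
      (Th p D lam z) := by
    rw [Th, glued, Finset.sum_apply]
    exact hasSum_sum fun x _ => (TT4 p D).hasSum_theta _ z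
  have h2 : (fun n : II => ∑ x : ↥(B0g p D lam),
      if (TT4 p D).r n = (x : AA p D) then cexp (2 * π * I * (TT4 p D).w n * z) else 0) =
      Set.indicator (LL p D lam : Set II) (fun n => cexp (2 * π * I * (TT4 p D).w n * z)) := by
    funext n
    rw [Set.indicator_apply]
    split_ifs with hn
    · rw [Finset.sum_eq_single (⟨(TT4 p D).r n, hn⟩ : ↥(B0g p D lam))]
      · rw [if_pos rfl]
      · intro b _ hb
        rw [if_neg]
        intro h
        exact hb (Subtype.ext h.symm)
      · intro h
        exact absurd (Finset.mem_univ _) h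
    · apply Finset.sum_eq_zero
      intro x _
      rw [if_neg]
      intro h
      apply hn
      change (TT4 p D).r n ∈ B0g p D lam
      rw [h]
      exact x.2
  rw [h2] at h1
  exact (hasSum_subtype_iff_indicator (s := (LL p D lam : Set II))).mpr h1

theorem exists_theta (hp2 : p ≠ 2) (hpD : D ≠ p) (hD4 : D % 4 = 3)
    (hlam : (D : ℤ) ∣ lam ^ 2 + p) :
    ∃ (h : ℍ → ℂ) (Hs : PowerSeries ℤ), IsMF (Gamma0 p) 2 h ∧ qExpansion 1 h = tc Hs ∧
      Hs.coeff 0 = 1 ∧ ∀ k, k ≠ 0 → (2 : ℤ) ∣ Hs.coeff k := by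
  classical
  choose K hK using exists_K hp2 hpD hD4 hlam
  have hmf := Th_mf hp2 hpD hD4 hlam
  have hq : ∀ z : ℍ, Function.Periodic.qParam 1 (z : ℂ) ≠ 0 := fun z => Complex.exp_ne_zero _
  have h1 : ∀ z : ℍ, HasSum (fun n : ↥(LL p D lam) => Function.Periodic.qParam 1 (z : ℂ) ^ K n)
      (Th p D lam z) := by
    intro z
    have h2 := hasSum_Th (p := p) (D := D) (lam := lam) z
    have h3 : (fun n : ↥(LL p D lam) => Function.Periodic.qParam 1 (z : ℂ) ^ K n) =
        fun n : ↥(LL p D lam) => cexp (2 * π * I * (TT4 p D).w (n : II) * z) := by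
      funext n
      rw [hK n, Function.Periodic.qParam, ← Complex.exp_nat_mul]
      congr 1
      push_cast
      ring
    rw [h3]
    exact h2
  refine ⟨Th p D lam, PowerSeries.mk fun m => (fibCard K m : ℤ), hmf, ?_, ?_, ?_⟩
  · ext m
    rw [coeff_unique hmf.holo.continuous (hmf.analyticAt (T_mem_Gamma0 p))
      (fun τ => hasSum_fiber K (hq τ) (h1 τ)), coeff_tc, PowerSeries.coeff_mk]
    simp
  · rw [PowerSeries.coeff_mk, fibCard]
    have : Unique {n : ↥(LL p D lam) // K n = 0} :=
      { default := ⟨0, by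
          have := hK 0
          rw [AddSubgroup.coe_zero, (TT4 p D).w_zero] at this
          exact_mod_cast this.symm⟩
        uniq := by
          rintro ⟨n, hn⟩
          apply Subtype.ext
          have := hK n
          rw [hn, Nat.cast_zero] at this
          exact Subtype.ext ((TT4 p D).w_eq_zero _ this) }
    simp
  · intro m hm
    rw [PowerSeries.coeff_mk]
    have hfin := finite_fiber K (hq UpperHalfPlane.I) (h1 UpperHalfPlane.I).summable m
    have := Fintype.ofFinite {n : ↥(LL p D lam) // K n = m}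
    rw [fibCard, Nat.card_eq_fintype_card,
      show (2 : ℤ) = ((2 : ℕ) : ℤ) by norm_num, ← ZMod.intCast_zmod_eq_zero_iff_dvd]
    have hneg : ∀ n : ↥(LL p D lam), K (-n) = K n := by
      intro n
      have h2 := hK (-n)
      rw [AddSubgroup.coe_neg, (TT4 p D).w_neg, hK n] at h2
      exact_mod_cast h2.symm
    have h2 := Finset.sum_involution (s := (Finset.univ : Finset {n : ↥(LL p D lam) // K n = m}))
      (f := fun _ => (1 : ZMod 2)) (fun a _ => ⟨-a.1, by rw [hneg, a.2]⟩) (fun _ _ => by decide)
      (fun a _ _ h => by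
        have h3 : -(a : ↥(LL p D lam)) = a := congrArg Subtype.val h
        have h4 : -((a : ↥(LL p D lam)) : II) = ((a : ↥(LL p D lam)) : II) :=
          congrArg Subtype.val h3
        have h5 : ((a : ↥(LL p D lam)) : II) = 0 := by
          generalize ((a : ↥(LL p D lam)) : II) = b at h4
          obtain ⟨⟨x, y⟩, ⟨u, v⟩⟩ := b
          have e1 : -x = x := congrArg (fun b : II => b.1.1) h4
          have e2 : -y = y := congrArg (fun b : II => b.1.2) h4
          have e3 : -u = u := congrArg (fun b : II => b.2.1) h4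
          have e4 : -v = v := congrArg (fun b : II => b.2.2) h4
          have e5 : x = 0 := by omega
          have e6 : y = 0 := by omega
          have e7 : u = 0 := by omega
          have e8 : v = 0 := by omega
          rw [e5, e6, e7, e8]
          rfl
        have h6 := hK (a : ↥(LL p D lam))
        rw [h5, (TT4 p D).w_zero, a.2] at h6
        exact hm (by exact_mod_cast h6.symm)) (fun _ _ => Finset.mem_univ _)
      (fun a _ => Subtype.ext (neg_neg _))
    rw [Finset.sum_const, Finset.card_univ, nsmul_eq_mul, mul_one] at h2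
    push_cast
    exact h2

end

end Fermat.Agent.Eis
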