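import Mathlib
import Fermat.Agent.Eis.ThetaF
import Fermat.Agent.Eis.Small

set_option autoImplicit false

noncomputable section

namespace Fermat.Agent.Eis

open UpperHalfPlane ModularForm CongruenceSubgroup Matrix.SpecialLinearGroup Filter
open scoped MatrixGroups Manifold Topology
open Fermat.Agent.IntStr ModularFormClass CuspForm ModularCurve

/-! ### auxiliary primes -/

theorem isSquare_neg_of {D : ℕ} [hD : Fact D.Prime] (hD4 : D % 4 = 3) {a : ZMod D} (ha : ¬ IsSquare a) :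
    IsSquare (-a) := by
  have ha0 : a ≠ 0 := by
    rintro rfl
    exact ha ⟨0, by simp⟩
  have h1 : ¬ IsSquare (-1 : ZMod D) := by
    rw [ZMod.exists_sq_eq_neg_one_iff]
    simp [hD4]
  rw [← quadraticChar_one_iff_isSquare (neg_ne_zero.mpr ha0)]
  rw [← quadraticChar_neg_one_iff_not_isSquare] at ha h1
  rw [← neg_one_mul, map_mul, ha, h1]
  norm_num

theorem exists_D_lam {p : ℕ} [hp : Fact p.Prime] (hp5 : 5 ≤ p) : ∃ (D : ℕ) (_ : Fact D.Prime) (lam : ℤ),
    D ≠ p ∧ D % 4 = 3 ∧ (D : ℤ) ∣ lam ^ 2 + p := by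
  have hp2 : p ≠ 2 := by omega
  have hodd := (hp.out.eq_two_or_odd).resolve_left hp2
  have hcop : Nat.Coprime 4 p := by
    have : Nat.Coprime 2 p := (Nat.coprime_primes Nat.prime_two hp.out).mpr (Ne.symm hp2)
    exact Nat.Coprime.pow_left 2 this
  -- reduce to a choice of residue
  suffices h : ∃ b : ZMod p, b ≠ 0 ∧ ∀ D : ℕ, Fact D.Prime → D ≠ p → D % 4 = 3 → (D : ZMod p) = b →
      ¬ IsSquare (p : ZMod D) by
    obtain ⟨b, hb, h⟩ := h
    set e := ZMod.chineseRemainder hcop with he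
    have hu : IsUnit (e.symm ((3 : ZMod 4), b)) := by
      rw [MulEquiv.isUnit_map]
      exact Prod.isUnit_iff.mpr ⟨(by decide : IsUnit (3 : ZMod 4)), hb.isUnit⟩
    have : NeZero (4 * p) := ⟨mul_ne_zero four_ne_zero hp.out.ne_zero⟩
    obtain ⟨D, hDp, hD, hDe⟩ := Nat.forall_exists_prime_gt_and_eq_mod hu p
    have hDF : Fact D.Prime := ⟨hD⟩
    have h1 : e (D : ZMod (4 * p)) = ((3 : ZMod 4), b) := by rw [hDe, e.apply_symm_apply]
    rw [map_natCast] at h1
    have h3 : ((D : ℕ) : ZMod 4) = ((3 : ℕ) : ZMod 4) := congrArg Prod.fst h1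
    have h4 : ((D : ℕ) : ZMod p) = b := congrArg Prod.snd h1
    have hD4 : D % 4 = 3 := by
      have := (ZMod.natCast_eq_natCast_iff' D 3 4).mp h3
      simpa using this
    have h5 := h D hDF hDp.ne' hD4 h4
    obtain ⟨x, hx⟩ := isSquare_neg_of hD4 h5
    obtain ⟨lam, rfl⟩ := ZMod.intCast_surjective x
    refine ⟨D, hDF, lam, hDp.ne', hD4, ?_⟩
    rw [← ZMod.intCast_zmod_eq_zero_iff_dvd]
    push_cast
    linear_combination -hx
  rcases Nat.odd_mod_four_iff.mp hodd with h4 | h4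
  · obtain ⟨b, hb⟩ := FiniteField.exists_nonsquare (F := ZMod p) (by rwa [ZMod.ringChar_zmod_n])
    refine ⟨b, by rintro rfl; exact hb ⟨0, by simp⟩, fun D hD hDp hD4 hDb => ?_⟩
    rw [← ZMod.exists_sq_eq_prime_iff_of_mod_four_eq_one h4 (by omega), hDb]
    exact hb
  · refine ⟨1, one_ne_zero, fun D hD hDp hD4 hDb => ?_⟩
    rw [← ZMod.exists_sq_eq_prime_iff_of_mod_four_eq_three h4 hD4 hDp.symm, hDb]
    exact ⟨1, by simp⟩

/-! ### constructing cusp forms -/

section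

variable {p : ℕ} [hp : Fact p.Prime]

omit hp in
theorem isZero_of_coeff {k : ℤ} {f : ℍ → ℂ} (hf : IsMF (Gamma0 p) k f)
    (h : (qExpansion 1 f).coeff 0 = 0) : IsZeroAtImInfty f := by
  have hT := T_mem_Gamma0 p
  have hanal := hf.analyticAt hT
  have hper := hf.periodic hT
  rw [qExpansion_coeff_zero one_pos hanal hper] at h
  simp_rw [IsZeroAtImInfty, ZeroAtFilter, ← h, ← cuspFunction_apply_zero one_pos hanal hper]
  exact (hanal.continuousAt.tendsto.comp (qParam_tendsto_atImInfty one_pos)).congr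
    (fun τ ↦ eq_cuspFunction τ one_ne_zero hper)

theorem isZero_slash_S {f : ℍ → ℂ} {a : PowerSeries ℤ} (hf : IsMF (Gamma0 p) 2 f)
    (hfa : qExpansion 1 f = tc a) (ha : a.coeff 0 = 0) :
    IsZeroAtImInfty (f ∣[(2 : ℤ)] ModularGroup.S) := by
  have hp0 := hp.out.ne_zero
  have hpc : (p : ℂ) ≠ 0 := by exact_mod_cast hp0
  have hW := W_mf hp.out (by decide) hf
  have h1 : IsZeroAtImInfty (W p 2 f) := by
    apply isZero_of_coeff hW
    rw [W_weight_two hf]
    have h2 : -((p : ℂ) • heckeU 2 p f) = (-(p : ℂ)) • heckeU 2 p f := by rw [_root_.neg_smul]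
    rw [h2, (U_mf hf).qExpansion_smul (T_mem_Gamma0 p), qExpansion_U hf hfa, map_smul, coeff_tc,
      coeff_Us, zero_mul, ha]
    simp
  have h2 := W_slash_S (f := W p 2 f) (k := 2) hp0 (by decide)
  rw [W_W hp0 (by decide), SL_smul_slash] at h2
  have h3 : f ∣[(2 : ℤ)] ModularGroup.S = (((p : ℂ) ^ (2 : ℤ))⁻¹ * p) •
      (W p 2 f ∣[(2 : ℤ)] heckeMatrix p 0) := by
    rw [mul_smul, ← h2, smul_smul, inv_mul_cancel₀ (zpow_ne_zero _ hpc), one_smul]
  rw [h3]
  refine Filter.ZeroAtFilter.smul _ ?_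
  exact h1.slash _ (by simp [val_heckeMatrix hp0])

/-- the cusp form attached to a modular form with vanishing constant term -/
def toCusp {f : ℍ → ℂ} {a : PowerSeries ℤ} (hf : IsMF (Gamma0 p) 2 f)
    (hfa : qExpansion 1 f = tc a) (ha : a.coeff 0 = 0) : CuspForm (Gamma0 p) 2 where
  toFun := f
  slash_action_eq' := by
    rintro _ ⟨γ, hγ, rfl⟩
    exact hf.slash γ hγ
  holo' := hf.holo
  zero_at_cusps' hc := by
    rw [Subgroup.IsArithmetic.isCusp_iff_isCusp_SL2Z] at hc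
    rw [OnePoint.isZeroAt_iff_forall_SL2Z hc]
    intro γ _
    refine zero_of hp.out hf.slash (isZero_of_coeff hf ?_) (isZero_slash_S hf hfa ha) γ
    rw [hfa, coeff_tc, ha, Int.cast_zero]

theorem main : Nat.card (TT p ⧸ JJ p) = eisensteinNumerator p := by
  rcases lt_or_ge p 5 with h5 | h5
  · exact index_small h5
  obtain ⟨D, hD, lam, hDp, hD4, hlam⟩ := exists_D_lam h5
  obtain ⟨h, Hs, hmf, hq, h0, h2⟩ := exists_theta (by omega) hDp hD4 hlam
  have hp1 : 1 ≤ p := by omega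
  set n := eisensteinNumerator p with hn
  set r := Nat.gcd (p - 1) 12 with hr
  have hr0 : 0 < r := Nat.gcd_pos_of_pos_right _ (by norm_num)
  have hnr : n * r = p - 1 := Nat.div_mul_cancel (Nat.gcd_dvd_left _ _)
  set w := 12 / r with hw
  have hwr : w * r = 12 := Nat.div_mul_cancel (Nat.gcd_dvd_right _ _)
  have hcop : Nat.Coprime n w := Nat.coprime_div_gcd_div_gcd hr0
  set Gs : PowerSeries ℤ := PowerSeries.mk fun k => (w : ℤ) * sgp p k - n * (Hs.coeff k / 2) with hGs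
  have hG0 : Gs.coeff 0 = 0 := by
    rw [hGs, PowerSeries.coeff_mk, h0, sgp_zero]
    norm_num
  have hnr' : (n : ℤ) * r = (p : ℤ) - 1 := by
    have := congrArg (Nat.cast : ℕ → ℤ) hnr
    push_cast [Nat.cast_sub hp1] at this
    exact this
  have hwr' : (w : ℤ) * r = 12 := by exact_mod_cast hwr
  have hEs : ∀ k, (Es p).coeff k - ((p : ℤ) - 1) * Hs.coeff k = (2 * r : ℤ) * Gs.coeff k := by
    intro k
    rw [Es, show (24 : PowerSeries ℤ) * Sp p = (24 : ℤ) • Sp p by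
      rw [zsmul_eq_mul]; norm_num, map_add, cf_zsmul, Sp, PowerSeries.coeff_mk,
      ← map_intCast (PowerSeries.C (R := ℤ)), PowerSeries.coeff_C]
    rcases eq_or_ne k 0 with rfl | hk
    · rw [if_pos rfl, hG0, h0, sgp_zero]
      push_cast [Nat.cast_sub hp1]
      ring
    · rw [if_neg hk, hGs, PowerSeries.coeff_mk]
      obtain ⟨c, hc⟩ := h2 k hk
      rw [hc, Int.mul_ediv_cancel_left _ two_ne_zero]
      linear_combination (-2 * sgp p k) * hwr' + (2 * c) * hnr'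
  set G : ℍ → ℂ := ((2 * r : ℂ)⁻¹) • (E2p p - ((p : ℂ) - 1) • h) with hG
  have hG1 : IsMF (Gamma0 p) 2 (E2p p - ((p : ℂ) - 1) • h) := IsMF.sub' E2p_mf (hmf.smul _)
  have hGmf : IsMF (Gamma0 p) 2 G := hG1.smul _
  have hrc : (2 * r : ℂ) ≠ 0 := mul_ne_zero two_ne_zero (by exact_mod_cast hr0.ne')
  have hGq : qExpansion 1 G = tc Gs := by
    have hT := T_mem_Gamma0 p
    ext k
    rw [hG, hG1.qExpansion_smul hT, E2p_mf.qExpansion_sub (hmf.smul _) hT,
      hmf.qExpansion_smul hT, E2p_qExpansion, hq, map_smul, map_sub, map_smul, coeff_tc, coeff_tc,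
      coeff_tc, smul_eq_mul, smul_eq_mul, inv_mul_eq_iff_eq_mul₀ hrc]
    exact_mod_cast hEs k
  set g0 := toCusp hGmf hGq hG0 with hg0
  have hgq : ∀ k, qCoeff g0 k = ((Gs.coeff k : ℤ) : ℂ) := by
    intro k
    have h3 : qCoeff g0 k = (qExpansion 1 G).coeff k := rfl
    rw [h3, hGq, coeff_tc]
  set g : ↥(intLattice p 2) := ⟨g0, (mem_intLattice_iff g0).mpr fun k => ⟨_, hgq k⟩⟩ with hg
  apply index_eq h5 Es_pair (w := (w : ℤ)) (Nat.isCoprime_iff_coprime.mpr hcop) (g := g)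
  intro k hk
  have h3 : aZ g k = Gs.coeff k := by
    have := aZ_spec g k
    have h4 : ((aZ g k : ℤ) : ℂ) = ((Gs.coeff k : ℤ) : ℂ) := by rw [← this, ← hgq]
    exact_mod_cast h4
  rw [h3, hGs, PowerSeries.coeff_mk]
  exact ⟨-(Hs.coeff k / 2), by ring⟩

end

end Fermat.Agent.Eis
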